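import Fermat.Agent.Cheb.Frob

/-!
# Cheb D3b : `bSum` and `aSum ⊥` as `tSumRes`

`κ = hζ.autToPow ℚ`, `U = zpowers x`, `κ` injective on `U`, `m ∣ δ`, `L` unramified outside `δ`.

Sketch.  Both statements are equalities of index sets (`tsum_congr_set_coe`):
* `{P | ¬ below P ∣ δ ∧ IsFrob P x} = {P | ¬ below P ∣ δ ∧ dec P ≤ U ∧ (below P : ZMod m) = κ x}`.
  (⊆) `FD.dec_eq_zpowers_of_frob`, `autToPow_eq_of_isFrob` (`¬ below P ∣ m` since `m ∣ δ`).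
  (⊇) let `τ` be a Frobenius at `P` (`exists_isFrob`); `τ ∈ dec P ≤ U` (`FD.mem_dec_of_frob`), `κ τ = below P = κ x` (`Units.ext`), so `κ (τ * x⁻¹) = 1`, `τ * x⁻¹ ∈ U`, `τ = x`.
* `{P | ¬ below P ∣ δ ∧ dec P = ⊥} = {P | ¬ below P ∣ δ ∧ dec P ≤ U ∧ (below P : ZMod m) = 1}`.
  (⊆) the Frobenius `τ ∈ dec P = ⊥` is `1`, `κ 1 = 1`.  (⊇) `κ τ = 1`, `τ ∈ U`, so `τ = 1`, `dec P = zpowers 1 = ⊥`.
-/

set_option autoImplicit false
set_option linter.unusedSectionVars false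

namespace Fermat.Agent.Cheb

open NumberField IsDedekindDomain Pointwise
open Fermat.Agent.FD Fermat.Agent.S14

variable (L : Type*) [Field L] [NumberField L] [IsGalois ℚ L]

theorem bSum_eq_tSumRes {m : ℕ} [NeZero m] {ζ : L} (hζ : IsPrimitiveRoot ζ m) (δ : ℕ)
    (hδ : UnramOutside L δ) (hmδ : m ∣ δ) (x : Gal(L/ℚ))
    (hinj : ∀ y ∈ Subgroup.zpowers x, hζ.autToPow ℚ y = 1 → y = 1) (s : ℝ) :
    bSum L δ x s =
      tSumRes L δ (Subgroup.zpowers x) m ((hζ.autToPow ℚ x : (ZMod m)ˣ) : ZMod m) s := by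
  unfold bSum tSumRes
  apply tsum_congr_set_coe
  ext P
  simp only [Set.mem_ofPred_eq]
  constructor
  · rintro ⟨h1, h2⟩
    have hI := hδ P h1
    exact ⟨h1, (dec_eq_zpowers_of_frob L P hI x h2).le,
      (autToPow_eq_of_isFrob L hζ P (fun h => h1 (h.trans hmδ)) x h2).symm⟩
  · rintro ⟨h1, h2, h3⟩
    obtain ⟨τ, hτ⟩ := exists_isFrob L P
    have hτU : τ ∈ Subgroup.zpowers x := h2 (mem_dec_of_frob L P τ hτ)
    have hκ := autToPow_eq_of_isFrob L hζ P (fun h => h1 (h.trans hmδ)) τ hτ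
    have e1 : hζ.autToPow ℚ τ = hζ.autToPow ℚ x := Units.ext (hκ.trans h3)
    have e2 : τ * x⁻¹ = 1 :=
      hinj _ (mul_mem hτU (inv_mem (Subgroup.mem_zpowers x)))
        (by rw [map_mul, map_inv, e1, mul_inv_cancel])
    have e3 : τ = x := mul_inv_eq_one.1 e2
    exact ⟨h1, e3 ▸ hτ⟩

theorem aSum_bot_eq_tSumRes {m : ℕ} [NeZero m] {ζ : L} (hζ : IsPrimitiveRoot ζ m) (δ : ℕ)
    (hδ : UnramOutside L δ) (hmδ : m ∣ δ) (U : Subgroup Gal(L/ℚ))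
    (hinj : ∀ y ∈ U, hζ.autToPow ℚ y = 1 → y = 1) (s : ℝ) :
    aSum L δ ⊥ s = tSumRes L δ U m 1 s := by
  unfold aSum tSumRes
  apply tsum_congr_set_coe
  ext P
  simp only [Set.mem_ofPred_eq]
  constructor
  · rintro ⟨h1, h2⟩
    obtain ⟨τ, hτ⟩ := exists_isFrob L P
    have hτ1 : τ = 1 := by
      have := mem_dec_of_frob L P τ hτ
      rw [h2, Subgroup.mem_bot] at this
      exact this
    have hκ := autToPow_eq_of_isFrob L hζ P (fun h => h1 (h.trans hmδ)) τ hτ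
    rw [hτ1, map_one, Units.val_one] at hκ
    exact ⟨h1, h2 ▸ bot_le, hκ.symm⟩
  · rintro ⟨h1, h2, h3⟩
    obtain ⟨τ, hτ⟩ := exists_isFrob L P
    have hτU : τ ∈ U := h2 (mem_dec_of_frob L P τ hτ)
    have hκ := autToPow_eq_of_isFrob L hζ P (fun h => h1 (h.trans hmδ)) τ hτ
    have e1 : hζ.autToPow ℚ τ = 1 := Units.ext (by rw [hκ, h3, Units.val_one])
    have e2 : τ = 1 := hinj τ hτU e1
    refine ⟨h1, ?_⟩
    rw [dec_eq_zpowers_of_frob L P (hδ P h1) τ hτ, e2, Subgroup.zpowers_one_eq_bot]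

end Fermat.Agent.Cheb
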