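import Fermat.Agent.Cheb.Defs

/-!
# Cheb C1 : orthogonality relations for Dirichlet characters, real form

Sketch.  `DirichletCharacter.sum_char_inv_mul_char_eq ℂ (a.isUnit) b : ∑ χ, χ a⁻¹ * χ b = if a = b then φ(m) else 0`
(`HasEnoughRootsOfUnity ℂ _` is an instance).  For a unit `a`: `χ (a⁻¹) = conj (χ a)` (`MulChar.inv_apply_eq_inv'`/`DirichletCharacter` star lemmas:
`‖χ a‖ = 1` (`DirichletCharacter.unit_norm_eq_one`), so `(χ a)⁻¹ = conj (χ a)`: `Complex.inv_eq_conj`).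
`2 Re(χ a) Re(χ b) = Re ((χ a⁻¹ + χ a) * χ b)` because `χ a⁻¹ + χ a = 2 Re (χ a)` is real.  Sum over `χ`, use the relation for `a` and for `a⁻¹`
(coercions: `((a⁻¹ : (ZMod m)ˣ) : ZMod m) = (a : ZMod m)⁻¹`, `ZMod.inv_coe_unit`; `Units.ext_iff`).
`card_trivial_mul_card`: double count `∑_{u ∈ W} ∑_χ χ u = φ(m)` (`DirichletCharacter.sum_characters_eq`, only `u = 1` contributes) and
`∑_χ ∑_{u ∈ W} χ u = |X₀| |W|`: for `χ` trivial on `W` the inner sum is `|W|`; otherwise it is `0` (translate by `u₀ ∈ W` with `χ u₀ ≠ 1`).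
-/

set_option autoImplicit false
set_option linter.unusedSectionVars false
set_option linter.unnecessarySeqFocus false

namespace Fermat.Agent.Cheb

variable {m : ℕ} [NeZero m]

theorem Char.char_inv_eq_conj (χ : DirichletCharacter ℂ m) (a : (ZMod m)ˣ) :
    χ ((a : ZMod m)⁻¹) = (starRingEnd ℂ) (χ (a : ZMod m)) := by
  have h1 : χ ((a : ZMod m)⁻¹) * χ (a : ZMod m) = 1 := by
    rw [← map_mul, ZMod.inv_mul_of_unit _ a.isUnit, map_one]
  have h2 : ‖χ (a : ZMod m)‖ = 1 := χ.unit_norm_eq_one a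
  have h3 : (χ (a : ZMod m))⁻¹ = (starRingEnd ℂ) (χ (a : ZMod m)) := Complex.inv_eq_conj h2
  rw [← h3]
  exact eq_inv_of_mul_eq_one_left h1

theorem sum_re_mul_re (a b : (ZMod m)ˣ) :
    ∑ χ : DirichletCharacter ℂ m, 2 * (χ (a : ZMod m)).re * (χ (b : ZMod m)).re =
      (m.totient : ℝ) * ((if b = a then 1 else 0) + (if b = a⁻¹ then 1 else 0)) := by
  have h1 := DirichletCharacter.sum_char_inv_mul_char_eq ℂ a.isUnit (b : ZMod m)
  have h2 := DirichletCharacter.sum_char_inv_mul_char_eq ℂ (a⁻¹).isUnit (b : ZMod m)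
  have e : (((a⁻¹ : (ZMod m)ˣ) : ZMod m))⁻¹ = (a : ZMod m) := by
    rw [ZMod.inv_coe_unit, inv_inv]
  rw [e] at h2
  have key : ∀ χ : DirichletCharacter ℂ m, 2 * (χ (a : ZMod m)).re * (χ (b : ZMod m)).re =
      (χ ((a : ZMod m)⁻¹) * χ (b : ZMod m) + χ (a : ZMod m) * χ (b : ZMod m)).re := by
    intro χ
    rw [Char.char_inv_eq_conj]
    simp only [Complex.add_re, Complex.mul_re, Complex.conj_re, Complex.conj_im]
    ring
  simp only [key]
  rw [← Complex.re_sum, Finset.sum_add_distrib, h1, h2]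
  have c1 : ((a : ZMod m) = (b : ZMod m)) ↔ b = a := by
    rw [← Units.ext_iff]; exact eq_comm
  have c2 : (((a⁻¹ : (ZMod m)ˣ) : ZMod m) = (b : ZMod m)) ↔ b = a⁻¹ := by
    rw [← Units.ext_iff]; exact eq_comm
  simp only [c1, c2]
  split_ifs <;> simp <;> ring

theorem abs_re_le_one (χ : DirichletCharacter ℂ m) (a : ZMod m) : |(χ a).re| ≤ 1 :=
  (Complex.abs_re_le_norm _).trans (χ.norm_le_one a)

open Classical in
theorem card_trivial_mul_card (W : Subgroup (ZMod m)ˣ) :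
    (Finset.univ.filter fun χ : DirichletCharacter ℂ m => ∀ u ∈ W, χ ((u : (ZMod m)ˣ) : ZMod m) = 1).card *
      Nat.card W = m.totient := by
  have hS1 : ∑ u : W, ∑ χ : DirichletCharacter ℂ m, χ ((u : (ZMod m)ˣ) : ZMod m)
      = (m.totient : ℂ) := by
    simp only [DirichletCharacter.sum_characters_eq]
    rw [Finset.sum_eq_single (1 : W)]
    · simp
    · intro u _ hu
      rw [if_neg]
      intro h
      apply hu
      apply Subtype.ext
      apply Units.ext
      simpa using h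
    · intro h; exact absurd (Finset.mem_univ _) h
  have hin : ∀ χ : DirichletCharacter ℂ m, ∑ u : W, χ ((u : (ZMod m)ˣ) : ZMod m) =
      if (∀ u ∈ W, χ ((u : (ZMod m)ˣ) : ZMod m) = 1) then (Nat.card W : ℂ) else 0 := by
    intro χ
    split_ifs with h
    · have hc : ∀ u ∈ (Finset.univ : Finset W), χ ((u : (ZMod m)ˣ) : ZMod m) = 1 :=
        fun u _ => h (u : (ZMod m)ˣ) u.property
      rw [Finset.sum_congr rfl hc]
      simp [Nat.card_eq_fintype_card]
    · push Not at h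
      obtain ⟨u₀, hu₀, hne⟩ := h
      have h1 : ∑ u : W, χ ((u : (ZMod m)ˣ) : ZMod m) =
          χ ((u₀ : (ZMod m)ˣ) : ZMod m) * ∑ u : W, χ ((u : (ZMod m)ˣ) : ZMod m) := by
        rw [Finset.mul_sum]
        rw [← Equiv.sum_comp (Equiv.mulLeft (⟨u₀, hu₀⟩ : W))]
        apply Finset.sum_congr rfl
        intro u _
        rw [← map_mul]
        rfl
      have h2 : (χ ((u₀ : (ZMod m)ˣ) : ZMod m) - 1) * ∑ u : W, χ ((u : (ZMod m)ˣ) : ZMod m) = 0 := by
        rw [sub_mul, one_mul, ← h1, sub_self]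
      exact (mul_eq_zero.1 h2).resolve_left (sub_ne_zero.2 hne)
  rw [Finset.sum_comm] at hS1
  simp only [hin] at hS1
  rw [← Finset.sum_filter, Finset.sum_const, nsmul_eq_mul] at hS1
  exact_mod_cast hS1

end Fermat.Agent.Cheb
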