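import Fermat.Agent.Cheb.UnfoldT

/-!
# Cheb A3 : partial `L`-series of ideal classes

Sketch.
* `tsum_principal_dvd_T`: COPY `Fermat.Agent.S14.tsum_principal_dvd` (`S14/Density/ClassIdeal.lean`): the bijection `I' ↦ J * I'`,
  `lterm (J * I') = f J * N J^{-s} * lterm I'` (`map_mul`, `Real.mul_rpow`, `Complex.ofReal_mul`), `tsum_mul_left`.
* `latSumT_eq`: `(hasSum_latSumT ..).tsum_eq` + the previous.
* `lsum_eq_sum_partialL`: COPY `Fermat.Agent.S14.lsum_classChar_eq_sum` (`S14/Density/ClassL.lean`): `lsum_empty`, `Equiv.sigmaFiberEquiv`,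
  `summable_lsum_term`, `Summable.tsum_sigma`, `tsum_fintype`.
-/

set_option autoImplicit false

namespace Fermat.Agent.Cheb

open NumberField IsDedekindDomain NumberField.Units
open Fermat.Agent.FD Fermat.Agent.S14

variable (K : Type*) [Field K] [NumberField K]

theorem tsum_principal_dvd_T (f : nonZeroDivisors (Ideal (𝓞 K)) →* ℂ)
    (J : nonZeroDivisors (Ideal (𝓞 K))) (C : ClassGroup (𝓞 K))
    (hJ : ClassGroup.mk0 J = C⁻¹) (s : ℝ) :
    ∑' I : {I : nonZeroDivisors (Ideal (𝓞 K)) //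
        (J : Ideal (𝓞 K)) ∣ (I : Ideal (𝓞 K)) ∧ (I : Ideal (𝓞 K)).IsPrincipal}, lterm K f s I =
    lterm K f s J * partialL K f C s := by
  classical
  let φ : {I : nonZeroDivisors (Ideal (𝓞 K)) // ClassGroup.mk0 I = C} →
      {I : nonZeroDivisors (Ideal (𝓞 K)) //
        (J : Ideal (𝓞 K)) ∣ (I : Ideal (𝓞 K)) ∧ (I : Ideal (𝓞 K)).IsPrincipal} :=
    fun I' => ⟨J * I'.1, by
      refine ⟨by rw [Submonoid.coe_mul]; exact dvd_mul_right _ _, ?_⟩
      rw [← ClassGroup.mk0_eq_one_iff (J * I'.1).2]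
      change ClassGroup.mk0 (J * I'.1) = 1
      rw [map_mul, hJ, I'.2, inv_mul_cancel]⟩
  have hJ0 : (J : Ideal (𝓞 K)) ≠ 0 := nonZeroDivisors.coe_ne_zero J
  have hφ : Function.Bijective φ := by
    constructor
    · intro a b hab
      have h1 : (J : Ideal (𝓞 K)) * (a.1 : Ideal (𝓞 K)) = (J : Ideal (𝓞 K)) * (b.1 : Ideal (𝓞 K)) := by
        have := congrArg (fun x => ((x.1 : nonZeroDivisors (Ideal (𝓞 K))) : Ideal (𝓞 K))) hab
        simpa [φ] using this
      exact Subtype.ext (Subtype.ext (mul_left_cancel₀ hJ0 h1))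
    · rintro ⟨I, ⟨I'', hI''⟩, hprin⟩
      have hI0 : (I : Ideal (𝓞 K)) ≠ 0 := nonZeroDivisors.coe_ne_zero I
      have hI''0 : I'' ≠ 0 := by
        rintro rfl
        rw [mul_zero] at hI''
        exact hI0 hI''
      let I₂ : nonZeroDivisors (Ideal (𝓞 K)) := ⟨I'', mem_nonZeroDivisors_of_ne_zero hI''0⟩
      have hmul : I = J * I₂ := Subtype.ext hI''
      have h1 : ClassGroup.mk0 I = 1 := (ClassGroup.mk0_eq_one_iff I.2).mpr hprin
      have h2 : ClassGroup.mk0 I₂ = C := by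
        rw [hmul, map_mul, hJ] at h1
        exact (inv_mul_eq_one.mp h1).symm
      exact ⟨⟨I₂, h2⟩, Subtype.ext hmul.symm⟩
  rw [← (Equiv.ofBijective φ hφ).tsum_eq, partialL, ← tsum_mul_left]
  refine tsum_congr fun I' => ?_
  change lterm K f s (J * I'.1) = _
  rw [lterm, lterm, lterm, Submonoid.coe_mul, map_mul, map_mul, Nat.cast_mul,
    Real.mul_rpow (Nat.cast_nonneg _) (Nat.cast_nonneg _)]
  push_cast
  ring

theorem latSumT_eq (f : nonZeroDivisors (Ideal (𝓞 K)) →* ℂ) (hf : ∀ I, ‖f I‖ ≤ 1)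
    (θ : 𝓞 K → ℂ) (hθ : ∀ (x : 𝓞 K) (hx : x ≠ 0), θ x = f (spanIdl K x hx))
    (J : nonZeroDivisors (Ideal (𝓞 K))) (C : ClassGroup (𝓞 K))
    (hJ : ClassGroup.mk0 J = C⁻¹) {s : ℝ} (hs : 1 < s) :
    latSumT K θ J s = (torsionOrder K : ℂ) * (lterm K f s J * partialL K f C s) := by
  rw [latSumT, (hasSum_latSumT K f hf θ hθ J hs).tsum_eq, tsum_principal_dvd_T K f J C hJ s]

theorem lsum_eq_sum_partialL (f : nonZeroDivisors (Ideal (𝓞 K)) →* ℂ) (hf : ∀ I, ‖f I‖ ≤ 1)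
    {s : ℝ} (hs : 1 < s) :
    lsum f ∅ s = ∑ C : ClassGroup (𝓞 K), partialL K f C s := by
  have hsum := summable_lsum_term f hf hs
  rw [lsum_empty,
    ← (Equiv.sigmaFiberEquiv (fun I : nonZeroDivisors (Ideal (𝓞 K)) => ClassGroup.mk0 I)).tsum_eq]
  have hsum' := (Equiv.sigmaFiberEquiv
    (fun I : nonZeroDivisors (Ideal (𝓞 K)) => ClassGroup.mk0 I)).summable_iff.mpr hsum
  have hsig := hsum'.tsum_sigma
  simp only [Function.comp_apply] at hsig
  rw [hsig, tsum_fintype]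
  refine Finset.sum_congr rfl fun C _ => ?_
  rw [partialL]
  refine tsum_congr fun I => ?_
  simp only [Equiv.sigmaFiberEquiv_apply]
  rfl

end Fermat.Agent.Cheb
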