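import Fermat.Agent.Cheb.Defs
import Fermat.Agent.S14.Density.Coset

/-!
# Cheb A5 : comparing the twisted lattice sums of `J` and `I₀ J`, `I₀` prime to the period `m` of `θ`

`|∑_{x ∈ J} θ(x) w(x) - N(I₀) ∑_{y ∈ I₀ J} θ(y) w(y)| ≤ M` uniformly for `s ∈ (1,2]`.

Sketch.  As `Fermat.Agent.S14.exists_latSum_compare` / `Coset.abstract_compare` (`S14/Density/Coset.lean`), but the coset representatives of
`J / I₀ J` are chosen IN `m J`: write `1 = a + m b`, `a ∈ I₀` (from `hcop`, `Ideal.mem_sup`/`Submodule.mem_sup`, `Ideal.mem_span_singleton'`); for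
`x ∈ J`: `x = a x + m (b x)`, `a x ∈ I₀ J`.  So every class `c` of `H ⧸ H'` (`H = J`, `H' = I₀ J`) has a representative `r c = m * z`, `z ∈ J`
(take `r c := m * b * out c`).  With the bijection `(c, y) ↦ y + r c` (generalise `Coset.prodEquiv` to an arbitrary section `r` with
`mk (r c) = c`):  `∑_{x ∈ H} θ(x) F(x) = ∑_c ∑_{y ∈ H'} θ(y + r c) F(y + r c) = ∑_c ∑_{y ∈ H'} θ(y) F(y + r c)` (periodicity), and
`‖∑_{y ∈ H'} θ(y) (F(y + r c) - F(y))‖ ≤ ∑_{y ∈ 𝓞 K} |F(y + r c) - F(y)| ≤ M (r c)` (`exists_tsum_shift_bound`).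
The number of classes is `N(I₀ J)/N(J) = N(I₀)` (`Ideal.absNorm_eq_index`, `AddSubgroup.relIndex_mul_index`, `map_mul`), exactly as in
`exists_latSum_compare`.  Summability: `(hasSum_wtO_ideal K J hs).summable` and `‖θ‖ ≤ 1` (`Summable.of_norm_bounded`).
It is convenient to prove first the abstract statement `abstract_compare_T` below.
-/

set_option autoImplicit false

namespace Fermat.Agent.Cheb

open NumberField IsDedekindDomain
open Fermat.Agent.FD Fermat.Agent.S14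

namespace CompareT

/-- the bijection `(H ⧸ s) × s ≃ H`, `(c, y) ↦ y + r c`. -/
noncomputable def prodEquiv {H : Type*} [AddCommGroup H] (s : AddSubgroup H) (r : H ⧸ s → H)
    (hr : ∀ c, (QuotientAddGroup.mk (r c) : H ⧸ s) = c) : (H ⧸ s) × s ≃ H where
  toFun cy := (cy.2 : H) + r cy.1
  invFun x := (QuotientAddGroup.mk x, ⟨x - r (QuotientAddGroup.mk x : H ⧸ s), by
    have h : (QuotientAddGroup.mk (r (QuotientAddGroup.mk x : H ⧸ s)) : H ⧸ s) =
      QuotientAddGroup.mk x := hr _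
    rw [QuotientAddGroup.eq] at h
    have : x - r (QuotientAddGroup.mk x : H ⧸ s) =
      -r (QuotientAddGroup.mk x : H ⧸ s) + x := by abel
    rw [this]; exact h⟩)
  left_inv cy := by
    obtain ⟨c, y⟩ := cy
    have h1 : (QuotientAddGroup.mk ((y : H) + r c) : H ⧸ s) = c := by
      rw [QuotientAddGroup.mk_add, (QuotientAddGroup.eq_zero_iff (y : H)).mpr y.2, zero_add]
      exact hr c
    ext
    · exact h1
    · simp only [h1]; abel
  right_inv x := by simp

theorem prodEquiv_apply {H : Type*} [AddCommGroup H] (s : AddSubgroup H) (r : H ⧸ s → H)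
    (hr : ∀ c, (QuotientAddGroup.mk (r c) : H ⧸ s) = c) (cy : (H ⧸ s) × s) :
    prodEquiv s r hr cy = (cy.2 : H) + r cy.1 := rfl

end CompareT

open CompareT in
theorem abstract_compare_T {A : Type*} [AddCommGroup A] (F : A → ℝ) (θ : A → ℂ)
    (hθ1 : ∀ x, ‖θ x‖ ≤ 1) (H H' : AddSubgroup A)
    (hle : H' ≤ H) [Fintype (H ⧸ H'.addSubgroupOf H)]
    (r : H ⧸ H'.addSubgroupOf H → H) (hr : ∀ c, (QuotientAddGroup.mk (r c) : H ⧸ H'.addSubgroupOf H) = c)
    (hper : ∀ c (y : A), θ (y + ((r c : H) : A)) = θ y)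
    (hH : Summable fun x : H => F x) (M : A → ℝ)
    (hM : ∀ r : A, Summable (fun y : A => |F (y + r) - F y|) ∧
      ∑' y : A, |F (y + r) - F y| ≤ M r) :
    ‖∑' x : H, θ x * ((F x : ℝ) : ℂ) -
        (Fintype.card (H ⧸ H'.addSubgroupOf H) : ℂ) * ∑' y : H', θ y * ((F y : ℝ) : ℂ)‖ ≤
      ∑ c : H ⧸ H'.addSubgroupOf H, M ((r c : H) : A) := by
  set G : A → ℂ := fun x => θ x * ((F x : ℝ) : ℂ) with hG
  have hGH : Summable fun x : H => G x := by
    refine Summable.of_norm_bounded hH.abs (fun x => ?_)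
    rw [hG]
    simp only [norm_mul, Complex.norm_real, Real.norm_eq_abs]
    calc ‖θ x‖ * |F x| ≤ 1 * |F x| := mul_le_mul_of_nonneg_right (hθ1 _) (abs_nonneg _)
      _ = |F x| := one_mul _
  -- summability on the product
  have hsum : Summable fun cy : (H ⧸ H'.addSubgroupOf H) × H'.addSubgroupOf H =>
      G (((cy.2 : H) + r cy.1 : H) : A) := by
    have h0 := ((prodEquiv (H'.addSubgroupOf H) r hr).summable_iff (f := fun x : H => G x)).mpr hGH
    simpa only [Function.comp_def, prodEquiv_apply] using h0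
  have e1 : ∑' x : H, G x = ∑' cy : (H ⧸ H'.addSubgroupOf H) × H'.addSubgroupOf H,
      G (((cy.2 : H) + r cy.1 : H) : A) := by
    have h0 := ((prodEquiv (H'.addSubgroupOf H) r hr).tsum_eq (fun x : H => G x)).symm
    simpa only [prodEquiv_apply] using h0
  have hfib : ∀ c : H ⧸ H'.addSubgroupOf H, Summable fun y : H'.addSubgroupOf H =>
      G (((y : H) + r c : H) : A) :=
    fun c => hsum.prod_factor c
  have e2 : ∑' cy : (H ⧸ H'.addSubgroupOf H) × H'.addSubgroupOf H, G (((cy.2 : H) + r cy.1 : H) : A) =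
      ∑ c : H ⧸ H'.addSubgroupOf H, ∑' y : H'.addSubgroupOf H, G (((y : H) + r c : H) : A) := by
    rw [hsum.tsum_prod' hfib, tsum_fintype]
  -- transport from `s` to `H'`
  let e := (AddSubgroup.addSubgroupOfEquivOfLe hle).toEquiv
  have e3 : ∀ G' : A → ℂ, ∑' y : H'.addSubgroupOf H, G' ((y : H) : A) = ∑' y : H', G' y := by
    intro G'
    rw [← e.tsum_eq (fun y : H' => G' y)]
    rfl
  have s3 : ∀ G' : A → ℂ, (Summable fun y : H'.addSubgroupOf H => G' ((y : H) : A)) →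
      Summable fun y : H' => G' y := by
    intro G' hG'
    rw [← e.summable_iff]
    exact hG'
  have hfib' : ∀ c : H ⧸ H'.addSubgroupOf H, Summable fun y : H' => G ((y : A) + ((r c : H) : A)) := by
    intro c
    exact s3 (fun a => G (a + ((r c : H) : A))) (by simpa using hfib c)
  have hH' : Summable fun y : H' => G y := by
    have := hGH.comp_injective (AddSubgroup.inclusion_injective hle)
    exact this
  have e4 : ∀ c : H ⧸ H'.addSubgroupOf H, ∑' y : H'.addSubgroupOf H, G (((y : H) + r c : H) : A) =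
      ∑' y : H', G ((y : A) + ((r c : H) : A)) := by
    intro c
    rw [← e3 (fun a => G (a + ((r c : H) : A)))]
    simp
  change ‖∑' x : H, G x - (Fintype.card (H ⧸ H'.addSubgroupOf H) : ℂ) * ∑' y : H', G y‖ ≤ _
  rw [e1, e2]
  have e5 : (Fintype.card (H ⧸ H'.addSubgroupOf H) : ℂ) * ∑' y : H', G y =
      ∑ _c : H ⧸ H'.addSubgroupOf H, ∑' y : H', G y := by
    simp
  rw [e5, ← Finset.sum_sub_distrib]
  refine (norm_sum_le _ _).trans (Finset.sum_le_sum fun c _ => ?_)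
  rw [e4 c, ← (hfib' c).tsum_sub hH']
  obtain ⟨hs1, hs2⟩ := hM ((r c : H) : A)
  have hs1' : Summable fun y : H' => |F ((y : A) + ((r c : H) : A)) - F y| :=
    hs1.subtype _
  have hbd : ∀ y : H', ‖G ((y : A) + ((r c : H) : A)) - G y‖ ≤
      |F ((y : A) + ((r c : H) : A)) - F y| := by
    intro y
    have : G ((y : A) + ((r c : H) : A)) - G y =
        θ y * (((F ((y : A) + ((r c : H) : A)) - F y : ℝ)) : ℂ) := by
      simp only [hG]
      rw [hper c]
      push_cast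
      ring
    rw [this, norm_mul, Complex.norm_real, Real.norm_eq_abs]
    calc ‖θ y‖ * |F ((y : A) + ((r c : H) : A)) - F y| ≤ 1 * |F ((y : A) + ((r c : H) : A)) - F y| :=
          mul_le_mul_of_nonneg_right (hθ1 _) (abs_nonneg _)
      _ = _ := one_mul _
  calc ‖∑' y : H', (G ((y : A) + ((r c : H) : A)) - G y)‖
      ≤ ∑' y : H', |F ((y : A) + ((r c : H) : A)) - F y| :=
        tsum_of_norm_bounded hs1'.hasSum hbd
    _ ≤ ∑' y : A, |F (y + ((r c : H) : A)) - F y| :=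
        hs1.tsum_subtype_le _ _ (fun _ => abs_nonneg _)
    _ ≤ _ := hs2

variable (K : Type*) [Field K] [NumberField K]

theorem exists_latSumT_compare (θ : 𝓞 K → ℂ) (hθ1 : ∀ x, ‖θ x‖ ≤ 1) (m : ℕ)
    (hθ : ∀ x y : 𝓞 K, θ (x + (m : 𝓞 K) * y) = θ x)
    (J I₀ : nonZeroDivisors (Ideal (𝓞 K)))
    (hcop : (I₀ : Ideal (𝓞 K)) ⊔ Ideal.span {(m : 𝓞 K)} = ⊤) :
    ∃ M : ℝ, ∀ s : ℝ, 1 < s → s ≤ 2 →
      ‖latSumT K θ (J : Ideal (𝓞 K)) s -
        (Ideal.absNorm (I₀ : Ideal (𝓞 K)) : ℂ) *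
          latSumT K θ ((I₀ * J : nonZeroDivisors (Ideal (𝓞 K))) : Ideal (𝓞 K)) s‖ ≤ M := by
  classical
  set J' : nonZeroDivisors (Ideal (𝓞 K)) := I₀ * J with hJ'def
  have h : (J' : Ideal (𝓞 K)) ≤ (J : Ideal (𝓞 K)) := by
    rw [hJ'def, Submonoid.coe_mul]
    exact Ideal.mul_le_right (I := (I₀ : Ideal (𝓞 K))) (J := (J : Ideal (𝓞 K)))
  set H : AddSubgroup (𝓞 K) := (J : Ideal (𝓞 K)).toAddSubgroup with hHdef
  set H' : AddSubgroup (𝓞 K) := (J' : Ideal (𝓞 K)).toAddSubgroup with hH'def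
  have hle : H' ≤ H := Submodule.toAddSubgroup_mono h
  have hidx : H'.relIndex H * H.index = H'.index := AddSubgroup.relIndex_mul_index hle
  have hJ' : Ideal.absNorm (J' : Ideal (𝓞 K)) ≠ 0 := by
    rw [Ne, Ideal.absNorm_eq_zero_iff]
    exact nonZeroDivisors.coe_ne_zero J'
  have hJ0 : Ideal.absNorm (J : Ideal (𝓞 K)) ≠ 0 := by
    rw [Ne, Ideal.absNorm_eq_zero_iff]
    exact nonZeroDivisors.coe_ne_zero J
  have hN : Ideal.absNorm (J : Ideal (𝓞 K)) = H.index := Ideal.absNorm_eq_index _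
  have hN' : Ideal.absNorm (J' : Ideal (𝓞 K)) = H'.index := Ideal.absNorm_eq_index _
  have hrel : H'.relIndex H = Ideal.absNorm (I₀ : Ideal (𝓞 K)) := by
    rw [← hN, ← hN', hJ'def, Submonoid.coe_mul, map_mul] at hidx
    exact Nat.eq_of_mul_eq_mul_right (Nat.pos_of_ne_zero hJ0) hidx
  have hI0 : Ideal.absNorm (I₀ : Ideal (𝓞 K)) ≠ 0 := by
    rw [Ne, Ideal.absNorm_eq_zero_iff]
    exact nonZeroDivisors.coe_ne_zero I₀
  have hfin : Finite (H ⧸ H'.addSubgroupOf H) := by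
    have : (H'.addSubgroupOf H).index ≠ 0 := by
      change H'.relIndex H ≠ 0
      rw [hrel]; exact hI0
    have : (H'.addSubgroupOf H).FiniteIndex := ⟨this⟩
    exact AddSubgroup.finite_quotient_of_finiteIndex
  let _ : Fintype (H ⧸ H'.addSubgroupOf H) := Fintype.ofFinite _
  have hcard : Fintype.card (H ⧸ H'.addSubgroupOf H) = H'.relIndex H := by
    rw [← Nat.card_eq_fintype_card]; rfl
  -- the section
  have h1 : (1 : 𝓞 K) ∈ (I₀ : Ideal (𝓞 K)) ⊔ Ideal.span {(m : 𝓞 K)} := by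
    rw [hcop]; trivial
  obtain ⟨a, ha, y, hy, hay⟩ := Submodule.mem_sup.1 h1
  obtain ⟨b, rfl⟩ := Ideal.mem_span_singleton'.1 hy
  let r : H ⧸ H'.addSubgroupOf H → H := fun c =>
    ⟨(m : 𝓞 K) * (b * ((Quotient.out c : H) : 𝓞 K)),
      Ideal.mul_mem_left _ _ (Ideal.mul_mem_left _ _ (Quotient.out c : H).2)⟩
  have hr : ∀ c, (QuotientAddGroup.mk (r c) : H ⧸ H'.addSubgroupOf H) = c := by
    intro c
    conv_rhs => rw [← QuotientAddGroup.out_eq' c]
    rw [QuotientAddGroup.eq, AddSubgroup.mem_addSubgroupOf]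
    have : ((-(r c) + (Quotient.out c : H) : H) : 𝓞 K) = a * ((Quotient.out c : H) : 𝓞 K) := by
      change -((m : 𝓞 K) * (b * ((Quotient.out c : H) : 𝓞 K))) + ((Quotient.out c : H) : 𝓞 K) = _
      linear_combination (-((Quotient.out c : H) : 𝓞 K)) * hay
    rw [this]
    change a * ((Quotient.out c : H) : 𝓞 K) ∈ (J' : Ideal (𝓞 K))
    rw [hJ'def, Submonoid.coe_mul]
    exact Ideal.mul_mem_mul ha (Quotient.out c : H).2
  have hper : ∀ c (y : 𝓞 K), θ (y + ((r c : H) : 𝓞 K)) = θ y := fun c y => hθ y _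
  choose M hM using exists_tsum_shift_bound K
  refine ⟨∑ c : H ⧸ H'.addSubgroupOf H, M ((r c : H) : 𝓞 K), fun s hs hs2 => ?_⟩
  have hsum : Summable fun x : H => wtO K s (x : 𝓞 K) := (hasSum_wtO_ideal K J hs).summable
  have key := abstract_compare_T (wtO K s) θ hθ1 H H' hle r hr hper hsum M
    (fun r => hM r s ⟨hs.le, hs2⟩)
  rw [hcard, hrel] at key
  exact key

end Fermat.Agent.Cheb
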