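import Fermat.Agent.Cheb.Defs

/-!
# Cheb A6 : ideals prime to `m`

Sketch.
* `exists_mk0_eq_coprime`: pick `J₁` with `mk0 J₁ = C⁻¹` (`ClassGroup.mk0_surjective`).  `IsDedekindDomain.exists_sup_span_eq` with
  `I = J₁ * (m) ≤ J₁`: `∃ a, J₁ * (m) ⊔ span {a} = J₁`.  Then `a ∈ J₁`, `a ≠ 0` (else `J₁ * (m) = J₁`, so `(m) = ⊤` ... treat `m = 1` or
  argue: if `a = 0` take any nonzero element; simpler: if `span {m} = ⊤` everything is trivial), `span {a} = J₁ * J` (`Ideal.dvd_span_singleton`), and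
  `J₁ * ((m) ⊔ J) = J₁` (`Ideal.mul_sup`), so `(m) ⊔ J = ⊤` (cancel `J₁ ≠ 0`: `mul_right_injective₀`/`Ideal.mul_left_cancel...`, `mul_one`).
  `mk0 J₁ * mk0 J = 1` (`ClassGroup.mk0_eq_one_iff`), so `mk0 J = C`.
* `coprime_of_normChar_ne_zero`: `χ (N I) ≠ 0` ⟹ `IsUnit ((N I : ℕ) : ZMod m)` (`MulChar.map_nonunit` contrapositive) ⟹ `Nat.Coprime (N I) m`
  (`ZMod.isUnit_iff_coprime`) ⟹ `u * N I + v * m = 1` in `ℤ`, hence in `𝓞 K`; `(N I : 𝓞 K) ∈ I` (`Ideal.absNorm_mem`).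
* `norm_normChar_eq_one`: `J ⊔ (m) = ⊤` ⟹ `Nat.Coprime (N J) m`: otherwise a prime `p ∣ N J = card (𝓞 K ⧸ J)` and `p ∣ m`; Cauchy
  (`exists_prime_addOrderOf_dvd_card`) gives `z ≠ 0` in `𝓞 K ⧸ J` with `p • z = 0`, so `m • z = 0`; but `m` is invertible modulo `J`.
  Then `DirichletCharacter.unit_norm_eq_one` (`χ` of a unit has norm one).
-/

set_option autoImplicit false
set_option linter.unusedSectionVars false

namespace Fermat.Agent.Cheb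

open NumberField IsDedekindDomain
open Fermat.Agent.FD Fermat.Agent.S14

variable (K : Type*) [Field K] [NumberField K]

theorem exists_mk0_eq_coprime (C : ClassGroup (𝓞 K)) (m : ℕ) (hm : m ≠ 0) :
    ∃ J : nonZeroDivisors (Ideal (𝓞 K)), ClassGroup.mk0 J = C ∧
      (J : Ideal (𝓞 K)) ⊔ Ideal.span {(m : 𝓞 K)} = ⊤ := by
  obtain ⟨J₁, hJ₁⟩ := ClassGroup.mk0_surjective C⁻¹
  have hJ₁0 : (J₁ : Ideal (𝓞 K)) ≠ 0 := nonZeroDivisors.coe_ne_zero J₁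
  set Mi : Ideal (𝓞 K) := Ideal.span {(m : 𝓞 K)} with hMi
  have hMi0 : Mi ≠ 0 := by
    rw [hMi, Ne, Ideal.zero_eq_bot, Ideal.span_singleton_eq_bot]
    exact_mod_cast hm
  obtain ⟨a, ha⟩ := IsDedekindDomain.exists_sup_span_eq
    (I := (J₁ : Ideal (𝓞 K)) * Mi) (J := (J₁ : Ideal (𝓞 K))) Ideal.mul_le_left
    (mul_ne_zero hJ₁0 hMi0)
  by_cases ha0 : a = 0
  · subst ha0
    have h1 : (J₁ : Ideal (𝓞 K)) * Mi = (J₁ : Ideal (𝓞 K)) * 1 := by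
      rw [mul_one]
      simpa using ha
    have h2 : Mi = 1 := mul_left_cancel₀ hJ₁0 h1
    obtain ⟨J, hJ⟩ := ClassGroup.mk0_surjective C
    refine ⟨J, hJ, ?_⟩
    rw [h2, Ideal.one_eq_top, sup_top_eq]
  · have hle : Ideal.span {a} ≤ (J₁ : Ideal (𝓞 K)) := by
      rw [← ha]
      exact le_sup_right
    obtain ⟨J, hJ⟩ := Ideal.dvd_iff_le.2 hle
    have hspan0 : Ideal.span {a} ≠ (0 : Ideal (𝓞 K)) := by
      rw [Ne, Ideal.zero_eq_bot, Ideal.span_singleton_eq_bot]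
      exact ha0
    have hJ0 : J ≠ 0 := by
      rintro rfl
      rw [mul_zero] at hJ
      exact hspan0 hJ
    have h1 : (J₁ : Ideal (𝓞 K)) * (Mi ⊔ J) = (J₁ : Ideal (𝓞 K)) * 1 := by
      rw [Ideal.mul_sup, ← hJ, ha, mul_one]
    have h2 : Mi ⊔ J = 1 := mul_left_cancel₀ hJ₁0 h1
    refine ⟨⟨J, mem_nonZeroDivisors_of_ne_zero hJ0⟩, ?_, ?_⟩
    · have h3 : ClassGroup.mk0 (J₁ * ⟨J, mem_nonZeroDivisors_of_ne_zero hJ0⟩) = 1 := by
        have h4 : (J₁ * ⟨J, mem_nonZeroDivisors_of_ne_zero hJ0⟩ : nonZeroDivisors (Ideal (𝓞 K))) =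
            ⟨Ideal.span {a}, mem_nonZeroDivisors_of_ne_zero hspan0⟩ := by
          apply Subtype.ext
          exact hJ.symm
        rw [h4, ClassGroup.mk0_eq_one_iff]
        exact ⟨⟨a, rfl⟩⟩
      rw [map_mul, hJ₁] at h3
      exact (inv_mul_eq_one.1 h3).symm
    · change J ⊔ Mi = ⊤
      rw [sup_comm, h2, Ideal.one_eq_top]

theorem coprime_of_normChar_ne_zero {m : ℕ} (χ : DirichletCharacter ℂ m)
    (I : nonZeroDivisors (Ideal (𝓞 K))) (h : normChar K χ I ≠ 0) :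
    (I : Ideal (𝓞 K)) ⊔ Ideal.span {(m : 𝓞 K)} = ⊤ := by
  have h1 : IsUnit ((Ideal.absNorm (I : Ideal (𝓞 K)) : ℕ) : ZMod m) := by
    by_contra hn
    exact h (MulChar.map_nonunit χ hn)
  rw [ZMod.isUnit_iff_coprime] at h1
  rw [Ideal.eq_top_iff_one]
  have h2 := Nat.Coprime.gcd_eq_one h1
  have h3 := Int.gcd_eq_gcd_ab (Ideal.absNorm (I : Ideal (𝓞 K)) : ℤ) (m : ℤ)
  rw [Int.gcd_natCast_natCast, h2] at h3
  have h4 : (1 : 𝓞 K) = (Ideal.absNorm (I : Ideal (𝓞 K)) : 𝓞 K) *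
      ((Int.gcdA (Ideal.absNorm (I : Ideal (𝓞 K)) : ℤ) (m : ℤ) : ℤ) : 𝓞 K) +
      (m : 𝓞 K) * ((Int.gcdB (Ideal.absNorm (I : Ideal (𝓞 K)) : ℤ) (m : ℤ) : ℤ) : 𝓞 K) := by
    have := congrArg (fun z : ℤ => (z : 𝓞 K)) h3
    push_cast at this
    exact this
  rw [h4]
  apply Submodule.add_mem_sup
  · exact Ideal.mul_mem_right _ _ (Ideal.absNorm_mem _)
  · exact Ideal.mul_mem_right _ _ (Ideal.mem_span_singleton_self _)

theorem norm_normChar_eq_one {m : ℕ} [NeZero m] (χ : DirichletCharacter ℂ m)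
    (J : nonZeroDivisors (Ideal (𝓞 K))) (h : (J : Ideal (𝓞 K)) ⊔ Ideal.span {(m : 𝓞 K)} = ⊤) :
    ‖normChar K χ J‖ = 1 := by
  have hcop : Nat.Coprime (Ideal.absNorm (J : Ideal (𝓞 K))) m := by
    rw [Nat.coprime_iff_gcd_eq_one] 
    by_contra hne
    obtain ⟨p, hp, hpd⟩ := Nat.exists_prime_and_dvd hne
    have hp1 : p ∣ Ideal.absNorm (J : Ideal (𝓞 K)) := hpd.trans (Nat.gcd_dvd_left _ _)
    have hp2 : p ∣ m := hpd.trans (Nat.gcd_dvd_right _ _)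
    have : Fact p.Prime := ⟨hp⟩
    have hfin : Finite (𝓞 K ⧸ (J : Ideal (𝓞 K))) :=
      Ideal.finiteQuotientOfFreeOfNeBot _ (nonZeroDivisors.coe_ne_zero J)
    have hcard : p ∣ Nat.card (𝓞 K ⧸ (J : Ideal (𝓞 K))) := by
      rw [Ideal.absNorm_apply, Submodule.cardQuot_apply] at hp1
      exact hp1
    obtain ⟨z, hz⟩ := exists_prime_addOrderOf_dvd_card' p hcard
    have hz0 : z ≠ 0 := by
      rintro rfl
      rw [addOrderOf_zero] at hz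
      exact hp.one_lt.ne hz
    have hpz : p • z = 0 := by
      rw [← hz]
      exact addOrderOf_nsmul_eq_zero z
    have hmz : (m : 𝓞 K ⧸ (J : Ideal (𝓞 K))) * z = 0 := by
      obtain ⟨c, rfl⟩ := hp2
      rw [Nat.cast_mul, mul_comm (p : 𝓞 K ⧸ (J : Ideal (𝓞 K))), mul_assoc, ← nsmul_eq_mul p, hpz,
        mul_zero]
    have h1 : (1 : 𝓞 K) ∈ (J : Ideal (𝓞 K)) ⊔ Ideal.span {(m : 𝓞 K)} := by
      rw [h]; trivial
    obtain ⟨x, hx, y, hy, hxy⟩ := Submodule.mem_sup.1 h1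
    obtain ⟨b, rfl⟩ := Ideal.mem_span_singleton'.1 hy
    have h2 := congrArg (Ideal.Quotient.mk (J : Ideal (𝓞 K))) hxy
    rw [map_add, Ideal.Quotient.eq_zero_iff_mem.2 hx, zero_add, map_mul, map_natCast, map_one] at h2
    apply hz0
    calc z = 1 * z := (one_mul z).symm
      _ = _ := by rw [← h2, mul_assoc, hmz, mul_zero]
  have hu : IsUnit ((Ideal.absNorm (J : Ideal (𝓞 K)) : ℕ) : ZMod m) :=
    (ZMod.isUnit_iff_coprime _ _).2 hcop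
  obtain ⟨u, hu⟩ := hu
  change ‖χ ((Ideal.absNorm (J : Ideal (𝓞 K)) : ℕ) : ZMod m)‖ = 1
  rw [← hu]
  exact DirichletCharacter.unit_norm_eq_one χ u

end Fermat.Agent.Cheb
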