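import Fermat.Agent.Cheb.Frob

/-!
# Cheb D4 : the hypotheses `hW`, `hgen` of `equidist` for `F = fixedF L U`, `U = zpowers x`, `W = κ(U)`

Sketch.  `κ = hζ.autToPow ℚ`.
* `inputs_hW`: `w ∈ goodOne F δ`; pick `P` with `underH F P = w` (`FD.underH_surjective`); `below P = below w` (`FD.below_underH`) does not divide `δ`; `dec P ≤ U`
  (`FD.absNorm_underH_prime_iff`), `N w = below P` (`FD.absNorm_underH_eq`); Frobenius `τ` (`exists_isFrob`), `τ ∈ dec P ≤ U` (`FD.mem_dec_of_frob`), `κ τ = below P`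
  (`autToPow_eq_of_isFrob`).  Take `u = κ τ`.
* `inputs_hgen`: `χ` nontrivial on `κ(U)` ⟹ `χ (κ x) ≠ 1` (elements of `U` are powers of `x`: `Subgroup.mem_zpowers_iff`, `map_zpow`, `Units.val_zpow_eq_zpow_val`...; it is easier to use
  the monoid hom `ψ : Gal(L/ℚ) →* ℂˣ` or `→* ℂ`, `ψ = χ ∘ coe ∘ κ`).  `FD.exists_dec_eq_zpowers L δ hδ0 x` gives `P ∤ δ` with `dec P = zpowers x`.  Its Frobenius `τ` generates:
  `zpowers τ = dec P = zpowers x` (`FD.dec_eq_zpowers_of_frob`), so `x = τ^j`; if `χ (κ τ) = 1` then `χ (κ x) = 1`.  Take `w = underH F P`.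
* `inputs_card`: `κ` restricted to `U` is injective (`Subgroup.card_map_of_injective`-like; `Nat.card_congr (Equiv.ofBijective ..)`).
-/

set_option autoImplicit false
set_option linter.unusedSectionVars false

namespace Fermat.Agent.Cheb

open NumberField IsDedekindDomain Pointwise
open Fermat.Agent.FD Fermat.Agent.S14

variable (L : Type*) [Field L] [NumberField L] [IsGalois ℚ L]

theorem inputs_hW {m : ℕ} [NeZero m] {ζ : L} (hζ : IsPrimitiveRoot ζ m) (δ : ℕ)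
    (hδ : UnramOutside L δ) (hmδ : m ∣ δ) (U : Subgroup Gal(L/ℚ)) :
    ∀ w ∈ goodOne (fixedF L U) δ, ∃ u ∈ U.map (hζ.autToPow ℚ),
      ((Ideal.absNorm w.asIdeal : ℕ) : ZMod m) = ((u : (ZMod m)ˣ) : ZMod m) := by
  rintro w ⟨hw1, hw2⟩
  obtain ⟨P, rfl⟩ := underH_surjective (L := L) (fixedF L U) w
  rw [below_underH] at hw1
  have hI := hδ P hw1
  have hdec : dec L P ≤ U := (absNorm_underH_prime_iff L U P hI).1 hw2
  obtain ⟨τ, hτ⟩ := exists_isFrob L P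
  refine ⟨hζ.autToPow ℚ τ, ⟨τ, hdec (mem_dec_of_frob L P τ hτ), rfl⟩, ?_⟩
  rw [absNorm_underH_eq L U P hI hdec,
    autToPow_eq_of_isFrob L hζ P (fun h => hw1 (h.trans hmδ)) τ hτ]

theorem inputs_hgen {m : ℕ} [NeZero m] {ζ : L} (hζ : IsPrimitiveRoot ζ m) (δ : ℕ) (hδ0 : δ ≠ 0)
    (hδ : UnramOutside L δ) (hmδ : m ∣ δ) (x : Gal(L/ℚ)) :
    ∀ χ : DirichletCharacter ℂ m,
      (∃ u ∈ (Subgroup.zpowers x).map (hζ.autToPow ℚ), χ ((u : (ZMod m)ˣ) : ZMod m) ≠ 1) →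
      ∃ w ∈ goodOne (fixedF L (Subgroup.zpowers x)) δ,
        χ ((Ideal.absNorm w.asIdeal : ℕ) : ZMod m) ≠ 1 := by
  rintro χ ⟨u, ⟨y, hy, rfl⟩, hu⟩
  -- the character of the Galois group
  let ψ : Gal(L/ℚ) →* ℂ := (χ.toMonoidHom.comp (Units.coeHom (ZMod m))).comp (hζ.autToPow ℚ)
  have hψ : ∀ g, ψ g = χ ((hζ.autToPow ℚ g : (ZMod m)ˣ) : ZMod m) := fun g => rfl
  obtain ⟨P, hP1, hI, hdec⟩ := exists_dec_eq_zpowers L δ hδ0 x
  obtain ⟨τ, hτ⟩ := exists_isFrob L P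
  have hzp : Subgroup.zpowers τ = Subgroup.zpowers x := by
    rw [← hdec]
    exact (dec_eq_zpowers_of_frob L P hI τ hτ).symm
  refine ⟨underH (fixedF L (Subgroup.zpowers x)) P, ⟨by rw [below_underH]; exact hP1,
    (absNorm_underH_prime_iff L _ P hI).2 hdec.le⟩, ?_⟩
  rw [absNorm_underH_eq L _ P hI hdec.le,
    ← autToPow_eq_of_isFrob L hζ P (fun h => hP1 (h.trans hmδ)) τ hτ, ← hψ]
  intro h1
  apply hu
  rw [← hψ]
  have hy' : y ∈ Subgroup.zpowers τ := by rw [hzp]; exact hy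
  rw [← mem_powers_iff_mem_zpowers] at hy'
  obtain ⟨k, rfl⟩ := hy'
  rw [map_pow, h1, one_pow]

theorem inputs_card {m : ℕ} [NeZero m] {ζ : L} (hζ : IsPrimitiveRoot ζ m) (U : Subgroup Gal(L/ℚ))
    (hinj : ∀ y ∈ U, hζ.autToPow ℚ y = 1 → y = 1) :
    Nat.card (U.map (hζ.autToPow ℚ)) = Nat.card U := by
  symm
  refine Nat.card_congr (Equiv.ofBijective
    (fun y : U => (⟨hζ.autToPow ℚ y, ⟨y, y.2, rfl⟩⟩ : U.map (hζ.autToPow ℚ))) ⟨?_, ?_⟩)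
  · intro a b hab
    have h1 : hζ.autToPow ℚ (a : Gal(L/ℚ)) = hζ.autToPow ℚ (b : Gal(L/ℚ)) :=
      congrArg Subtype.val hab
    have h2 : (a : Gal(L/ℚ)) * (b : Gal(L/ℚ))⁻¹ = 1 :=
      hinj _ (mul_mem a.2 (inv_mem b.2)) (by rw [map_mul, map_inv, h1, mul_inv_cancel])
    exact Subtype.ext (mul_inv_eq_one.1 h2)
  · rintro ⟨_, y, hy, rfl⟩
    exact ⟨⟨y, hy⟩, rfl⟩

end Fermat.Agent.Cheb
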