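import Fermat.Agent.Cheb.Defs

/-!
# Cheb E : fixed fields without real embeddings; positivity of norms

Sketch.
* `normPos_of_no_real`: `K` a number field all of whose complex embeddings are non real.  For `x : 𝓞 K`, `x ≠ 0`:
  `(Algebra.norm ℤ x : ℂ) = algebraMap ℚ ℂ (Algebra.norm ℚ (x : K)) = ∏ φ : K →+* ℂ, φ x` (`Algebra.coe_norm_int`, `Algebra.norm_eq_prod_embeddings` (over `K →ₐ[ℚ] ℂ`;
  `RingHom.equivRatAlgHom`) ).  Group the embeddings by their infinite place (`Finset.prod_fiberwise` with `NumberField.InfinitePlace.mk`): the fibre of a complex place `w` is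
  `{w.embedding, conj w.embedding}` (`NumberField.InfinitePlace.mk_eq_iff`, `NumberField.ComplexEmbedding.conjugate`; compare the proof of
  `NumberField.InfinitePlace.prod_eq_abs_norm` / `card_filter_mk_eq`), the two are different, so the fibre product is `φ x * conj (φ x) = normSq (φ x) > 0`.
  ALTERNATIVE (shorter?): `N := Algebra.norm ℚ x`.  `|N| = ∏_w w x ^ mult w` (`prod_eq_abs_norm`) and all `mult w = 2`; and use the involution `φ ↦ conj φ` without fixed points:
  choose `S` = set of `w.embedding`; `univ = S ⊔ conj S`.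
* `no_real_fixedF`: let `φ : fixedF L U →+* ℂ` be real.  Extend it to `ψ : L →+* ℂ` (`ℂ` algebraically closed, `L` algebraic over the fixed field:
  `IsAlgClosed.lift`, or `NumberField.ComplexEmbedding.lift`/`exists_comp_eq`...).  `L/ℚ` is Galois, so `conj ∘ ψ = ψ ∘ c` for some `c : Gal(L/ℚ)`
  (`NumberField.ComplexEmbedding.exists_comp_symm_eq_of_comp_eq` with `k = ℚ`).  `c` fixes `fixedF L U` pointwise (`ψ` injective, `φ` real), so `c ∈ U`
  (`IntermediateField.fixingSubgroup_fixedField` / `FixedPoints...`; `fixedF L U = FixedPoints.intermediateField U`; `IsGalois.fixingSubgroup_fixedField`-like statement; `U` finite).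
  `c * c = 1` (`ψ` injective, `conj conj = id`).  So `c I = I`, `conj (ψ I) = ψ I`, `ψ I` is real with square `-1`: absurd.
-/

set_option autoImplicit false
set_option linter.unusedSectionVars false

namespace Fermat.Agent.Cheb

open NumberField IsDedekindDomain Pointwise
open Fermat.Agent.FD Fermat.Agent.S14

namespace NormPos

open NumberField.InfinitePlace ComplexConjugate in
theorem prod_embeddings_eq (K : Type*) [Field K] [NumberField K]
    (h : ∀ φ : K →+* ℂ, ¬ NumberField.ComplexEmbedding.IsReal φ) (x : K) :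
    ∏ φ : K →+* ℂ, φ x = ((∏ w : InfinitePlace K, Complex.normSq (w.embedding x) : ℝ) : ℂ) := by
  classical
  rw [← Finset.prod_fiberwise Finset.univ InfinitePlace.mk (fun φ => φ x), Complex.ofReal_prod]
  refine Finset.prod_congr rfl fun w _ => ?_
  have hset : ({φ ∈ (Finset.univ : Finset (K →+* ℂ)) | InfinitePlace.mk φ = w}) =
      {w.embedding, ComplexEmbedding.conjugate w.embedding} := by
    ext φ
    simp only [Finset.mem_filter, Finset.mem_univ, true_and, Finset.mem_insert,
      Finset.mem_singleton]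
    conv_lhs => rw [← mk_embedding w, eq_comm, mk_eq_iff]
    constructor
    · rintro (h1 | h1)
      · exact Or.inl h1.symm
      · exact Or.inr h1.symm
    · rintro (h1 | h1)
      · exact Or.inl h1.symm
      · exact Or.inr h1.symm
  have hne : w.embedding ≠ ComplexEmbedding.conjugate w.embedding := fun h1 =>
    h w.embedding (ComplexEmbedding.isReal_iff.2 h1.symm)
  rw [hset, Finset.prod_pair hne, ComplexEmbedding.conjugate_coe_eq, Complex.mul_conj]

end NormPos

theorem normPos_of_no_real (K : Type*) [Field K] [NumberField K]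
    (h : ∀ φ : K →+* ℂ, ¬ NumberField.ComplexEmbedding.IsReal φ) : NormPos K := by
  intro x hx
  have h1 := Algebra.norm_eq_prod_embeddings ℚ ℂ (x : K)
  rw [← Fintype.prod_equiv (RingHom.equivRatAlgHom K ℂ) (fun f => f (x : K))
      (fun φ => φ (x : K)) fun _ => by simp [RingHom.equivRatAlgHom_apply],
    NormPos.prod_embeddings_eq K h, ← Algebra.coe_norm_int] at h1
  have hpos : 0 < ∏ w : InfinitePlace K, Complex.normSq (w.embedding (x : K)) := by
    refine Finset.prod_pos fun w _ => Complex.normSq_pos.2 ?_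
    rw [Ne, map_eq_zero]
    exact_mod_cast hx
  have h2 : ((Algebra.norm ℤ x : ℤ) : ℝ) = ∏ w : InfinitePlace K, Complex.normSq (w.embedding (x : K)) := by
    apply Complex.ofReal_injective
    rw [← h1]
    simp
  have h3 : (0 : ℝ) < ((Algebra.norm ℤ x : ℤ) : ℝ) := by rw [h2]; exact hpos
  exact_mod_cast h3

open ComplexConjugate in
theorem no_real_fixedF (L : Type*) [Field L] [NumberField L] [IsGalois ℚ L] (I : L)
    (hI : I ^ 2 = -1) (U : Subgroup Gal(L/ℚ)) (hU : ∀ c ∈ U, c * c = 1 → c I = I) :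
    ∀ φ : fixedF L U →+* ℂ, ¬ NumberField.ComplexEmbedding.IsReal φ := by
  intro φ hφ
  let ψ : L →+* ℂ := ComplexEmbedding.lift L φ
  have hψ : ∀ y : fixedF L U, ψ (algebraMap (fixedF L U) L y) = φ y :=
    ComplexEmbedding.lift_algebraMap_apply L φ
  obtain ⟨σ, hσ⟩ := ComplexEmbedding.exists_comp_symm_eq_of_comp_eq (k := ℚ) ψ
    (ComplexEmbedding.conjugate ψ) (Subsingleton.elim _ _)
  have hc : ∀ y, ψ (σ⁻¹ y) = conj (ψ y) := fun y => RingHom.congr_fun hσ y
  have hcU : σ⁻¹ ∈ U := by
    rw [← IntermediateField.fixingSubgroup_fixedField U, IntermediateField.mem_fixingSubgroup_iff]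
    intro y hy
    apply ψ.injective
    rw [hc]
    have h1 : ψ y = φ ⟨y, hy⟩ := hψ ⟨y, hy⟩
    rw [h1]
    exact RingHom.congr_fun (ComplexEmbedding.isReal_iff.1 hφ) ⟨y, hy⟩
  have hcc : σ⁻¹ * σ⁻¹ = 1 := by
    ext y
    apply ψ.injective
    rw [AlgEquiv.mul_apply, hc, hc, Complex.conj_conj]
    rfl
  have h0 := hU _ hcU hcc
  have h1 : conj (ψ I) = ψ I := by rw [← hc, h0]
  have h2 : (ψ I) ^ 2 = -1 := by rw [← map_pow, hI]; simp
  obtain ⟨r, hr⟩ := Complex.conj_eq_iff_real.1 h1
  rw [hr] at h2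
  have h3 : ((r ^ 2 : ℝ) : ℂ) = ((-1 : ℝ) : ℂ) := by push_cast; exact h2
  have h4 : r ^ 2 = -1 := Complex.ofReal_injective h3
  nlinarith [sq_nonneg r]

theorem normPos_fixedF (L : Type*) [Field L] [NumberField L] [IsGalois ℚ L] (I : L)
    (hI : I ^ 2 = -1) (U : Subgroup Gal(L/ℚ)) (hU : ∀ c ∈ U, c * c = 1 → c I = I) :
    NormPos (fixedF L U) :=
  normPos_of_no_real _ (no_real_fixedF L I hI U hU)

end Fermat.Agent.Cheb
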