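import Fermat.Agent.Cheb.Frob

/-!
# Cheb G : from primes of `L` to rational primes

`∑_{x ∈ S} bSum L δ x s ≤ |G| * ∑_{p ∈ 𝒫} p^{-s}`, `𝒫` = the rational primes `p ∤ δ` having a prime `P ∣ p` with Frobenius in `S`.

Sketch.  (1) The sets `X_x = {P | ¬ below P ∣ δ ∧ IsFrob P x}`, `x ∈ S`, are pairwise disjoint (`isFrob_unique`, `hδ`), so
`∑_{x ∈ S} bSum x = ∑'_{P ∈ ⋃ X_x} wTerm s P` (`Summable.tsum_finsetBUnion_disjoint`, `FD.summable_wTerm`; or indicators as in `FD.tSum_eq_sum_aSum`), and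
`⋃ X_x ⊆ Y := {P | below P ∈ 𝒫}`; all terms are `≥ 0` (`FD.wTerm_nonneg`), so `≤ ∑'_{P ∈ Y} wTerm s P`.
(2) regroup by `below : HeightOneSpectrum (𝓞 L) → ℕ` (`Equiv.sigmaFiberEquiv`, `Summable.tsum_sigma'`; pattern: `FD.fiber_tsum_regroup`): the fibre over `p` is finite
(`FD.card_below_eq_le` / `FD.finite_below_dvd` with `δ = p`), and `∑_{below P = p} |dec P| = |G|` for a prime `p` with nonempty fibre: the primes over `p` form one `G`-orbit and
`|orbit| * |stabiliser| = |G|`: this is `FD.sum_card_stabilizer`/`FD.orbit_mul_card_stabilizer` for `U = ⊤`, or directly `Ideal.ncard_primesOver_mul_card_inertia_mul_finrank` and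
`Ideal.card_stabilizer_eq_card_inertia_mul_finrank` for `(G := Gal(L/ℚ)) (Ideal.span {(p : ℤ)}) P.asIdeal` as in `FD.card_dec_eq` (only `≤ |G|` is needed).
-/

set_option autoImplicit false
set_option linter.unusedSectionVars false

namespace Fermat.Agent.Cheb

open NumberField IsDedekindDomain Pointwise
open Fermat.Agent.FD Fermat.Agent.S14

variable (L : Type*) [Field L] [NumberField L] [IsGalois ℚ L]

namespace Regroup

theorem ncard_mul_card_dec (P : HeightOneSpectrum (𝓞 L)) :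
    ((Ideal.span {(below L P : ℤ)}).primesOver (𝓞 L)).ncard * Nat.card (dec L P) =
      Nat.card Gal(L/ℚ) := by
  have := P.isPrime
  have hp := below_prime L P
  have : Fact (below L P).Prime := ⟨hp⟩
  have hmax : (Ideal.span {(below L P : ℤ)}).IsMaximal := inferInstance
  have : Finite (ℤ ⧸ Ideal.span {(below L P : ℤ)}) := by
    exact Ring.HasFiniteQuotients.finiteQuotient (by simpa using hp.ne_zero)
  have : Finite (Ideal.span {(below L P : ℤ)}).ResidueField := inferInstance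
  have h1 : Nat.card (dec L P) = Nat.card (Ideal.inertia Gal(L/ℚ) P.asIdeal) *
      P.asIdeal.inertiaDeg ℤ :=
    Ideal.card_stabilizer_eq_card_inertia_mul_finrank (G := Gal(L/ℚ))
      (Ideal.span {(below L P : ℤ)}) P.asIdeal
  rw [h1, ← mul_assoc]
  exact Ideal.ncard_primesOver_mul_card_inertia_mul_finrank (G := Gal(L/ℚ))
    (Ideal.span {(below L P : ℤ)}) P.asIdeal

theorem sum_le_pSum (Q : Set ℕ) (B : Finset ℕ) (hB : ∀ b ∈ B, b ∈ Q) {s : ℝ} (hs : 1 < s) :
    ∑ b ∈ B, (b : ℝ) ^ (-s) ≤ pSum Q s := by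
  have hsum : Summable fun n : ℕ => (n : ℝ) ^ (-s) := Real.summable_nat_rpow.mpr (by linarith)
  unfold pSum
  rw [tsum_subtype Q (fun n : ℕ => (n : ℝ) ^ (-s))]
  calc ∑ b ∈ B, (b : ℝ) ^ (-s) = ∑ b ∈ B, Q.indicator (fun n : ℕ => (n : ℝ) ^ (-s)) b :=
        Finset.sum_congr rfl fun b hb =>
          (Set.indicator_of_mem (hB b hb) (fun n : ℕ => (n : ℝ) ^ (-s))).symm
    _ ≤ _ := (hsum.indicator Q).sum_le_tsum _
        (fun i _ => Set.indicator_nonneg (fun _ _ => Real.rpow_nonneg (Nat.cast_nonneg _) _) _)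

end Regroup

open Regroup

/-- `∑_{P ∣ p} |D_P| ≤ |G|`. -/
theorem sum_card_dec_le (p : ℕ) (T : Finset (HeightOneSpectrum (𝓞 L)))
    (hT : ∀ P ∈ T, below L P = p) :
    ∑ P ∈ T, Nat.card (dec L P) ≤ Nat.card Gal(L/ℚ) := by
  classical
  rcases T.eq_empty_or_nonempty with rfl | ⟨P₀, hP₀⟩
  · simp
  set n := ((Ideal.span {(p : ℤ)}).primesOver (𝓞 L)).ncard with hn
  have hp : p.Prime := hT P₀ hP₀ ▸ below_prime L P₀
  have hfin : ((Ideal.span {(p : ℤ)}).primesOver (𝓞 L)).Finite := by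
    have : Fact p.Prime := ⟨hp⟩
    have hmax : (Ideal.span {(p : ℤ)}).IsMaximal := inferInstance
    exact IsDedekindDomain.primesOver_finite (Ideal.span {(p : ℤ)}) (𝓞 L)
  have hcard : T.card ≤ n := by
    have h1 : (T.image fun P => P.asIdeal : Finset (Ideal (𝓞 L))).card = T.card :=
      Finset.card_image_of_injective _ fun a b hab => HeightOneSpectrum.ext hab
    rw [← h1, hn, ← Set.ncard_coe_finset]
    refine Set.ncard_le_ncard ?_ hfin
    intro Q hQ
    simp only [Finset.coe_image, Set.mem_image, Finset.mem_coe] at hQ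
    obtain ⟨P, hP, rfl⟩ := hQ
    refine ⟨P.isPrime, ?_⟩
    rw [← hT P hP]
    exact liesOver_below L P
  have hnpos : 0 < n := lt_of_lt_of_le (Finset.card_pos.2 ⟨P₀, hP₀⟩) hcard
  apply Nat.le_of_mul_le_mul_left _ hnpos
  rw [Finset.mul_sum]
  have h2 : ∀ P ∈ T, n * Nat.card (dec L P) = Nat.card Gal(L/ℚ) := by
    intro P hP
    rw [hn, ← hT P hP]
    exact ncard_mul_card_dec L P
  rw [Finset.sum_congr rfl h2, Finset.sum_const, smul_eq_mul]
  exact Nat.mul_le_mul_right _ hcard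

/-- regrouping by the rational prime. -/
theorem tsum_wTerm_le (Q : Set ℕ) {s : ℝ} (hs : 1 < s) :
    ∑' P : {P : HeightOneSpectrum (𝓞 L) | below L P ∈ Q}, wTerm L s P ≤
      (Nat.card Gal(L/ℚ) : ℝ) * pSum Q s := by
  classical
  rw [tsum_subtype {P : HeightOneSpectrum (𝓞 L) | below L P ∈ Q} (wTerm L s)]
  refine ((summable_wTerm L hs).indicator _).tsum_le_of_sum_le fun F => ?_
  set F' := F.filter fun P => below L P ∈ Q with hF'
  have e1 : ∑ P ∈ F, {P : HeightOneSpectrum (𝓞 L) | below L P ∈ Q}.indicator (wTerm L s) P =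
      ∑ P ∈ F', wTerm L s P := by
    rw [hF', Finset.sum_filter]
    refine Finset.sum_congr rfl fun P _ => ?_
    by_cases h : below L P ∈ Q
    · rw [if_pos h, Set.indicator_of_mem (show P ∈ {P : HeightOneSpectrum (𝓞 L) | below L P ∈ Q} from h)]
    · rw [if_neg h, Set.indicator_of_notMem (show P ∉ {P : HeightOneSpectrum (𝓞 L) | below L P ∈ Q} from h)]
  rw [e1]
  calc ∑ P ∈ F', wTerm L s P
      = ∑ b ∈ F'.image (below L), ∑ P ∈ F' with below L P = b, wTerm L s P :=
        (Finset.sum_fiberwise_of_maps_to (fun P hP => Finset.mem_image_of_mem _ hP) _).symm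
    _ ≤ ∑ b ∈ F'.image (below L), (Nat.card Gal(L/ℚ) : ℝ) * (b : ℝ) ^ (-s) := by
        refine Finset.sum_le_sum fun b _ => ?_
        have h1 : ∑ P ∈ F' with below L P = b, wTerm L s P =
            (∑ P ∈ F' with below L P = b, (Nat.card (dec L P) : ℝ)) * (b : ℝ) ^ (-s) := by
          rw [Finset.sum_mul]
          refine Finset.sum_congr rfl fun P hP => ?_
          rw [wTerm, (Finset.mem_filter.1 hP).2]
        rw [h1]
        refine mul_le_mul_of_nonneg_right ?_ (Real.rpow_nonneg (Nat.cast_nonneg _) _)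
        have := sum_card_dec_le L b (F'.filter fun P => below L P = b)
          (fun P hP => (Finset.mem_filter.1 hP).2)
        exact_mod_cast this
    _ = (Nat.card Gal(L/ℚ) : ℝ) * ∑ b ∈ F'.image (below L), (b : ℝ) ^ (-s) := by
        rw [Finset.mul_sum]
    _ ≤ _ := by
        refine mul_le_mul_of_nonneg_left (sum_le_pSum Q _ ?_ hs) (Nat.cast_nonneg _)
        intro b hb
        obtain ⟨P, hP, rfl⟩ := Finset.mem_image.1 hb
        exact (Finset.mem_filter.1 hP).2

theorem sum_bSum_le (δ : ℕ) (hδ : UnramOutside L δ) (S : Finset Gal(L/ℚ)) {s : ℝ} (hs : 1 < s) :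
    ∑ x ∈ S, bSum L δ x s ≤ (Nat.card Gal(L/ℚ) : ℝ) *
      pSum {p : ℕ | ¬ p ∣ δ ∧ ∃ P : HeightOneSpectrum (𝓞 L), below L P = p ∧
        ∃ x ∈ S, IsFrob L P x} s := by
  classical
  set Q : Set ℕ := {p : ℕ | ¬ p ∣ δ ∧ ∃ P : HeightOneSpectrum (𝓞 L), below L P = p ∧
        ∃ x ∈ S, IsFrob L P x} with hQ
  refine le_trans ?_ (tsum_wTerm_le L Q hs)
  have hsum := summable_wTerm L hs
  rw [tsum_subtype {P : HeightOneSpectrum (𝓞 L) | below L P ∈ Q} (wTerm L s)]
  have h1 : ∀ x : Gal(L/ℚ), bSum L δ x s =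
      ∑' P, {P : HeightOneSpectrum (𝓞 L) | ¬ below L P ∣ δ ∧ IsFrob L P x}.indicator
        (wTerm L s) P := fun x =>
    tsum_subtype {P : HeightOneSpectrum (𝓞 L) | ¬ below L P ∣ δ ∧ IsFrob L P x} (wTerm L s)
  rw [Finset.sum_congr rfl (fun x _ => h1 x), ← Summable.tsum_finsetSum
    (fun x _ => hsum.indicator _)]
  refine Summable.tsum_le_tsum (fun P => ?_) (summable_sum fun x _ => hsum.indicator _)
    (hsum.indicator _)
  by_cases hP : ∃ x ∈ S, ¬ below L P ∣ δ ∧ IsFrob L P x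
  · obtain ⟨x₀, hx₀, hd, hfr⟩ := hP
    rw [Finset.sum_eq_single x₀]
    · rw [Set.indicator_of_mem (show P ∈ {P : HeightOneSpectrum (𝓞 L) |
        ¬ below L P ∣ δ ∧ IsFrob L P x₀} from ⟨hd, hfr⟩),
        Set.indicator_of_mem (show P ∈ {P : HeightOneSpectrum (𝓞 L) | below L P ∈ Q} from
          ⟨hd, P, rfl, x₀, hx₀, hfr⟩)]
    · intro x _ hx
      rw [Set.indicator_of_notMem]
      rintro ⟨-, h⟩
      exact hx (isFrob_unique L P (hδ P hd) h hfr)
    · intro h
      exact absurd hx₀ h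
  · rw [Finset.sum_eq_zero]
    · exact Set.indicator_nonneg (fun P _ => wTerm_nonneg L s P) P
    · intro x hx
      rw [Set.indicator_of_notMem]
      intro h
      exact hP ⟨x, hx, h⟩

end Fermat.Agent.Cheb
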