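import Fermat.Agent.Cheb.Defs

/-!
# Cheb D3a : `tSumRes δ U m a s = |U| * primeSum (goodRes M δ m a) s`, `M = fixedF L U`

Sketch.  COPY `FD.fiber_key` and `FD.tSum_eq` (`FD/Fiber.lean`) with the extra condition `(below P : ZMod m) = a` on the left and
`(N w : ZMod m) = a` on the right: for `P` with `¬ below P ∣ δ`, `dec P ≤ U` one has `N (underH M P) = below P` (`FD.absNorm_underH_eq`).
Everything else (`fiber_tsum_regroup`, `sum_card_stabilizer`, `summable_wTerm`, `primeSum_eq_tsum_indicator`) is used verbatim.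
-/

set_option autoImplicit false
set_option linter.unusedSectionVars false

namespace Fermat.Agent.Cheb

open NumberField IsDedekindDomain Pointwise
open Fermat.Agent.FD Fermat.Agent.S14

variable (L : Type*) [Field L] [NumberField L] [IsGalois ℚ L]

namespace TSumRes

theorem fiber_key_res (δ : ℕ) (hδ : UnramOutside L δ) (U : Subgroup Gal(L/ℚ)) (m : ℕ) (a : ZMod m)
    (s : ℝ) (P : HeightOneSpectrum (𝓞 L)) :
    {P : HeightOneSpectrum (𝓞 L) | ¬ below L P ∣ δ ∧ dec L P ≤ U ∧
        ((below L P : ℕ) : ZMod m) = a}.indicator (wTerm L s) P =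
      (Nat.card (MulAction.stabilizer U P.asIdeal) : ℝ) *
        (goodRes (fixedF L U) δ m a).indicator
          (fun w => (Ideal.absNorm w.asIdeal : ℝ) ^ (-s)) (underH (fixedF L U) P) := by
  by_cases hP : ¬ below L P ∣ δ ∧ dec L P ≤ U ∧ ((below L P : ℕ) : ZMod m) = a
  · have hI := hδ P hP.1
    have hY : underH (fixedF L U) P ∈ goodRes (fixedF L U) δ m a :=
      ⟨⟨by rw [below_underH]; exact hP.1, (absNorm_underH_prime_iff L U P hI).mpr hP.2.1⟩, by
        rw [absNorm_underH_eq L U P hI hP.2.1]; exact hP.2.2⟩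
    rw [Set.indicator_of_mem (show P ∈ {P : HeightOneSpectrum (𝓞 L) |
      ¬ below L P ∣ δ ∧ dec L P ≤ U ∧ ((below L P : ℕ) : ZMod m) = a} from hP),
      Set.indicator_of_mem hY,
      card_stabilizer_eq_card_inf, inf_eq_left.mpr hP.2.1, absNorm_underH_eq L U P hI hP.2.1]
    rfl
  · have hY : underH (fixedF L U) P ∉ goodRes (fixedF L U) δ m a := by
      rintro ⟨⟨h1, h2⟩, h3⟩
      rw [below_underH] at h1
      have hdec := (absNorm_underH_prime_iff L U P (hδ P h1)).mp h2
      rw [absNorm_underH_eq L U P (hδ P h1) hdec] at h3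
      exact hP ⟨h1, hdec, h3⟩
    rw [Set.indicator_of_notMem (show P ∉ {P : HeightOneSpectrum (𝓞 L) |
      ¬ below L P ∣ δ ∧ dec L P ≤ U ∧ ((below L P : ℕ) : ZMod m) = a} from hP),
      Set.indicator_of_notMem hY, mul_zero]

end TSumRes

open TSumRes in
theorem tSumRes_eq (δ : ℕ) (hδ : UnramOutside L δ) (U : Subgroup Gal(L/ℚ)) (m : ℕ) (a : ZMod m)
    {s : ℝ} (hs : 1 < s) :
    tSumRes L δ U m a s = (Nat.card U : ℝ) * primeSum (goodRes (fixedF L U) δ m a) s := by
  have hsum : Summable fun P : HeightOneSpectrum (𝓞 L) =>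
      (Nat.card (MulAction.stabilizer U P.asIdeal) : ℝ) *
        (goodRes (fixedF L U) δ m a).indicator
          (fun w => (Ideal.absNorm w.asIdeal : ℝ) ^ (-s)) (underH (fixedF L U) P) := by
    refine ((summable_wTerm L hs).indicator
      {P : HeightOneSpectrum (𝓞 L) | ¬ below L P ∣ δ ∧ dec L P ≤ U ∧
        ((below L P : ℕ) : ZMod m) = a}).congr fun P => ?_
    exact fiber_key_res L δ hδ U m a s P
  unfold tSumRes
  rw [tsum_subtype {P : HeightOneSpectrum (𝓞 L) | ¬ below L P ∣ δ ∧ dec L P ≤ U ∧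
        ((below L P : ℕ) : ZMod m) = a} (wTerm L s),
    tsum_congr (fiber_key_res L δ hδ U m a s), fiber_tsum_regroup L (fixedF L U) _ _ hsum]
  have h2 : ∀ w : HeightOneSpectrum (𝓞 (fixedF L U)),
      (∑ P ∈ (finite_underH_fiber (L := L) (fixedF L U) w).toFinset,
        (Nat.card (MulAction.stabilizer U P.asIdeal) : ℝ)) = (Nat.card U : ℝ) := by
    intro w
    rw [← Nat.cast_sum, sum_card_stabilizer]
  simp only [h2]
  rw [tsum_mul_left, Fermat.Agent.S14.primeSum_eq_tsum_indicator]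

end Fermat.Agent.Cheb
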