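import Fermat.Agent.Cheb.Equidist
import Fermat.Agent.Cheb.TSumRes
import Fermat.Agent.Cheb.BSum
import Fermat.Agent.Cheb.Inputs
import Fermat.Agent.Cheb.NormPos
import Fermat.Agent.Cheb.Regroup

/-!
# Cheb D5 : the core estimate `bSum x + bSum x⁻¹ ≥ 2 LL - C`, and its sum over an inversion stable set

Sketch of `cheb_core`.  `U = zpowers x = zpowers x⁻¹`, `F = fixedF L U`, `κ = hζ.autToPow ℚ`, `W = U.map κ`, `|W| = |U|` (`inputs_card`).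
`bSum x = tSumRes U (κ x) = |U| primeSum (goodRes F δ m (κ x))` (`bSum_eq_tSumRes`, `tSumRes_eq`), the same for `x⁻¹` (`κ x⁻¹ = (κ x)⁻¹`, `map_inv`; `Subgroup.zpowers_inv`).
`equidist F (normPos_fixedF L I hI U hreal) hδ0 hmδ W (inputs_hW ..) (inputs_hgen ..) h1 (κ x) _`, where `h1` comes from
`|U| primeSum (goodRes F δ m 1) = tSumRes U 1 = aSum ⊥` (`tSumRes_eq`, `aSum_bot_eq_tSumRes`) and `FD.aSum_bounds L δ hδ0 hδ ⊥` with `gen ⊥ = 1`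
(`{x // zpowers x = ⊥}` is `{1}`: `Subgroup.zpowers_eq_bot`).
Sketch of `cheb_sum`.  `∑_{x ∈ S} (bSum x + bSum x⁻¹) = 2 ∑_{x ∈ S} bSum x` (`Finset.sum_bij`/`Finset.sum_nbij'` with `x ↦ x⁻¹`), `cheb_core` for every `x ∈ S`
(`Filter.eventually_all_finset`), `sum_bSum_le`.
-/

set_option autoImplicit false
set_option linter.unusedSectionVars false

namespace Fermat.Agent.Cheb

open NumberField IsDedekindDomain Pointwise Filter Topology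
open Fermat.Agent.FD Fermat.Agent.S14

variable (L : Type*) [Field L] [NumberField L] [IsGalois ℚ L]

namespace Core

theorem gen_bot {G : Type*} [Group G] : gen (⊥ : Subgroup G) = 1 := by
  unfold gen
  have : Unique {x : G // Subgroup.zpowers x = ⊥} :=
    { default := ⟨1, Subgroup.zpowers_one_eq_bot⟩
      uniq := fun y => Subtype.ext (Subgroup.zpowers_eq_bot.1 y.2) }
  exact Nat.card_unique

end Core

theorem cheb_core {m : ℕ} [NeZero m] {ζ : L} (hζ : IsPrimitiveRoot ζ m) (I : L) (hI : I ^ 2 = -1)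
    (δ : ℕ) (hδ0 : δ ≠ 0) (hδ : UnramOutside L δ) (hmδ : m ∣ δ) (x : Gal(L/ℚ))
    (hinj : ∀ y ∈ Subgroup.zpowers x, hζ.autToPow ℚ y = 1 → y = 1)
    (hreal : ∀ c ∈ Subgroup.zpowers x, c * c = 1 → c I = I) :
    ∃ C : ℝ, ∀ᶠ s in 𝓝[>] (1 : ℝ), 2 * LL s - C ≤ bSum L δ x s + bSum L δ x⁻¹ s := by
  have hcard : Nat.card ((Subgroup.zpowers x).map (hζ.autToPow ℚ)) = Nat.card (Subgroup.zpowers x) :=
    inputs_card L hζ _ hinj
  have hposF := normPos_fixedF L I hI (Subgroup.zpowers x) hreal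
  have h1 : ∃ C : ℝ, ∀ᶠ s in 𝓝[>] (1 : ℝ), LL s - C ≤
      (Nat.card ((Subgroup.zpowers x).map (hζ.autToPow ℚ)) : ℝ) *
        primeSum (goodRes (fixedF L (Subgroup.zpowers x)) δ m 1) s := by
    obtain ⟨C, hC⟩ := aSum_bounds L δ hδ0 hδ ⊥
    refine ⟨C, ?_⟩
    filter_upwards [hC, self_mem_nhdsWithin] with s hs hs1
    rw [hcard, ← tSumRes_eq L δ hδ _ m 1 hs1, ← aSum_bot_eq_tSumRes L hζ δ hδ hmδ _ hinj s]
    rw [Core.gen_bot, Nat.cast_one, one_mul] at hs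
    have := (abs_le.1 hs).1
    unfold LL
    linarith
  obtain ⟨C, hC⟩ := equidist (fixedF L (Subgroup.zpowers x)) hposF hδ0 hmδ
    ((Subgroup.zpowers x).map (hζ.autToPow ℚ)) (inputs_hW L hζ δ hδ hmδ _)
    (inputs_hgen L hζ δ hδ0 hδ hmδ x) h1 (hζ.autToPow ℚ x)
    ⟨x, Subgroup.mem_zpowers x, rfl⟩
  refine ⟨C, ?_⟩
  filter_upwards [hC, self_mem_nhdsWithin] with s hs hs1
  have hinj' : ∀ y ∈ Subgroup.zpowers x⁻¹, hζ.autToPow ℚ y = 1 → y = 1 := by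
    rw [Subgroup.zpowers_inv]
    exact hinj
  rw [bSum_eq_tSumRes L hζ δ hδ hmδ x hinj s, bSum_eq_tSumRes L hζ δ hδ hmδ x⁻¹ hinj' s,
    Subgroup.zpowers_inv, tSumRes_eq L δ hδ _ m _ hs1, tSumRes_eq L δ hδ _ m _ hs1, map_inv,
    ← mul_add, ← hcard]
  exact hs

theorem cheb_sum {m : ℕ} [NeZero m] {ζ : L} (hζ : IsPrimitiveRoot ζ m) (I : L) (hI : I ^ 2 = -1)
    (δ : ℕ) (hδ0 : δ ≠ 0) (hδ : UnramOutside L δ) (hmδ : m ∣ δ) (S : Finset Gal(L/ℚ))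
    (hSinv : ∀ x ∈ S, x⁻¹ ∈ S)
    (hinj : ∀ x ∈ S, ∀ y ∈ Subgroup.zpowers x, hζ.autToPow ℚ y = 1 → y = 1)
    (hreal : ∀ x ∈ S, ∀ c ∈ Subgroup.zpowers x, c * c = 1 → c I = I) :
    ∃ C : ℝ, ∀ᶠ s in 𝓝[>] (1 : ℝ), (S.card : ℝ) * LL s - C ≤ (Nat.card Gal(L/ℚ) : ℝ) *
      pSum {p : ℕ | ¬ p ∣ δ ∧ ∃ P : HeightOneSpectrum (𝓞 L), below L P = p ∧
        ∃ x ∈ S, IsFrob L P x} s := by
  have hex : ∀ x : Gal(L/ℚ), ∃ C : ℝ, x ∈ S →
      ∀ᶠ s in 𝓝[>] (1 : ℝ), 2 * LL s - C ≤ bSum L δ x s + bSum L δ x⁻¹ s := by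
    intro x
    by_cases hx : x ∈ S
    · obtain ⟨C, hC⟩ := cheb_core L hζ I hI δ hδ0 hδ hmδ x (hinj x hx) (hreal x hx)
      exact ⟨C, fun _ => hC⟩
    · exact ⟨0, fun h => absurd h hx⟩
  choose C hC using hex
  refine ⟨(∑ x ∈ S, C x) / 2, ?_⟩
  have hall : ∀ᶠ s in 𝓝[>] (1 : ℝ), ∀ x ∈ S, 2 * LL s - C x ≤ bSum L δ x s + bSum L δ x⁻¹ s :=
    (Filter.eventually_all_finset _).mpr fun x hx => hC x hx
  filter_upwards [hall, self_mem_nhdsWithin] with s hs hs1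
  have e1 : ∑ x ∈ S, bSum L δ x⁻¹ s = ∑ x ∈ S, bSum L δ x s :=
    Finset.sum_nbij' (fun x => x⁻¹) (fun x => x⁻¹) hSinv hSinv (fun x _ => inv_inv x)
      (fun x _ => inv_inv x) (fun x _ => rfl)
  have e2 : ∑ x ∈ S, (2 * LL s - C x) ≤ ∑ x ∈ S, (bSum L δ x s + bSum L δ x⁻¹ s) :=
    Finset.sum_le_sum hs
  rw [Finset.sum_add_distrib, e1, Finset.sum_sub_distrib, Finset.sum_const, nsmul_eq_mul] at e2
  have e3 := sum_bSum_le L δ hδ S hs1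
  linarith

end Fermat.Agent.Cheb
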