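import Mathlib

/-!
# Cheb F : counting in finite groups (pure Mathlib)

Sketch.
* `card_not_dvd_orderOf_le`: `Z` cyclic of order `M`, `n ^ k ∣ M`, `n ≥ 1`.  If `¬ n ∣ orderOf z` there is a prime `r ∣ n` with `v_r(orderOf z) < v_r(n) =: e`
  (`Nat.factorization_le_iff_dvd`/`Nat.factorization_prime_le_iff_dvd`).  With `E = v_r(M) ≥ k e`: `orderOf z ∣ M` and `v_r(orderOf z) ≤ e - 1`, so `orderOf z ∣ M / r^(E - e + 1)`, which divides
  `M / r^k` (as `k ≤ (k-1) e + 1 ≤ E - e + 1 ≤ E`; for `k = 0` trivial).  So `z ^ (M / r^k) = 1`.  In a cyclic group `#{z | z^d = 1} ≤ d` (`IsCyclic.card_pow_eq_one_le`), so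
  `#bad ≤ ∑_{r ∣ n prime} M / r^k ≤ (number of prime divisors of n) * M / 2^k ≤ n * M / 2^k`.
* `card_preimage_mul`: the fibres of a surjective hom have the same cardinality `|ker f|`, `|G| = |ker f| |H|` (`Subgroup.card_eq_card_quotient_mul_card_subgroup`,
  `QuotientGroup.quotientKerEquivOfSurjective`; or `MonoidHom.card_fiber_eq_of_mem_range` + `Finset.card_eq_sum_card_fiberwise`).
-/

set_option autoImplicit false

namespace Fermat.Agent.Cheb

namespace Count

theorem exists_prime_pow_eq_one {Z : Type*} [Group Z] [Finite Z] (n k : ℕ) (hn : 0 < n)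
    (h : n ^ k ∣ Nat.card Z) (z : Z) (hz : ¬ n ∣ orderOf z) :
    ∃ r ∈ n.primeFactors, z ^ (Nat.card Z / r ^ k) = 1 := by
  set o := orderOf z with ho
  have ho0 : o ≠ 0 := (orderOf_pos z).ne'
  have hoM : o ∣ Nat.card Z := orderOf_dvd_natCard z
  rw [← Nat.factorization_le_iff_dvd hn.ne' ho0, Finsupp.le_def] at hz
  push Not at hz
  obtain ⟨r, hr⟩ := hz
  have hrmem : r ∈ n.primeFactors := by
    rw [← Nat.support_factorization, Finsupp.mem_support_iff]
    omega
  have hrp : r.Prime := Nat.prime_of_mem_primeFactors hrmem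
  refine ⟨r, hrmem, ?_⟩
  rw [← orderOf_dvd_iff_pow_eq_one, ← ho]
  have hrk : r ^ k ∣ Nat.card Z :=
    (pow_dvd_pow_of_dvd (Nat.dvd_of_mem_primeFactors hrmem) k).trans h
  rw [Nat.dvd_div_iff_mul_dvd hrk]
  rcases Nat.eq_zero_or_pos k with rfl | hk
  · simpa using hoM
  set a := o.factorization r with ha
  have h1 : r ^ (a + k) ∣ Nat.card Z := by
    have h2 : r ^ (a + 1) ∣ n := (hrp.pow_dvd_iff_le_factorization hn.ne').2 hr
    have h3 : (r ^ (a + 1)) ^ k ∣ Nat.card Z := (pow_dvd_pow_of_dvd h2 k).trans h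
    rw [← pow_mul] at h3
    refine (pow_dvd_pow r ?_).trans h3
    nlinarith
  have h4 : o / r ^ a ∣ Nat.card Z := (Nat.div_dvd_of_dvd (Nat.ordProj_dvd o r)).trans hoM
  have h5 : Nat.Coprime (r ^ (a + k)) (o / r ^ a) := (Nat.coprime_ordCompl hrp ho0).pow_left _
  have h6 := Nat.Coprime.mul_dvd_of_dvd_of_dvd h5 h1 h4
  have h7 : r ^ k * o = r ^ (a + k) * (o / r ^ a) := by
    conv_lhs => rw [← Nat.ordProj_mul_ordCompl_eq_self o r]
    rw [← ha]
    ring
  rw [h7]
  exact h6

end Count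

open _root_.Fermat.Agent.Cheb.Count in
theorem card_not_dvd_orderOf_le {Z : Type*} [Group Z] [Finite Z] [IsCyclic Z] (n k : ℕ) (hn : 0 < n)
    (h : n ^ k ∣ Nat.card Z) :
    (Nat.card {z : Z // ¬ n ∣ orderOf z} : ℝ) ≤ (n : ℝ) / 2 ^ k * (Nat.card Z : ℝ) := by
  classical
  have := Fintype.ofFinite Z
  set M := Nat.card Z with hM
  have hMpos : 0 < M := Nat.card_pos
  have hsub : (Finset.univ.filter fun z : Z => ¬ n ∣ orderOf z) ⊆
      n.primeFactors.biUnion fun r => Finset.univ.filter fun z : Z => z ^ (M / r ^ k) = 1 := by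
    intro z hz
    obtain ⟨r, hr, hzr⟩ := exists_prime_pow_eq_one n k hn h z (Finset.mem_filter.1 hz).2
    exact Finset.mem_biUnion.2 ⟨r, hr, Finset.mem_filter.2 ⟨Finset.mem_univ _, hzr⟩⟩
  have hcard : Nat.card {z : Z // ¬ n ∣ orderOf z} =
      (Finset.univ.filter fun z : Z => ¬ n ∣ orderOf z).card := by
    rw [Nat.card_eq_fintype_card, Fintype.card_subtype]
  rw [hcard]
  have h1 : ((Finset.univ.filter fun z : Z => ¬ n ∣ orderOf z).card : ℝ) ≤
      ∑ r ∈ n.primeFactors, ((Finset.univ.filter fun z : Z => z ^ (M / r ^ k) = 1).card : ℝ) := by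
    exact_mod_cast (Finset.card_le_card hsub).trans Finset.card_biUnion_le
  have h2 : ∀ r ∈ n.primeFactors,
      ((Finset.univ.filter fun z : Z => z ^ (M / r ^ k) = 1).card : ℝ) ≤ (M : ℝ) / 2 ^ k := by
    intro r hr
    have hrp : r.Prime := Nat.prime_of_mem_primeFactors hr
    have hrk : r ^ k ∣ M := (pow_dvd_pow_of_dvd (Nat.dvd_of_mem_primeFactors hr) k).trans h
    have hpos : 0 < M / r ^ k := Nat.div_pos (Nat.le_of_dvd hMpos hrk) (pow_pos hrp.pos k)
    have h3 := IsCyclic.card_pow_eq_one_le (α := Z) hpos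
    have h4 : ((M / r ^ k : ℕ) : ℝ) = (M : ℝ) / (r : ℝ) ^ k := by
      rw [Nat.cast_div hrk (by exact_mod_cast (pow_pos hrp.pos k).ne')]
      push_cast
      rfl
    calc ((Finset.univ.filter fun z : Z => z ^ (M / r ^ k) = 1).card : ℝ)
        ≤ ((M / r ^ k : ℕ) : ℝ) := by exact_mod_cast h3
      _ = (M : ℝ) / (r : ℝ) ^ k := h4
      _ ≤ (M : ℝ) / 2 ^ k := by
          apply div_le_div_of_nonneg_left (Nat.cast_nonneg _) (by positivity)
          exact pow_le_pow_left₀ (by norm_num) (by exact_mod_cast hrp.two_le) k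
  have h5 : (n.primeFactors.card : ℝ) ≤ n := by
    have h6 : n.primeFactors ⊆ Finset.Icc 1 n := by
      intro r hr
      exact Finset.mem_Icc.2 ⟨(Nat.prime_of_mem_primeFactors hr).pos,
        Nat.le_of_dvd hn (Nat.dvd_of_mem_primeFactors hr)⟩
    have h7 := Finset.card_le_card h6
    rw [Nat.card_Icc] at h7
    exact_mod_cast (by omega : n.primeFactors.card ≤ n)
  have h8 : ∑ r ∈ n.primeFactors, ((Finset.univ.filter fun z : Z => z ^ (M / r ^ k) = 1).card : ℝ)
      ≤ n.primeFactors.card • ((M : ℝ) / 2 ^ k) := Finset.sum_le_card_nsmul _ _ _ h2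
  refine h1.trans (h8.trans ?_)
  rw [nsmul_eq_mul]
  have h9 : (0 : ℝ) ≤ (M : ℝ) / 2 ^ k := by positivity
  calc (n.primeFactors.card : ℝ) * ((M : ℝ) / 2 ^ k) ≤ (n : ℝ) * ((M : ℝ) / 2 ^ k) :=
        mul_le_mul_of_nonneg_right h5 h9
    _ = (n : ℝ) / 2 ^ k * (M : ℝ) := by ring

theorem card_preimage_mul {G H : Type*} [Group G] [Group H] [Finite G] (f : G →* H)
    (hf : Function.Surjective f) (S : Set H) :
    Nat.card (f ⁻¹' S) * Nat.card H = Nat.card S * Nat.card G := by
  classical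
  have := Fintype.ofFinite G
  have : Finite H := Finite.of_surjective f hf
  have := Fintype.ofFinite H
  set c := (Finset.univ.filter fun g : G => f g = 1).card with hc
  have hfib : ∀ y : H, (Finset.univ.filter fun g : G => f g = y).card = c := by
    intro y
    exact MonoidHom.card_fiber_eq_of_mem_range f (hf y) (hf 1)
  have key : ∀ T : Finset H, (Finset.univ.filter fun g : G => f g ∈ T).card = T.card * c := by
    intro T
    have hmaps : ((Finset.univ.filter fun g : G => f g ∈ T : Finset G) : Set G).MapsTo f T := by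
      intro g hg
      exact (Finset.mem_filter.1 (Finset.mem_coe.1 hg)).2
    rw [Finset.card_eq_sum_card_fiberwise hmaps]
    rw [Finset.sum_congr rfl (g := fun _ => c)]
    · simp
    · intro y hy
      rw [← hfib y]
      congr 1
      ext g
      simp only [Finset.mem_filter, Finset.mem_univ, true_and]
      constructor
      · exact fun h => h.2
      · exact fun h => ⟨h ▸ hy, h⟩
  have h1 : Nat.card (f ⁻¹' S) = (Finset.univ.filter fun g : G => f g ∈ S.toFinset).card := by
    rw [Nat.card_eq_fintype_card, ← Set.toFinset_card]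
    congr 1
    ext g
    simp
  have h2 : Nat.card G = (Finset.univ.filter fun g : G => f g ∈ (Finset.univ : Finset H)).card := by
    rw [Nat.card_eq_fintype_card]
    simp
  have h3 : Nat.card S = S.toFinset.card := by
    rw [Nat.card_eq_fintype_card, Set.toFinset_card]
  have h4 : Nat.card H = (Finset.univ : Finset H).card := by
    rw [Nat.card_eq_fintype_card, Finset.card_univ]
  rw [h1, h2, h3, h4, key, key]
  ring

end Fermat.Agent.Cheb
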