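import Fermat.Agent.FD.Main

/-!
# Cheb (Chebotarev density, lower bound for inversion stable sets): definitions

Built on `Fermat.Agent.FD` (weighted sums over the primes of a Galois number field) and
`Fermat.Agent.S14` (`S14/Density`: ideal `L`-series `lsum`, lattice sums `latSum`, `primeSum`).
-/

set_option autoImplicit false

namespace Fermat.Agent.Cheb

open NumberField IsDedekindDomain Pointwise
open Fermat.Agent.FD Fermat.Agent.S14

/-- `log (1/(s-1))`. -/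
noncomputable def LL (s : ℝ) : ℝ := Real.log (1 / (s - 1))

section field

variable (K : Type*) [Field K] [NumberField K]

/-- the ideal character `χ ∘ N`. -/
noncomputable def normChar {m : ℕ} (χ : DirichletCharacter ℂ m) :
    nonZeroDivisors (Ideal (𝓞 K)) →* ℂ where
  toFun I := χ ((Ideal.absNorm (I : Ideal (𝓞 K)) : ℕ) : ZMod m)
  map_one' := by simp
  map_mul' I J := by simp

/-- `θ(x) = χ(N x)` (the signed norm). -/
noncomputable def thetaO {m : ℕ} (χ : DirichletCharacter ℂ m) (x : 𝓞 K) : ℂ :=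
  χ ((Algebra.norm ℤ x : ℤ) : ZMod m)

/-- the nonzero principal ideal `(x)`. -/
noncomputable def spanIdl (x : 𝓞 K) (hx : x ≠ 0) : nonZeroDivisors (Ideal (𝓞 K)) :=
  ⟨Ideal.span {x}, mem_nonZeroDivisors_of_ne_zero (by
    rw [Ne, Ideal.zero_eq_bot, Ideal.span_singleton_eq_bot]; exact hx)⟩

/-- the term `f(I) N I^{-s}`. -/
noncomputable def lterm (f : nonZeroDivisors (Ideal (𝓞 K)) →* ℂ) (s : ℝ)
    (I : nonZeroDivisors (Ideal (𝓞 K))) : ℂ :=
  f I * (((Ideal.absNorm (I : Ideal (𝓞 K)) : ℝ) ^ (-s) : ℝ) : ℂ)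

/-- the partial `L`-series of an ideal class. -/
noncomputable def partialL (f : nonZeroDivisors (Ideal (𝓞 K)) →* ℂ) (C : ClassGroup (𝓞 K))
    (s : ℝ) : ℂ :=
  ∑' I : {I : nonZeroDivisors (Ideal (𝓞 K)) // ClassGroup.mk0 I = C}, lterm K f s I

/-- the twisted lattice sum `∑_{x ∈ J} θ(x) ρ(x) |N x|^{-s}`. -/
noncomputable def latSumT (θ : 𝓞 K → ℂ) (J : Ideal (𝓞 K)) (s : ℝ) : ℂ :=
  ∑' x : J, θ (x : 𝓞 K) * ((wtO K s (x : 𝓞 K) : ℝ) : ℂ)

/-- the primes of degree one, not dividing `δ`, of norm `≡ a mod m`. -/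
def goodRes (δ m : ℕ) (a : ZMod m) : Set (HeightOneSpectrum (𝓞 K)) :=
  {w | w ∈ goodOne K δ ∧ ((Ideal.absNorm w.asIdeal : ℕ) : ZMod m) = a}

/-- `∑ Re χ(N w) N w^{-s}` over the primes of degree one not dividing `δ`. -/
noncomputable def reSum {m : ℕ} (χ : DirichletCharacter ℂ m) (δ : ℕ) (s : ℝ) : ℝ :=
  ∑' w : goodOne K δ,
    (χ ((Ideal.absNorm (w : HeightOneSpectrum (𝓞 K)).asIdeal : ℕ) : ZMod m)).re *
      (Ideal.absNorm (w : HeightOneSpectrum (𝓞 K)).asIdeal : ℝ) ^ (-s)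

/-- all nonzero integers of `K` have positive norm (`K` is totally complex). -/
def NormPos : Prop := ∀ x : 𝓞 K, x ≠ 0 → 0 < Algebra.norm ℤ x

end field

section galois

variable (L : Type*) [Field L] [NumberField L]

/-- `τ` is a Frobenius element at `P`. -/
def IsFrob (P : HeightOneSpectrum (𝓞 L)) (τ : Gal(L/ℚ)) : Prop :=
  ∀ x : 𝓞 L, τ • x - x ^ below L P ∈ P.asIdeal

/-- `∑ |D_P| p_P^{-s}` over the primes `P ∤ δ` with Frobenius element `x`. -/
noncomputable def bSum (δ : ℕ) (x : Gal(L/ℚ)) (s : ℝ) : ℝ :=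
  ∑' P : {P : HeightOneSpectrum (𝓞 L) | ¬ below L P ∣ δ ∧ IsFrob L P x}, wTerm L s P

/-- `∑ |D_P| p_P^{-s}` over the primes `P ∤ δ` with decomposition group in `U` and `p_P ≡ a mod m`. -/
noncomputable def tSumRes (δ : ℕ) (U : Subgroup Gal(L/ℚ)) (m : ℕ) (a : ZMod m) (s : ℝ) : ℝ :=
  ∑' P : {P : HeightOneSpectrum (𝓞 L) |
    ¬ below L P ∣ δ ∧ dec L P ≤ U ∧ ((below L P : ℕ) : ZMod m) = a}, wTerm L s P

/-- `L` is unramified outside `δ`. -/
def UnramOutside (δ : ℕ) : Prop :=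
  ∀ P : HeightOneSpectrum (𝓞 L), ¬ below L P ∣ δ → Ideal.inertia Gal(L/ℚ) P.asIdeal = ⊥

/-- `∑ p^{-s}` over a set of natural numbers. -/
noncomputable def pSum (S : Set ℕ) (s : ℝ) : ℝ := ∑' p : S, ((p : ℕ) : ℝ) ^ (-s)

end galois

end Fermat.Agent.Cheb
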