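import Fermat.Agent.Cheb.ReSumChar

/-!
# Cheb C3 : equidistribution (up to inversion) of the norms of the primes of degree one

`F` a number field with positive norms, `W ≤ (ℤ/m)ˣ` a subgroup containing all `N w`, such that no character nontrivial on `W` kills all `N w`, and
such that the primes with `N w ≡ 1` have density `≥ 1/|W|`.  Then `{N w ≡ a^{±1}}` has density `≥ 2/|W|` for `a ∈ W`.

Sketch.  `X₀ = {χ trivial on W}`, `X₁` its complement, `Λ(s) = primeSum (goodOne F δ) s`, `|Λ - LL| ≤ c` (`FD.primeSum_goodOne_bounds`; `LL` unfolds to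
`Real.log (1 / (s - 1))`), `S_a = primeSum (goodRes F δ m a)`, `φ = m.totient = |X₀| |W|` (`card_trivial_mul_card`).
(i) `χ ∈ X₀`: `reSum χ = Λ` (`reSum_eq_primeSum` + `hW`).
(ii) `χ ∈ X₁`: `reSum χ ≤ C_χ` eventually: `hgen` gives `w`, take `I₀ = primeIdl w`; `normChar F χ (primeIdl w) = χ (N w)` (`rfl`) is `≠ 1`, and `≠ 0` because `N w` is
  a unit by `hW` (`MulChar`: `χ` of a unit is a unit: `IsUnit.map`, `IsUnit.ne_zero`); `exists_reSum_le`.
(iii) `sum_reSum_eq` with `a = 1`: `2 ∑_χ reSum χ = φ * 2 S_1`, so `∑_{X₁} reSum χ = φ S_1 - |X₀| Λ ≥ |X₀| (LL - C) - |X₀| (LL + c)`; with (ii): every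
  `reSum χ`, `χ ∈ X₁`, is bounded below, so `|reSum χ| ≤ C'_χ`.
(iv) `sum_reSum_eq` with `a`: `φ (S_a + S_{a⁻¹}) = 2 |X₀| Λ + ∑_{X₁} 2 Re χ(a) reSum χ ≥ 2 |X₀| (LL - c) - 2 ∑_{X₁} C'_χ` (`abs_re_le_one`; `χ a = 1` on `X₀`).
  Multiply by `|W|` and divide by `φ = |X₀| |W| > 0`.
All the finitely many eventual bounds are intersected with `Filter.eventually_all_finset` (as in `FD.induct`).
-/

set_option autoImplicit false

namespace Fermat.Agent.Cheb

open NumberField IsDedekindDomain Filter Topology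
open Fermat.Agent.FD Fermat.Agent.S14

/-- the real inequalities of the argument, at a fixed `s`. -/
theorem equidist_real {ι : Type*} [Fintype ι] (p : ι → Prop) [DecidablePred p] (r ρ Cup : ι → ℝ)
    (Λ L S1 T φ w c C1 n₀ : ℝ) (hn₀ : n₀ = ((Finset.univ.filter p).card : ℝ)) (hn₀pos : 0 < n₀)
    (hρ : ∀ i, |ρ i| ≤ 1) (h0r : ∀ i, p i → r i = Λ) (h0ρ : ∀ i, p i → ρ i = 1)
    (h1r : ∀ i, ¬ p i → r i ≤ Cup i)
    (hsum1 : ∑ i, r i = φ * S1) (hsumT : ∑ i, 2 * ρ i * r i = φ * T) (hφ : φ = n₀ * w)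
    (hS1 : L - C1 ≤ w * S1) (hΛ : |Λ - L| ≤ c) :
    2 * L - (2 * c + 2 * ((Finset.univ.filter fun i => ¬ p i).card : ℝ) *
      (|n₀ * (C1 + c)| + ∑ i ∈ Finset.univ.filter (fun i => ¬ p i), |Cup i|) / n₀) ≤ w * T := by
  classical
  set X0 := Finset.univ.filter p with hX0
  set X1 := Finset.univ.filter (fun i => ¬ p i) with hX1
  set B : ℝ := |n₀ * (C1 + c)| + ∑ i ∈ X1, |Cup i| with hB
  obtain ⟨hΛ1, hΛ2⟩ := abs_le.1 hΛ
  have hsplit : ∀ f : ι → ℝ, ∑ i, f i = ∑ i ∈ X0, f i + ∑ i ∈ X1, f i := fun f =>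
    (Finset.sum_filter_add_sum_filter_not Finset.univ p f).symm
  have hmem0 : ∀ i ∈ X0, p i := fun i hi => (Finset.mem_filter.1 hi).2
  have hmem1 : ∀ i ∈ X1, ¬ p i := fun i hi => (Finset.mem_filter.1 hi).2
  have e0 : ∑ i ∈ X0, r i = n₀ * Λ := by
    rw [Finset.sum_congr rfl fun i hi => h0r i (hmem0 i hi), Finset.sum_const, nsmul_eq_mul, hn₀]
  have e0' : ∑ i ∈ X0, 2 * ρ i * r i = 2 * (n₀ * Λ) := by
    rw [Finset.sum_congr rfl fun i hi => by rw [h0r i (hmem0 i hi), h0ρ i (hmem0 i hi)],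
      Finset.sum_const, nsmul_eq_mul, hn₀]
    ring
  have hlow : -(n₀ * (C1 + c)) ≤ ∑ i ∈ X1, r i := by
    have h1 : ∑ i ∈ X1, r i = n₀ * (w * S1) - n₀ * Λ := by
      have := hsplit r
      rw [hsum1, e0, hφ] at this
      linarith
    rw [h1]
    have h2 : n₀ * (L - C1) ≤ n₀ * (w * S1) := mul_le_mul_of_nonneg_left hS1 hn₀pos.le
    have h3 : n₀ * Λ ≤ n₀ * (L + c) := mul_le_mul_of_nonneg_left (by linarith) hn₀pos.le
    nlinarith
  have hsumabs : ∀ i ∈ X1, |Cup i| ≤ ∑ j ∈ X1, |Cup j| := fun i hi =>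
    Finset.single_le_sum (f := fun j => |Cup j|) (fun j _ => abs_nonneg _) hi
  have hbd : ∀ i ∈ X1, |r i| ≤ B := by
    intro i hi
    rw [abs_le]
    constructor
    · have h1 := Finset.add_sum_erase X1 r hi
      have h2 : ∑ x ∈ X1.erase i, r x ≤ ∑ x ∈ X1, |Cup x| :=
        calc ∑ x ∈ X1.erase i, r x ≤ ∑ x ∈ X1.erase i, |Cup x| :=
              Finset.sum_le_sum fun x hx =>
                (h1r x (hmem1 x (Finset.mem_of_mem_erase hx))).trans (le_abs_self _)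
          _ ≤ ∑ x ∈ X1, |Cup x| :=
              Finset.sum_le_sum_of_subset_of_nonneg (Finset.erase_subset _ _)
                fun _ _ _ => abs_nonneg _
      have h3 := le_abs_self (n₀ * (C1 + c))
      rw [hB]
      linarith
    · have h1 := (h1r i (hmem1 i hi)).trans ((le_abs_self _).trans (hsumabs i hi))
      have h3 := abs_nonneg (n₀ * (C1 + c))
      rw [hB]
      linarith
  have hB0 : 0 ≤ B := by
    rw [hB]
    exact add_nonneg (abs_nonneg _) (Finset.sum_nonneg fun _ _ => abs_nonneg _)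
  have hX1sum : -(2 * (X1.card : ℝ) * B) ≤ ∑ i ∈ X1, 2 * ρ i * r i := by
    have h1 : ∑ _i ∈ X1, (-(2 * B)) ≤ ∑ i ∈ X1, 2 * ρ i * r i := by
      refine Finset.sum_le_sum fun i hi => ?_
      have h2 : |ρ i * r i| ≤ B := by
        rw [abs_mul]
        calc |ρ i| * |r i| ≤ 1 * B := mul_le_mul (hρ i) (hbd i hi) (abs_nonneg _) zero_le_one
          _ = B := one_mul _
      have h3 := (abs_le.1 h2).1
      linarith
    rw [Finset.sum_const, nsmul_eq_mul] at h1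
    linarith
  have hmain : 2 * (n₀ * (L - c)) - 2 * (X1.card : ℝ) * B ≤ n₀ * (w * T) := by
    have h1 := hsplit fun i => 2 * ρ i * r i
    rw [hsumT, e0', hφ] at h1
    have h3 : n₀ * (L - c) ≤ n₀ * Λ := mul_le_mul_of_nonneg_left (by linarith) hn₀pos.le
    nlinarith
  have hdiv : 2 * (X1.card : ℝ) * B / n₀ * n₀ = 2 * (X1.card : ℝ) * B :=
    div_mul_cancel₀ _ hn₀pos.ne'
  by_contra hcon
  push Not at hcon
  have h4 : n₀ * (w * T) < n₀ * (2 * L - (2 * c + 2 * (X1.card : ℝ) * B / n₀)) :=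
    mul_lt_mul_of_pos_left hcon hn₀pos
  nlinarith

theorem equidist (F : Type*) [Field F] [NumberField F] (hpos : NormPos F) {m : ℕ} [NeZero m]
    {δ : ℕ} (hδ : δ ≠ 0) (hmδ : m ∣ δ) (W : Subgroup (ZMod m)ˣ)
    (hW : ∀ w ∈ goodOne F δ, ∃ u ∈ W, ((Ideal.absNorm w.asIdeal : ℕ) : ZMod m) = ((u : (ZMod m)ˣ) : ZMod m))
    (hgen : ∀ χ : DirichletCharacter ℂ m, (∃ u ∈ W, χ ((u : (ZMod m)ˣ) : ZMod m) ≠ 1) →
      ∃ w ∈ goodOne F δ, χ ((Ideal.absNorm w.asIdeal : ℕ) : ZMod m) ≠ 1)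
    (h1 : ∃ C : ℝ, ∀ᶠ s in 𝓝[>] (1 : ℝ),
      LL s - C ≤ (Nat.card W : ℝ) * primeSum (goodRes F δ m 1) s)
    (a : (ZMod m)ˣ) (ha : a ∈ W) :
    ∃ C : ℝ, ∀ᶠ s in 𝓝[>] (1 : ℝ),
      2 * LL s - C ≤ (Nat.card W : ℝ) * (primeSum (goodRes F δ m (a : ZMod m)) s +
        primeSum (goodRes F δ m ((a⁻¹ : (ZMod m)ˣ) : ZMod m)) s) := by
  classical
  set p : DirichletCharacter ℂ m → Prop := fun χ => ∀ u ∈ W, χ ((u : (ZMod m)ˣ) : ZMod m) = 1
    with hp
  obtain ⟨c, hc⟩ := primeSum_goodOne_bounds F hδ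
  obtain ⟨C1, hC1⟩ := h1
  have hcard := card_trivial_mul_card W
  have hup : ∀ χ : DirichletCharacter ℂ m, ∃ C : ℝ, ∀ᶠ s in 𝓝[>] (1 : ℝ),
      (¬ p χ → reSum F χ δ s ≤ C) := by
    intro χ
    by_cases hχ : p χ
    · exact ⟨0, Filter.Eventually.of_forall fun s h => absurd hχ h⟩
    · have hχ' : ∃ u ∈ W, χ ((u : (ZMod m)ˣ) : ZMod m) ≠ 1 := by
        simp only [hp] at hχ
        push Not at hχ
        exact hχ
      obtain ⟨w, hw, hw1⟩ := hgen χ hχ'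
      obtain ⟨u, -, hu⟩ := hW w hw
      have h0 : normChar F χ (primeIdl w) ≠ 0 := by
        change χ ((Ideal.absNorm w.asIdeal : ℕ) : ZMod m) ≠ 0
        rw [hu]
        exact (u.isUnit.map χ).ne_zero
      obtain ⟨C, hC⟩ := exists_reSum_le F hpos χ hδ (primeIdl w) h0 hw1
      exact ⟨C, hC.mono fun s hs _ => hs⟩
  choose Cup hCup using hup
  have hCup' := Filter.eventually_all.2 hCup
  set n₀ : ℝ := ((Finset.univ.filter p).card : ℝ) with hn₀
  have hφ : (m.totient : ℝ) = n₀ * (Nat.card W : ℝ) := by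
    rw [hn₀, ← hcard]; push_cast; rfl
  have hn₀pos : 0 < n₀ := by
    have h1 : (0 : ℝ) < (m.totient : ℝ) := by
      exact_mod_cast Nat.totient_pos.2 (Nat.pos_of_ne_zero (NeZero.ne m))
    rw [hφ] at h1
    rcases (Nat.cast_nonneg (Finset.univ.filter p).card : (0 : ℝ) ≤ _).eq_or_lt with h | h
    · rw [hn₀, ← h, zero_mul] at h1
      exact absurd h1 (lt_irrefl _)
    · exact h
  refine ⟨2 * c + 2 * ((Finset.univ.filter fun i => ¬ p i).card : ℝ) *
      (|n₀ * (C1 + c)| + ∑ i ∈ Finset.univ.filter (fun i => ¬ p i), |Cup i|) / n₀, ?_⟩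
  filter_upwards [hc, hC1, hCup', self_mem_nhdsWithin] with s hcs hC1s hCups hs
  have hs' : 1 < s := hs
  refine equidist_real p (fun χ => reSum F χ δ s) (fun χ => (χ (a : ZMod m)).re) Cup
    (primeSum (goodOne F δ) s) (LL s) (primeSum (goodRes F δ m 1) s) _ (m.totient : ℝ)
    (Nat.card W : ℝ) c C1 n₀ hn₀ hn₀pos (fun χ => abs_re_le_one χ _) ?_ ?_ hCups ?_
    (sum_reSum_eq F hmδ a hs') hφ hC1s hcs
  · intro χ hχ
    refine reSum_eq_primeSum F χ δ (fun w hw => ?_) s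
    obtain ⟨u, hu, e⟩ := hW w hw
    rw [e]; exact hχ u hu
  · intro χ hχ
    show (χ (a : ZMod m)).re = 1
    rw [hχ a ha, Complex.one_re]
  · have h := sum_reSum_eq F hmδ (1 : (ZMod m)ˣ) hs'
    simp only [inv_one, Units.val_one, map_one, Complex.one_re, mul_one] at h
    rw [← Finset.mul_sum] at h
    linarith

end Fermat.Agent.Cheb
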