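import Fermat.Agent.Cheb.Defs

/-!
# Cheb B1 : `exp (∑_v Re f(v) N v^{-s} - C) ≤ ‖L(s, f)‖`

Sketch.  `z_v = f(v) N v^{-s}`, `‖z_v‖ ≤ N v^{-s}`.  `‖1 - z‖^2 = 1 - 2 Re z + ‖z‖^2 ≤ exp (-2 Re z + ‖z‖^2)` (`Real.add_one_le_exp`), so
`‖1 - z‖ ≤ exp (- Re z + ‖z‖^2 / 2)`.  By `lsum_mul_prod` and `exists_finset_lsum_sub_one_lt` (`ε = 1/2`): for all finite `T ⊇ T₀`
`1/2 ≤ ‖lsum f T s‖ = ‖lsum f ∅ s‖ ∏_{v ∈ T} ‖1 - z_v‖ ≤ ‖lsum f ∅ s‖ exp (- ∑_T Re z_v + (1/2) ∑_T N v^{-2})`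
(`zeta_sq_le`, `sum_le_primeSum`, `summable_primeNorm_rpow K (1 < 2)`).  So with `C = log 2 + primeSum univ 2`:
`exp (∑_T Re z_v - C) ≤ ‖lsum f ∅ s‖` for all `T ⊇ T₀`; let `T → ∞`: `v ↦ Re z_v` is summable (`Summable.of_norm_bounded`, `summable_primeNorm_rpow`),
`HasSum` means `Tendsto (fun T => ∑_T ..) atTop (𝓝 (∑' ..))`; `le_of_tendsto` with `Filter.eventually_ge_atTop T₀` and continuity of `exp`.
-/

set_option autoImplicit false

namespace Fermat.Agent.Cheb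

open NumberField IsDedekindDomain Filter Topology
open Fermat.Agent.FD Fermat.Agent.S14

variable (K : Type*) [Field K] [NumberField K]

namespace EulerRe

theorem norm_one_sub_le (z : ℂ) : ‖1 - z‖ ≤ Real.exp (-z.re + ‖z‖ ^ 2 / 2) := by
  refine (sq_le_sq₀ (norm_nonneg _) (Real.exp_pos _).le).1 ?_
  have h1 : ‖1 - z‖ ^ 2 = (-2 * z.re + ‖z‖ ^ 2) + 1 := by
    rw [Complex.sq_norm, Complex.sq_norm, Complex.normSq_apply, Complex.normSq_apply]
    simp only [Complex.sub_re, Complex.one_re, Complex.sub_im, Complex.one_im]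
    ring
  have h2 : Real.exp (-z.re + ‖z‖ ^ 2 / 2) ^ 2 = Real.exp (-2 * z.re + ‖z‖ ^ 2) := by
    rw [← Real.exp_nat_mul]
    congr 1
    push_cast
    ring
  rw [h1, h2]
  exact Real.add_one_le_exp _

end EulerRe

theorem exists_exp_re_le_norm_lsum :
    ∃ C : ℝ, ∀ f : nonZeroDivisors (Ideal (𝓞 K)) →* ℂ, (∀ I, ‖f I‖ ≤ 1) → ∀ s : ℝ, 1 < s →
      Real.exp ((∑' v : HeightOneSpectrum (𝓞 K),
        (f (primeIdl v)).re * (Ideal.absNorm v.asIdeal : ℝ) ^ (-s)) - C) ≤ ‖lsum f ∅ s‖ := by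
  classical
  have hsum2 := summable_primeNorm_rpow K (s := 2) (by norm_num)
  set P2 : ℝ := primeSum (Set.univ : Set (HeightOneSpectrum (𝓞 K))) 2 with hP2
  refine ⟨Real.log 2 + P2, fun f hf s hs => ?_⟩
  have hsum := summable_primeNorm_rpow K hs
  have ha0 : ∀ v : HeightOneSpectrum (𝓞 K), 0 ≤ (Ideal.absNorm v.asIdeal : ℝ) ^ (-s) := fun v =>
    Real.rpow_nonneg (Nat.cast_nonneg _) _
  set z : HeightOneSpectrum (𝓞 K) → ℂ := fun v =>
    f (primeIdl v) * (((Ideal.absNorm v.asIdeal : ℝ) ^ (-s) : ℝ) : ℂ) with hz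
  have hzre : ∀ v, (z v).re = (f (primeIdl v)).re * (Ideal.absNorm v.asIdeal : ℝ) ^ (-s) := by
    intro v
    rw [hz]
    simp only [Complex.re_mul_ofReal]
  have hznorm : ∀ v, ‖z v‖ ≤ (Ideal.absNorm v.asIdeal : ℝ) ^ (-s) := by
    intro v
    rw [hz]
    simp only [norm_mul, Complex.norm_real, Real.norm_eq_abs, abs_of_nonneg (ha0 v)]
    exact mul_le_of_le_one_left (ha0 v) (hf _)
  have hsumre : Summable fun v => (z v).re :=
    Summable.of_norm_bounded hsum fun v => by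
      rw [Real.norm_eq_abs]
      exact (Complex.abs_re_le_norm _).trans (hznorm v)
  obtain ⟨T₀, hT₀⟩ := exists_finset_lsum_sub_one_lt (K := K) hs (ε := 1 / 2) (by norm_num)
  have key : ∀ T : Finset (HeightOneSpectrum (𝓞 K)), T₀ ⊆ T →
      Real.exp (∑ v ∈ T, (z v).re - (Real.log 2 + P2)) ≤ ‖lsum f ∅ s‖ := by
    intro T hT
    have h1 := hT₀ T hT f hf
    have h2 : 1 / 2 ≤ ‖lsum f T s‖ := by
      have h3 : ‖(1 : ℂ)‖ ≤ ‖lsum f T s‖ + ‖lsum f T s - 1‖ := by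
        have := norm_sub_le (lsum f T s) (lsum f T s - 1)
        rwa [sub_sub_cancel] at this
      rw [norm_one] at h3
      linarith
    rw [← lsum_mul_prod f hf hs T, norm_mul, norm_prod] at h2
    have h4 : ∏ v ∈ T, ‖1 - z v‖ ≤ Real.exp (-∑ v ∈ T, (z v).re + P2) := by
      calc ∏ v ∈ T, ‖1 - z v‖ ≤ ∏ v ∈ T, Real.exp (-(z v).re + ‖z v‖ ^ 2 / 2) :=
            Finset.prod_le_prod (fun v _ => norm_nonneg _) fun v _ => EulerRe.norm_one_sub_le _
        _ = Real.exp (∑ v ∈ T, (-(z v).re + ‖z v‖ ^ 2 / 2)) := (Real.exp_sum _ _).symm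
        _ ≤ Real.exp (-∑ v ∈ T, (z v).re + P2) := by
            apply Real.exp_le_exp.2
            rw [Finset.sum_add_distrib, Finset.sum_neg_distrib]
            apply add_le_add_right
            have h5 : ∑ v ∈ T, ‖z v‖ ^ 2 / 2 ≤
                ∑ v ∈ T, (Ideal.absNorm v.asIdeal : ℝ) ^ (-2 : ℝ) := by
              apply Finset.sum_le_sum
              intro v _
              have h6 : ‖z v‖ ^ 2 ≤ ((Ideal.absNorm v.asIdeal : ℝ) ^ (-s)) ^ 2 :=
                pow_le_pow_left₀ (norm_nonneg _) (hznorm v) 2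
              have h7 := zeta_sq_le K hs v
              have h8 : 0 ≤ ‖z v‖ ^ 2 := by positivity
              linarith
            exact h5.trans (sum_le_primeSum T (fun v _ => Set.mem_univ v) hsum2)
    have h5 : 1 / 2 ≤ ‖lsum f ∅ s‖ * Real.exp (-∑ v ∈ T, (z v).re + P2) :=
      h2.trans (mul_le_mul_of_nonneg_left h4 (norm_nonneg _))
    have h6 : Real.exp (∑ v ∈ T, (z v).re - (Real.log 2 + P2)) =
        1 / 2 * (Real.exp (-∑ v ∈ T, (z v).re + P2))⁻¹ := by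
      rw [← Real.exp_neg, show ∑ v ∈ T, (z v).re - (Real.log 2 + P2) =
        -Real.log 2 + -(-∑ v ∈ T, (z v).re + P2) by ring, Real.exp_add, Real.exp_neg,
        Real.exp_log (by norm_num)]
      norm_num
    rw [h6]
    have hpos := Real.exp_pos (-∑ v ∈ T, (z v).re + P2)
    calc 1 / 2 * (Real.exp (-∑ v ∈ T, (z v).re + P2))⁻¹
        ≤ ‖lsum f ∅ s‖ * Real.exp (-∑ v ∈ T, (z v).re + P2) *
          (Real.exp (-∑ v ∈ T, (z v).re + P2))⁻¹ :=
          mul_le_mul_of_nonneg_right h5 (inv_nonneg.2 hpos.le)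
      _ = ‖lsum f ∅ s‖ := by rw [mul_assoc, mul_inv_cancel₀ hpos.ne', mul_one]
  have hlim : Tendsto (fun T : Finset (HeightOneSpectrum (𝓞 K)) =>
      Real.exp (∑ v ∈ T, (z v).re - (Real.log 2 + P2))) atTop
      (𝓝 (Real.exp (∑' v, (z v).re - (Real.log 2 + P2)))) :=
    (Real.continuous_exp.tendsto _).comp (hsumre.hasSum.sub_const _)
  have hfin := le_of_tendsto hlim ((eventually_ge_atTop T₀).mono fun T hT => key T hT)
  have e : ∑' v, (z v).re = ∑' v : HeightOneSpectrum (𝓞 K),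
      (f (primeIdl v)).re * (Ideal.absNorm v.asIdeal : ℝ) ^ (-s) := tsum_congr hzre
  rw [← e]
  exact hfin

end Fermat.Agent.Cheb
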