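import Mathlib

/-!
# Cheb H1 : the auxiliary field `L = L₀(i, ζ_q)` (pure Mathlib)

Sketch.  `Qb = AlgebraicClosure ℚ`.  Let `z : Qb` be a primitive `q`-th root of unity and `j : Qb` with `j^2 = -1` (`IsAlgClosed.exists_pow_nat_eq`, `HasEnoughRootsOfUnity`/
`IsAlgClosed` + `CharZero`: `exists_primitiveRoot`-type lemma `HasEnoughRootsOfUnity.exists_primitiveRoot Qb q`).
`L := L₀ ⊔ IntermediateField.adjoin ℚ ((X^q - 1).rootSet Qb) ⊔ IntermediateField.adjoin ℚ ((X^2 + 1).rootSet Qb)`: finite dimensional (`IntermediateField.finiteDimensional_sup`,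
`IntermediateField.finiteDimensional_adjoin` of finitely many integral elements), normal (`IntermediateField.normal_sup`, `Normal.of_isSplittingField` with
`IntermediateField.adjoin_rootSet_isSplittingField`), separable (char 0), so Galois.
`π₀`: with `hle : L₀ ≤ L` use the algebra structure `(IntermediateField.inclusion hle).toRingHom.toAlgebra` and `AlgEquiv.restrictNormalHom L₀ : (L ≃ₐ[ℚ] L) →* (L₀ ≃ₐ[ℚ] L₀)`;
compatibility with `restrictNormalHom` from `Qb`: ext + `AlgEquiv.restrictNormal_commutes` three times.  Surjectivity of `π₀` from the compatibility and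
`AlgEquiv.restrictNormalHom_surjective`.
Surjectivity of `autToPow`: for `u : (ZMod q)ˣ`, `ζ ^ u.val` is a primitive `q`-th root (`IsPrimitiveRoot.pow_of_coprime`, `ZMod.val_coe_unit_coprime`), so a root of
`minpoly ℚ ζ = cyclotomic q ℚ` (`Polynomial.cyclotomic_eq_minpoly_rat`, `IsPrimitiveRoot.isRoot_cyclotomic`); `minpoly.exists_algEquiv_of_root'` gives `σ` with `σ ζ = ζ ^ u.val`;
`autToPow σ = u` by `IsPrimitiveRoot.autToPow_spec` and `IsPrimitiveRoot.pow_inj` (`ZMod.val_lt`), `Units.ext`, `ZMod.val_injective`.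
Joint injectivity: `y` fixes `L₀` (from `π₀ y = 1`), `I`, hence `-I` (all roots of `X^2+1`), `ζ` (from `autToPow y = 1`: `autToPow_spec`, `ZMod.val_one`...), hence all `q`-th roots of unity (powers of
`ζ`: `IsPrimitiveRoot.eq_pow_of_pow_eq_one`).  The fixed field of `y` inside `Qb`... : work with `{x : Qb | ∀ hx : x ∈ L, y ⟨x, hx⟩ = ⟨x, hx⟩}` or use `IntermediateField.adjoin_induction` / `sup` closure:
the set `{x ∈ L | y x = x}` is an intermediate field containing the generators.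
-/

set_option autoImplicit false

namespace Fermat.Agent.Cheb

local notation "Qb" => AlgebraicClosure ℚ

namespace Field

open Polynomial

/-- the fixed field of one automorphism -/
noncomputable def fixF (σ : Qb ≃ₐ[ℚ] Qb) : IntermediateField ℚ Qb where
  carrier := {x | σ x = x}
  mul_mem' := by
    intro a b ha hb
    simp only [Set.mem_ofPred_eq] at *
    rw [map_mul, ha, hb]
  add_mem' := by
    intro a b ha hb
    simp only [Set.mem_ofPred_eq] at *
    rw [map_add, ha, hb]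
  algebraMap_mem' := by
    intro r
    simp only [Set.mem_ofPred_eq]
    exact σ.commutes r
  inv_mem' := by
    intro a ha
    simp only [Set.mem_ofPred_eq] at *
    rw [map_inv₀, ha]

theorem mem_fixF (σ : Qb ≃ₐ[ℚ] Qb) (x : Qb) : x ∈ fixF σ ↔ σ x = x := Iff.rfl

theorem res_coe (L : IntermediateField ℚ Qb) [Normal ℚ L] (σ : Qb ≃ₐ[ℚ] Qb) (x : L) :
    ((AlgEquiv.restrictNormalHom L σ x : L) : Qb) = σ (x : Qb) :=
  AlgEquiv.restrictNormal_commutes σ L x

theorem res_eq_one_iff (L : IntermediateField ℚ Qb) [Normal ℚ L] (σ : Qb ≃ₐ[ℚ] Qb) :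
    AlgEquiv.restrictNormalHom L σ = 1 ↔ L ≤ fixF σ := by
  constructor
  · intro h x hx
    rw [mem_fixF]
    have := res_coe L σ ⟨x, hx⟩
    rw [h] at this
    exact this.symm
  · intro h
    ext x
    rw [res_coe]
    exact h x.2

end Field

open _root_.Fermat.Agent.Cheb.Field Polynomial in
theorem exists_big_field (L₀ : IntermediateField ℚ Qb) [FiniteDimensional ℚ L₀] [IsGalois ℚ L₀]
    (q : ℕ) [NeZero q] :
    ∃ (L : IntermediateField ℚ Qb) (_ : FiniteDimensional ℚ L) (_ : IsGalois ℚ L) (ζ I : L)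
      (hζ : IsPrimitiveRoot ζ q) (π₀ : (L ≃ₐ[ℚ] L) →* (L₀ ≃ₐ[ℚ] L₀)),
      I ^ 2 = -1 ∧ Function.Surjective π₀ ∧ Function.Surjective (hζ.autToPow ℚ) ∧
      (∀ σ : Qb ≃ₐ[ℚ] Qb, π₀ (AlgEquiv.restrictNormalHom L σ) = AlgEquiv.restrictNormalHom L₀ σ) ∧
      (∀ y : L ≃ₐ[ℚ] L, π₀ y = 1 → y I = I → hζ.autToPow ℚ y = 1 → y = 1) := by
  classical
  have hN₀ : Normal ℚ L₀ := IsGalois.to_normal
  have hA1 : Algebra.IsAlgebraic ℚ Qb := AlgebraicClosure.isAlgebraic ℚ
  have hA2 : IsAlgClosure ℚ Qb := ⟨inferInstance, hA1⟩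
  have hA3 : Normal ℚ Qb := IsAlgClosure.normal ℚ Qb
  have hq : 0 < q := Nat.pos_of_ne_zero (NeZero.ne q)
  obtain ⟨z, hz⟩ : ∃ z : Qb, IsPrimitiveRoot z q := HasEnoughRootsOfUnity.exists_primitiveRoot Qb q
  obtain ⟨j, hj⟩ : ∃ j : Qb, j ^ 2 = -1 := IsAlgClosed.exists_pow_nat_eq (-1 : Qb) (by norm_num)
  set P : ℚ[X] := (X ^ q - 1) * (X ^ 2 + 1) with hP
  have hP0 : P ≠ 0 := by
    apply mul_ne_zero
    · exact (monic_X_pow_sub_C (1 : ℚ) hq.ne').ne_zero
    · exact (monic_X_pow_add_C (1 : ℚ) (by norm_num : (2 : ℕ) ≠ 0)).ne_zero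
  set L₁ : IntermediateField ℚ Qb := IntermediateField.adjoin ℚ (P.rootSet Qb) with hL₁
  have : P.IsSplittingField ℚ L₁ :=
    IntermediateField.adjoin_rootSet_isSplittingField (IsAlgClosed.splits _)
  have : Normal ℚ L₁ := Normal.of_isSplittingField P
  have : FiniteDimensional ℚ L₁ := Polynomial.IsSplittingField.finiteDimensional L₁ P
  set L : IntermediateField ℚ Qb := L₀ ⊔ L₁ with hL
  have : FiniteDimensional ℚ L := IntermediateField.finiteDimensional_sup L₀ L₁
  have : Normal ℚ L := @IntermediateField.normal_sup ℚ Qb _ _ _ L₀ L₁ hN₀ ‹_›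
  have : IsGalois ℚ L := ⟨⟩
  have hzL₁ : z ∈ L₁ := by
    apply IntermediateField.subset_adjoin
    rw [mem_rootSet]
    refine ⟨hP0, ?_⟩
    simp [hP, hz.pow_eq_one]
  have hjL₁ : j ∈ L₁ := by
    apply IntermediateField.subset_adjoin
    rw [mem_rootSet]
    refine ⟨hP0, ?_⟩
    simp [hP, hj]
  have hL₁L : L₁ ≤ L := le_sup_right
  have hL₀L : L₀ ≤ L := le_sup_left
  set ζ : L := ⟨z, hL₁L hzL₁⟩ with hζdef
  set I : L := ⟨j, hL₁L hjL₁⟩ with hIdef
  have hζ : IsPrimitiveRoot ζ q := by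
    have : IsPrimitiveRoot ((algebraMap L Qb) ζ) q := hz
    exact IsPrimitiveRoot.of_map_of_injective this (algebraMap L Qb).injective
  have hker : (AlgEquiv.restrictNormalHom (F := ℚ) (K₁ := Qb) L).ker ≤
      (AlgEquiv.restrictNormalHom (F := ℚ) (K₁ := Qb) L₀).ker := by
    intro σ hσ
    rw [MonoidHom.mem_ker] at hσ ⊢
    rw [res_eq_one_iff] at hσ ⊢
    exact hL₀L.trans hσ
  have hsurjL : Function.Surjective (AlgEquiv.restrictNormalHom (F := ℚ) (K₁ := Qb) L) :=
    AlgEquiv.restrictNormalHom_surjective Qb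
  set π₀ : (L ≃ₐ[ℚ] L) →* (L₀ ≃ₐ[ℚ] L₀) :=
    (AlgEquiv.restrictNormalHom (F := ℚ) (K₁ := Qb) L).liftOfSurjective hsurjL
      ⟨AlgEquiv.restrictNormalHom (F := ℚ) (K₁ := Qb) L₀, hker⟩ with hπ₀
  have hcompat : ∀ σ : Qb ≃ₐ[ℚ] Qb,
      π₀ (AlgEquiv.restrictNormalHom L σ) = AlgEquiv.restrictNormalHom L₀ σ := by
    intro σ
    exact MonoidHom.liftOfRightInverse_comp_apply _ _ _ _ σ
  refine ⟨L, inferInstance, inferInstance, ζ, I, hζ, π₀, ?_, ?_, ?_, hcompat, ?_⟩
  · apply Subtype.ext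
    simpa using hj
  · intro τ
    obtain ⟨σ, rfl⟩ := AlgEquiv.restrictNormalHom_surjective (F := ℚ) (K₁ := L₀) Qb τ
    exact ⟨_, hcompat σ⟩
  · intro u
    have hu : IsPrimitiveRoot (ζ ^ (u : ZMod q).val) q :=
      hζ.pow_of_coprime _ (ZMod.val_coe_unit_coprime u)
    have hmin : cyclotomic q ℚ = minpoly ℚ ζ := cyclotomic_eq_minpoly_rat hζ hq
    have hroot : aeval (ζ ^ (u : ZMod q).val) (minpoly ℚ ζ) = 0 := by
      rw [← hmin]
      have := hu.isRoot_cyclotomic hq
      rw [IsRoot.def, ← map_cyclotomic q (algebraMap ℚ L), eval_map_algebraMap] at this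
      exact this
    obtain ⟨σ, hσ⟩ := minpoly.exists_algEquiv_of_root' (Algebra.IsAlgebraic.isAlgebraic ζ) hroot
    refine ⟨σ, ?_⟩
    have h1 := hζ.autToPow_spec ℚ σ
    rw [hσ] at h1
    have h2 := hζ.pow_inj (ZMod.val_lt _) (ZMod.val_lt _) h1
    exact Units.ext (ZMod.val_injective q h2)
  · intro y hy1 hy2 hy3
    obtain ⟨σ, rfl⟩ := hsurjL y
    rw [hcompat, res_eq_one_iff] at hy1
    rw [res_eq_one_iff]
    have hσj : σ j = j := by
      have := res_coe L σ I
      rw [hy2] at this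
      exact this.symm
    have hσz : σ z = z := by
      have h1 := hζ.autToPow_spec ℚ (AlgEquiv.restrictNormalHom L σ)
      rw [hy3] at h1
      have h2 := res_coe L σ ζ
      rw [← h1] at h2
      rcases Nat.lt_or_ge 1 q with hq1 | hq1
      · have : Fact (1 < q) := ⟨hq1⟩
        rw [Units.val_one, ZMod.val_one, pow_one] at h2
        exact h2.symm
      · have hq1' : q = 1 := by omega
        have : z = 1 := by
          have := hz.pow_eq_one
          rw [hq1', pow_one] at this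
          exact this
        rw [this, map_one]
    refine sup_le hy1 ?_
    rw [hL₁, IntermediateField.adjoin_le_iff]
    intro x hx
    rw [mem_rootSet] at hx
    have hx2 := hx.2
    simp only [hP, map_mul, map_sub, map_pow, aeval_X, map_one, map_add, mul_eq_zero] at hx2
    change σ x = x
    rcases hx2 with hx2 | hx2
    · obtain ⟨i, -, rfl⟩ := hz.eq_pow_of_pow_eq_one (sub_eq_zero.1 hx2)
      rw [map_pow, hσz]
    · have h3 : (x - j) * (x + j) = 0 := by
        have : x ^ 2 = -1 := by linear_combination hx2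
        linear_combination this - hj
      rcases mul_eq_zero.1 h3 with h4 | h4
      · rw [sub_eq_zero.1 h4, hσj]
      · rw [eq_neg_of_add_eq_zero_left h4, map_neg, hσj]

end Fermat.Agent.Cheb
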