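import Fermat.Agent.Cheb.Count

/-!
# Cheb H2 : good elements (pure group theory)

`G'` a finite group, `π₀ : G' →* G₀`, `κ : G' →* Z`, `P ≤ G'` a subgroup containing all squares (the stabiliser of `i`), jointly injective.  `n = 4 |G₀|`.
If `n ∣ orderOf (κ x)` then `κ` is injective on `zpowers x` and every `c ∈ zpowers x` with `c * c = 1` lies in `P`.

Sketch.  `o = orderOf (κ x)`.  `y = x^k` (`k : ℤ`, `Subgroup.mem_zpowers_iff`).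
* `κ y = 1` ⟹ `(o : ℤ) ∣ k` (`orderOf_dvd_iff_zpow_eq_one`) ⟹ `|G₀| ∣ k` and `2 ∣ k` ⟹ `π₀ y = (π₀ x)^k = 1` (`pow_card_eq_one'`, `zpow_mul`...), `y = x^(2 j) = x^j * x^j ∈ P` ⟹ `y = 1`.
* `c = x^k`, `c * c = 1` ⟹ `κ x ^ (2 k) = 1` ⟹ `o ∣ 2 k` ⟹ `4 ∣ 2 k` ⟹ `2 ∣ k` ⟹ `c = x^j * x^j ∈ P`.
* `card_good_ge`: `{x | π₀ x ∈ C} \ {x | ¬ n ∣ orderOf (κ x)} ⊆ good`; `card_preimage_mul` for `π₀` and `C`, and for `κ` and the bad set of `Z`; `card_not_dvd_orderOf_le`.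
-/

set_option autoImplicit false

namespace Fermat.Agent.Cheb

variable {G' G₀ Z : Type*} [Group G'] [Finite G'] [Group G₀] [Finite G₀] [Group Z]

theorem good_inj (π₀ : G' →* G₀) (κ : G' →* Z) (P : Subgroup G') (hP : ∀ y : G', y * y ∈ P)
    (hjoint : ∀ y, π₀ y = 1 → y ∈ P → κ y = 1 → y = 1) (x : G')
    (hx : 4 * Nat.card G₀ ∣ orderOf (κ x)) :
    ∀ y ∈ Subgroup.zpowers x, κ y = 1 → y = 1 := by
  intro y hy hκ
  obtain ⟨k, rfl⟩ := Subgroup.mem_zpowers_iff.1 hy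
  rw [map_zpow, ← orderOf_dvd_iff_zpow_eq_one] at hκ
  have h1 : ((4 * Nat.card G₀ : ℕ) : ℤ) ∣ k := (Int.natCast_dvd_natCast.2 hx).trans hκ
  obtain ⟨j, rfl⟩ := h1
  apply hjoint
  · rw [map_zpow]
    have : ((4 * Nat.card G₀ : ℕ) : ℤ) * j = (Nat.card G₀ : ℤ) * (4 * j) := by push_cast; ring
    rw [this, zpow_mul, zpow_natCast, pow_card_eq_one', one_zpow]
  · have : ((4 * Nat.card G₀ : ℕ) : ℤ) * j = (2 * Nat.card G₀ * j : ℤ) + (2 * Nat.card G₀ * j : ℤ) := by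
      push_cast; ring
    rw [this, zpow_add]
    exact hP _
  · rw [map_zpow, ← orderOf_dvd_iff_zpow_eq_one]
    exact hκ

theorem good_real (κ : G' →* Z) (P : Subgroup G') (hP : ∀ y : G', y * y ∈ P) (x : G')
    (hx : 4 * Nat.card G₀ ∣ orderOf (κ x)) :
    ∀ c ∈ Subgroup.zpowers x, c * c = 1 → c ∈ P := by
  intro c hc hcc
  obtain ⟨k, rfl⟩ := Subgroup.mem_zpowers_iff.1 hc
  have h1 : κ x ^ (k + k) = 1 := by
    rw [zpow_add, ← map_zpow, ← map_mul, hcc, map_one]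
  rw [← orderOf_dvd_iff_zpow_eq_one] at h1
  have h2 : (4 : ℤ) ∣ k + k := by
    have h3 : ((4 * Nat.card G₀ : ℕ) : ℤ) ∣ k + k := (Int.natCast_dvd_natCast.2 hx).trans h1
    refine Dvd.dvd.trans ⟨(Nat.card G₀ : ℤ), by push_cast; ring⟩ h3
  obtain ⟨j, hj⟩ : (2 : ℤ) ∣ k := by omega
  have : k = j + j := by omega
  rw [this, zpow_add]
  exact hP _

theorem card_good_ge [Finite Z] [IsCyclic Z] (π₀ : G' →* G₀) (hπ : Function.Surjective π₀) (κ : G' →* Z)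
    (hκ : Function.Surjective κ) (C : Set G₀) (k : ℕ)
    (hk : (4 * Nat.card G₀) ^ k ∣ Nat.card Z) :
    ((Nat.card C : ℝ) / Nat.card G₀ - (4 * Nat.card G₀ : ℝ) / 2 ^ k) * Nat.card G' ≤
      Nat.card {x : G' // π₀ x ∈ C ∧ 4 * Nat.card G₀ ∣ orderOf (κ x)} := by
  classical
  set n := 4 * Nat.card G₀ with hn
  have hG0 : 0 < Nat.card G₀ := Nat.card_pos
  have hZ0 : 0 < Nat.card Z := Nat.card_pos
  have hnpos : 0 < n := by omega
  have h1 := card_preimage_mul π₀ hπ C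
  have h2 := card_preimage_mul κ hκ {z : Z | ¬ n ∣ orderOf z}
  have h3 := card_not_dvd_orderOf_le (Z := Z) n k hnpos hk
  -- inclusion
  have h4 : Nat.card (π₀ ⁻¹' C) ≤ Nat.card {x : G' // π₀ x ∈ C ∧ n ∣ orderOf (κ x)} +
      Nat.card (κ ⁻¹' {z : Z | ¬ n ∣ orderOf z}) := by
    have hsub : (π₀ ⁻¹' C) ⊆ {x : G' | π₀ x ∈ C ∧ n ∣ orderOf (κ x)} ∪
        (κ ⁻¹' {z : Z | ¬ n ∣ orderOf z}) := by
      intro x hx
      by_cases h : n ∣ orderOf (κ x)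
      · exact Or.inl ⟨hx, h⟩
      · exact Or.inr h
    calc Nat.card (π₀ ⁻¹' C) = (π₀ ⁻¹' C).ncard := rfl
      _ ≤ ({x : G' | π₀ x ∈ C ∧ n ∣ orderOf (κ x)} ∪
        (κ ⁻¹' {z : Z | ¬ n ∣ orderOf z})).ncard := Set.ncard_le_ncard hsub (Set.toFinite _)
      _ ≤ _ := Set.ncard_union_le _ _
  have h1' : (Nat.card (π₀ ⁻¹' C) : ℝ) * Nat.card G₀ = Nat.card C * Nat.card G' := by
    exact_mod_cast h1
  have h2' : (Nat.card (κ ⁻¹' {z : Z | ¬ n ∣ orderOf z}) : ℝ) * Nat.card Z =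
      Nat.card {z : Z | ¬ n ∣ orderOf z} * Nat.card G' := by
    exact_mod_cast h2
  have h4' : (Nat.card (π₀ ⁻¹' C) : ℝ) ≤ Nat.card {x : G' // π₀ x ∈ C ∧ n ∣ orderOf (κ x)} +
      Nat.card (κ ⁻¹' {z : Z | ¬ n ∣ orderOf z}) := by
    exact_mod_cast h4
  have hG0' : (0 : ℝ) < Nat.card G₀ := by exact_mod_cast hG0
  have hZ0' : (0 : ℝ) < Nat.card Z := by exact_mod_cast hZ0
  have e1 : (Nat.card (π₀ ⁻¹' C) : ℝ) = Nat.card C / Nat.card G₀ * Nat.card G' := by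
    field_simp
    linarith
  have e2 : (Nat.card (κ ⁻¹' {z : Z | ¬ n ∣ orderOf z}) : ℝ) ≤ (n : ℝ) / 2 ^ k * Nat.card G' := by
    have h5 : (Nat.card (κ ⁻¹' {z : Z | ¬ n ∣ orderOf z}) : ℝ) * Nat.card Z ≤
        ((n : ℝ) / 2 ^ k * Nat.card G') * Nat.card Z := by
      rw [h2']
      have : (Nat.card {z : Z | ¬ n ∣ orderOf z} : ℝ) ≤ (n : ℝ) / 2 ^ k * (Nat.card Z : ℝ) := h3
      calc (Nat.card {z : Z | ¬ n ∣ orderOf z} : ℝ) * Nat.card G'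
          ≤ ((n : ℝ) / 2 ^ k * (Nat.card Z : ℝ)) * Nat.card G' :=
            mul_le_mul_of_nonneg_right this (Nat.cast_nonneg _)
        _ = _ := by ring
    exact le_of_mul_le_mul_right h5 hZ0'
  have hn' : (n : ℝ) = 4 * Nat.card G₀ := by rw [hn]; push_cast; ring
  rw [← hn', sub_mul, ← e1]
  linarith

end Fermat.Agent.Cheb
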