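import Fermat.Agent.Cheb.TypeLevel
import Fermat.Agent.Cheb.Field
import Fermat.Agent.Cheb.Good

/-!
# Cheb : Chebotarev's density theorem, lower bound for inversion stable sets

Sketch.  `n = 4 |G₀|`, `G₀ = Gal(L₀/ℚ)`.  Choose `k` with `n / 2^k < ε` and a prime `q ≡ 1 mod n^k` (`Nat.exists_prime_gt_modEq_one`), so `n^k ∣ q - 1 = |(ZMod q)ˣ|`
(`ZMod.card_units_eq_totient`, `Nat.totient_prime`; `(ZMod q)ˣ` is cyclic: instance for the units of a finite field, `Fact q.Prime`).  `exists_big_field L₀ q`.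
`P := {y | y I = I}` (a subgroup, e.g. `MulAction.stabilizer`); it contains all squares: `(y I)^2 = -1` so `y I = ± I` and `y (y I) = I`.
`S = {x | π₀ x ∈ C ∧ n ∣ orderOf (κ x)}` (a `Finset` via `Set.toFinite`), stable under inversion (`orderOf_inv`, `map_inv`, `hinv`).
`cheb_type L hζ I hI B hB S ..` (`good_inj`, `good_real`).  Every `p` in the set of `cheb_type` lies in the target set: `FD.exists_valuationSubring_over L P` gives `A`,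
`Fermat.Agent.S54.exists_isFrobeniusAt A (FD.below_prime L P) hA` gives `σ`, `FD.frob_restrict L P A hA2 σ hσ` shows that `restrictNormalHom L σ` is a Frobenius at `P`, so it equals
`x ∈ S`, and `restrictNormalHom L₀ σ = π₀ x ∈ C`.  `pSum_mono`.  `card_good_ge` and division by `|G'|`.
From `∀ᶠ s in 𝓝[>] 1` to all `t ∈ (1,2]`: `eventually_nhdsWithin_iff`/`mem_nhdsGT_iff_exists_Ioo_subset` gives `η > 0` with the bound on `(1, 1+η)`; for `t ∈ [1+η, 2]`: `0 ≤ LL t ≤ log (1/η)`,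
`pSum ≥ 0`; enlarge `c`.
-/

set_option autoImplicit false

namespace Fermat.Agent.Cheb

open Filter Topology

local notation "Qb" => AlgebraicClosure ℚ

namespace Final

theorem LL_nonneg {t : ℝ} (h1 : 1 < t) (h2 : t ≤ 2) : 0 ≤ LL t := by
  unfold LL
  apply Real.log_nonneg
  rw [le_div_iff₀ (by linarith)]
  linarith

theorem LL_anti {u t : ℝ} (h1 : 1 < u) (h2 : u ≤ t) : LL t ≤ LL u := by
  unfold LL
  apply Real.log_le_log
  · have : 0 < t - 1 := by linarith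
    positivity
  · apply one_div_le_one_div_of_le <;> linarith

theorem exists_pow_small (n : ℕ) (ε : ℝ) (hε : 0 < ε) : ∃ k : ℕ, (n : ℝ) / 2 ^ k < ε := by
  obtain ⟨k, hk⟩ := exists_nat_gt ((n : ℝ) / ε)
  refine ⟨k, ?_⟩
  have h1 : (k : ℝ) < 2 ^ k := by exact_mod_cast Nat.lt_two_pow_self
  rw [div_lt_iff₀ (by positivity)]
  rw [div_lt_iff₀ hε] at hk
  nlinarith

end Final

open _root_.Fermat.Agent.Cheb.Final NumberField IsDedekindDomain Fermat.Agent.FD in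
/-- the eventual form. -/
theorem chebotarev_eventually (L₀ : IntermediateField ℚ Qb) [FiniteDimensional ℚ L₀] [IsGalois ℚ L₀]
    (C : Set (L₀ ≃ₐ[ℚ] L₀)) (hinv : ∀ g ∈ C, g⁻¹ ∈ C) (ε : ℝ) (hε : 0 < ε) (B : ℕ) (hB : B ≠ 0) :
    ∃ c : ℝ, ∀ᶠ t in 𝓝[>] (1 : ℝ),
      ((Nat.card C : ℝ) / Nat.card (L₀ ≃ₐ[ℚ] L₀) - ε) * LL t - c ≤
        pSum {p : ℕ | p.Prime ∧ ¬ p ∣ B ∧ ∃ A : ValuationSubring Qb, A.LiesOverPrime p ∧
          ∃ σ : Qb ≃ₐ[ℚ] Qb, A.IsFrobeniusAt σ p ∧ AlgEquiv.restrictNormalHom L₀ σ ∈ C} t := by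
  classical
  set n := 4 * Nat.card (L₀ ≃ₐ[ℚ] L₀) with hn
  have hG0 : 0 < Nat.card (L₀ ≃ₐ[ℚ] L₀) := Nat.card_pos
  have hnpos : 0 < n := by omega
  obtain ⟨k, hk⟩ := exists_pow_small n ε hε
  obtain ⟨q, hqp, -, hqmod⟩ := Nat.exists_prime_gt_modEq_one (k := n ^ k) 1 (pow_pos hnpos k).ne'
  have : Fact q.Prime := ⟨hqp⟩
  have : NeZero q := ⟨hqp.ne_zero⟩
  have hdvd : n ^ k ∣ Nat.card (ZMod q)ˣ := by
    rw [Nat.card_eq_fintype_card, ZMod.card_units_eq_totient, Nat.totient_prime hqp]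
    exact (Nat.modEq_iff_dvd' hqp.one_le).1 hqmod.symm
  obtain ⟨L, hfd, hgal, ζ, I, hζ, π₀, hI, hπ, hκ, hcompat, hjoint⟩ := exists_big_field L₀ q
  set κ := hζ.autToPow ℚ with hκdef
  let P : Subgroup (L ≃ₐ[ℚ] L) :=
    { carrier := {y | y I = I}
      mul_mem' := by
        intro a b ha hb
        change a (b I) = I
        rw [hb, ha]
      one_mem' := rfl
      inv_mem' := by
        intro a ha
        change a.symm I = I
        rw [AlgEquiv.symm_apply_eq]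
        exact ha.symm }
  have hP : ∀ y : L ≃ₐ[ℚ] L, y * y ∈ P := by
    intro y
    change y (y I) = I
    have h1 : (y I - I) * (y I + I) = 0 := by
      have : (y I) ^ 2 = -1 := by rw [← map_pow, hI, map_neg, map_one]
      linear_combination this - hI
    rcases mul_eq_zero.1 h1 with h2 | h2
    · rw [sub_eq_zero.1 h2, sub_eq_zero.1 h2]
    · rw [eq_neg_of_add_eq_zero_left h2, map_neg, eq_neg_of_add_eq_zero_left h2, neg_neg]
  set S : Finset (L ≃ₐ[ℚ] L) :=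
    (Set.toFinite {x : L ≃ₐ[ℚ] L | π₀ x ∈ C ∧ n ∣ orderOf (κ x)}).toFinset with hS
  have hmemS : ∀ x, x ∈ S ↔ π₀ x ∈ C ∧ n ∣ orderOf (κ x) := by
    intro x
    rw [hS, Set.Finite.mem_toFinset]
    rfl
  have hSinv : ∀ x ∈ S, x⁻¹ ∈ S := by
    intro x hx
    rw [hmemS] at hx ⊢
    rw [map_inv, map_inv, orderOf_inv]
    exact ⟨hinv _ hx.1, hx.2⟩
  have hinj : ∀ x ∈ S, ∀ y ∈ Subgroup.zpowers x, hζ.autToPow ℚ y = 1 → y = 1 := by
    intro x hx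
    exact good_inj π₀ κ P hP (fun y h1 h2 h3 => hjoint y h1 h2 h3) x ((hmemS x).1 hx).2
  have hreal : ∀ x ∈ S, ∀ c ∈ Subgroup.zpowers x, c * c = 1 → c I = I := by
    intro x hx
    exact good_real (G₀ := L₀ ≃ₐ[ℚ] L₀) κ P hP x ((hmemS x).1 hx).2
  obtain ⟨C', hC'⟩ := cheb_type L hζ I hI B hB S hSinv hinj hreal
  have hcard := card_good_ge π₀ hπ κ hκ C k hdvd
  have hScard : (Nat.card {x : L ≃ₐ[ℚ] L // π₀ x ∈ C ∧ n ∣ orderOf (κ x)} : ℝ) = S.card := by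
    rw [hS, ← Set.ncard_eq_toFinset_card]
    rfl
  rw [hScard] at hcard
  have hG' : (0 : ℝ) < Nat.card (L ≃ₐ[ℚ] L) := by exact_mod_cast Nat.card_pos
  refine ⟨C' / Nat.card (L ≃ₐ[ℚ] L), ?_⟩
  filter_upwards [hC', Ioo_mem_nhdsGT (show (1 : ℝ) < 2 by norm_num)] with t ht ht12
  have hLL : 0 ≤ LL t := LL_nonneg ht12.1 ht12.2.le
  have hmono : pSum {p : ℕ | ¬ p ∣ B ∧ ∃ P : HeightOneSpectrum (𝓞 L), below L P = p ∧
        ∃ x ∈ S, ∀ τ : L ≃ₐ[ℚ] L, (∀ z : 𝓞 L, τ • z - z ^ below L P ∈ P.asIdeal) → τ = x} t ≤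
      pSum {p : ℕ | p.Prime ∧ ¬ p ∣ B ∧ ∃ A : ValuationSubring Qb, A.LiesOverPrime p ∧
          ∃ σ : Qb ≃ₐ[ℚ] Qb, A.IsFrobeniusAt σ p ∧ AlgEquiv.restrictNormalHom L₀ σ ∈ C} t := by
    apply pSum_mono _ ht12.1
    rintro p ⟨hpB, Q, rfl, x, hx, hfr⟩
    obtain ⟨A, hA1, hA2⟩ := exists_valuationSubring_over L Q
    obtain ⟨σ, hσ⟩ := Fermat.Agent.S54.exists_isFrobeniusAt A (below_prime L Q) hA1
    refine ⟨below_prime L Q, hpB, A, hA1, σ, hσ, ?_⟩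
    have h1 := hfr _ (frob_restrict L Q A hA2 σ hσ)
    rw [← hcompat, h1]
    exact ((hmemS x).1 hx).1
  have hn' : (n : ℝ) = 4 * Nat.card (L₀ ≃ₐ[ℚ] L₀) := by rw [hn]; push_cast; ring
  rw [← hn'] at hcard
  have h2 : ((Nat.card C : ℝ) / Nat.card (L₀ ≃ₐ[ℚ] L₀) - ε) * Nat.card (L ≃ₐ[ℚ] L) ≤ S.card := by
    refine le_trans ?_ hcard
    apply mul_le_mul_of_nonneg_right _ hG'.le
    linarith
  have h3 : ((Nat.card C : ℝ) / Nat.card (L₀ ≃ₐ[ℚ] L₀) - ε) * Nat.card (L ≃ₐ[ℚ] L) * LL t ≤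
      S.card * LL t := mul_le_mul_of_nonneg_right h2 hLL
  have h4 : (Nat.card (L ≃ₐ[ℚ] L) : ℝ) * (((Nat.card C : ℝ) / Nat.card (L₀ ≃ₐ[ℚ] L₀) - ε) * LL t -
      C' / Nat.card (L ≃ₐ[ℚ] L)) ≤ (Nat.card (L ≃ₐ[ℚ] L) : ℝ) *
      pSum {p : ℕ | p.Prime ∧ ¬ p ∣ B ∧ ∃ A : ValuationSubring Qb, A.LiesOverPrime p ∧
          ∃ σ : Qb ≃ₐ[ℚ] Qb, A.IsFrobeniusAt σ p ∧ AlgEquiv.restrictNormalHom L₀ σ ∈ C} t := by
    have h5 := mul_le_mul_of_nonneg_left hmono hG'.le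
    rw [mul_sub, mul_div_cancel₀ _ hG'.ne']
    linarith
  exact le_of_mul_le_mul_left h4 hG'

open _root_.Fermat.Agent.Cheb.Final in
/-- **Chebotarev's density theorem** (lower bound, Dirichlet density, inversion stable sets). -/
theorem chebotarev_lower (L₀ : IntermediateField ℚ Qb) [FiniteDimensional ℚ L₀] [IsGalois ℚ L₀]
    (C : Set (L₀ ≃ₐ[ℚ] L₀)) (hinv : ∀ g ∈ C, g⁻¹ ∈ C) (ε : ℝ) (hε : 0 < ε) (B : ℕ) (hB : B ≠ 0) :
    ∃ c : ℝ, ∀ t ∈ Set.Ioc (1 : ℝ) 2,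
      ((Nat.card C : ℝ) / Nat.card (L₀ ≃ₐ[ℚ] L₀) - ε) * Real.log (1 / (t - 1)) - c ≤
        ∑' p : {p : ℕ | p.Prime ∧ ¬ p ∣ B ∧ ∃ A : ValuationSubring Qb, A.LiesOverPrime p ∧
          ∃ σ : Qb ≃ₐ[ℚ] Qb, A.IsFrobeniusAt σ p ∧ AlgEquiv.restrictNormalHom L₀ σ ∈ C},
          ((p : ℕ) : ℝ) ^ (-t) := by
  obtain ⟨c, hc⟩ := chebotarev_eventually L₀ C hinv ε hε B hB
  rw [Filter.Eventually, mem_nhdsGT_iff_exists_Ioo_subset] at hc
  obtain ⟨u, hu, hsub⟩ := hc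
  set a := (Nat.card C : ℝ) / Nat.card (L₀ ≃ₐ[ℚ] L₀) - ε with ha
  refine ⟨max c (|a| * LL u), fun t ht => ?_⟩
  by_cases htu : t < u
  · have := hsub ⟨ht.1, htu⟩
    have h1 : a * LL t - c ≤ pSum {p : ℕ | p.Prime ∧ ¬ p ∣ B ∧ ∃ A : ValuationSubring Qb,
      A.LiesOverPrime p ∧ ∃ σ : Qb ≃ₐ[ℚ] Qb, A.IsFrobeniusAt σ p ∧
        AlgEquiv.restrictNormalHom L₀ σ ∈ C} t := this
    refine le_trans ?_ h1
    have := le_max_left c (|a| * LL u)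
    change a * LL t - _ ≤ _
    linarith
  · push Not at htu
    have h1 : 0 ≤ LL t := LL_nonneg ht.1 ht.2
    have h2 : LL t ≤ LL u := LL_anti hu htu
    have h3 : a * LL t ≤ |a| * LL u :=
      (mul_le_mul_of_nonneg_right (le_abs_self a) h1).trans
        (mul_le_mul_of_nonneg_left h2 (abs_nonneg a))
    have h4 := le_max_right c (|a| * LL u)
    have h5 : 0 ≤ pSum {p : ℕ | p.Prime ∧ ¬ p ∣ B ∧ ∃ A : ValuationSubring Qb,
      A.LiesOverPrime p ∧ ∃ σ : Qb ≃ₐ[ℚ] Qb, A.IsFrobeniusAt σ p ∧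
        AlgEquiv.restrictNormalHom L₀ σ ∈ C} t := pSum_nonneg _ _
    refine le_trans ?_ h5
    change a * LL t - _ ≤ 0
    linarith

end Fermat.Agent.Cheb
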