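import Fermat.Agent.Cheb.Defs

/-!
# Cheb D1/D2 : Frobenius elements at primes of a Galois number field

Sketch.
* `exists_isFrob`: Mathlib `Mathlib/RingTheory/Frobenius.lean`: `IsArithFrobAt.exists_of_isInvariant` (or `exists_primesOver...`; `Algebra.IsInvariant ℤ (𝓞 L) Gal(L/ℚ)` is an
  instance, cf. `FD/Local.lean`, `FD/Cyclic.lean` where `IsArithFrobAt ℤ τ P.asIdeal` is unfolded: `Nat.card (ℤ ⧸ P.under ℤ) = below L P` is `FD.cyclic_card_quot`).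
* `isFrob_unique`: `τ⁻¹ τ'` lies in the inertia group: for all `x`, `τ x ≡ x^p ≡ τ' x mod P`; `τ ∈ dec P` (`FD.mem_dec_of_frob`), so `τ⁻¹ P = P` and
  `τ⁻¹ τ' x - x = τ⁻¹ (τ' x - τ x) ∈ P`.  (Mathlib: `IsArithFrobAt.mul_inv_mem_inertia`.)
* `autToPow_eq_of_isFrob`: let `k = (hζ.autToPow ℚ τ : ZMod m).val`, `p = below L P`; `τ ζ = ζ^k` (`IsPrimitiveRoot.autToPow_spec`).  `ζ` is an algebraic integer
  (`hζ.isIntegral`), `ζ' : 𝓞 L` is a primitive `m`-th root of unity of `𝓞 L`.  `ζ'^k - ζ'^p ∈ P`.  If `(k : ZMod m) ≠ (p : ZMod m)` then `η = ζ'^k / ζ'^p`-type argument: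
  WLOG write `ζ'^k - ζ'^p = ± ζ'^{min} (1 - ζ'^{d})`, `m ∤ d`, `ζ'` is a unit, so `1 - ζ'^d ∈ P` with `ζ'^d ≠ 1` an `m`-th root of unity; then `(m : 𝓞 L) ∈ P`
  because `∏_{η^m = 1, η ≠ 1} (1 - η) = m` (cf. `Fermat.Agent.S14.natCast_mem_of_one_sub_mem` in `S14/Density/SplitPrimes.lean`; or: the image `η̄` of `ζ'^d` in the domain `𝓞 L ⧸ P`
  is `1`; evaluate `∑_{i<m} X^i = ∏_{η ≠ 1} (X - η)` at `1`; `IsPrimitiveRoot.pow_sub_one...`/`Polynomial.X_pow_sub_one_eq_prod`).  So `p ∣ m` (`FD.natCast_mem_iff`).  Contradiction.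
-/

set_option autoImplicit false

namespace Fermat.Agent.Cheb

open NumberField IsDedekindDomain Pointwise
open Fermat.Agent.FD Fermat.Agent.S14

variable (L : Type*) [Field L] [NumberField L]

namespace Frob

theorem isFrob_iff (P : HeightOneSpectrum (𝓞 L)) (τ : Gal(L/ℚ)) :
    IsFrob L P τ ↔ IsArithFrobAt ℤ τ P.asIdeal := by
  have hc : Nat.card (ℤ ⧸ P.asIdeal.under ℤ) = below L P := by
    unfold below
    rw [Ideal.absNorm_apply, Submodule.cardQuot_apply]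
  constructor
  · intro h x
    rw [hc]
    exact h x
  · intro h x
    have := h x
    rw [hc] at this
    exact this

end Frob

open Frob

theorem exists_isFrob [IsGalois ℚ L] (P : HeightOneSpectrum (𝓞 L)) : ∃ τ : Gal(L/ℚ), IsFrob L P τ := by
  have := P.isPrime
  have hfin : Finite (𝓞 L ⧸ P.asIdeal) := Ring.HasFiniteQuotients.finiteQuotient P.ne_bot
  obtain ⟨σ, hσ⟩ := IsArithFrobAt.exists_of_isInvariant ℤ Gal(L/ℚ) P.asIdeal
  exact ⟨σ, (isFrob_iff L P σ).2 hσ⟩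

theorem isFrob_unique [IsGalois ℚ L] (P : HeightOneSpectrum (𝓞 L))
    (hI : Ideal.inertia Gal(L/ℚ) P.asIdeal = ⊥) {τ τ' : Gal(L/ℚ)} (h : IsFrob L P τ)
    (h' : IsFrob L P τ') : τ = τ' := by
  have h1 := IsArithFrobAt.mul_inv_mem_inertia ((isFrob_iff L P τ).1 h) ((isFrob_iff L P τ').1 h')
  rw [hI, Subgroup.mem_bot] at h1
  exact mul_inv_eq_one.1 h1

theorem autToPow_eq_of_isFrob {m : ℕ} [NeZero m] {ζ : L} (hζ : IsPrimitiveRoot ζ m)
    (P : HeightOneSpectrum (𝓞 L)) (hP : ¬ below L P ∣ m) (τ : Gal(L/ℚ)) (hτ : IsFrob L P τ) :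
    ((hζ.autToPow ℚ τ : (ZMod m)ˣ) : ZMod m) = ((below L P : ℕ) : ZMod m) := by
  have hint : IsIntegral ℤ ζ := hζ.isIntegral (NeZero.pos m)
  let ζ' : 𝓞 L := ⟨ζ, hint⟩
  have hcoe : algebraMap (𝓞 L) L ζ' = ζ := RingOfIntegers.map_mk ζ hint
  have hζ' : ζ' ^ m = 1 := by
    apply RingOfIntegers.coe_injective
    show algebraMap (𝓞 L) L (ζ' ^ m) = algebraMap (𝓞 L) L 1
    rw [map_pow, map_one, hcoe]
    exact hζ.pow_eq_one
  have hm : (m : 𝓞 L) ∉ P.asIdeal := by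
    rw [natCast_mem_iff]
    exact hP
  have h1 := AlgHom.IsArithFrobAt.apply_of_pow_eq_one ((isFrob_iff L P τ).1 hτ) hζ' hm
  have hc : Nat.card (ℤ ⧸ P.asIdeal.under ℤ) = below L P := by
    unfold below
    rw [Ideal.absNorm_apply, Submodule.cardQuot_apply]
  rw [hc] at h1
  have h2 : τ ζ = ζ ^ below L P := by
    have h := congrArg (algebraMap (𝓞 L) L) h1
    rw [map_pow, hcoe] at h
    rw [← h, ← hcoe]
    rfl
  have h3 := hζ.autToPow_spec ℚ τ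
  rw [h2] at h3
  -- compare exponents
  have h4 : ζ ^ (below L P % m) = ζ ^ below L P := by
    conv_lhs => rw [hζ.eq_orderOf]
    exact pow_mod_orderOf ζ _
  rw [← h4] at h3
  have h5 := hζ.pow_inj (ZMod.val_lt _) (Nat.mod_lt _ (NeZero.pos m)) h3
  have h6 := congrArg (fun n : ℕ => (n : ZMod m)) h5
  simp only [ZMod.natCast_val, ZMod.cast_id', id, ZMod.natCast_mod] at h6
  exact h6

end Fermat.Agent.Cheb
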