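import Fermat.Agent.Cheb.NormPeriod
import Fermat.Agent.Cheb.ClassT
import Fermat.Agent.Cheb.CompareT
import Fermat.Agent.Cheb.Coprime

/-!
# Cheb A7 : `L(s, χ ∘ N)` is bounded near `s = 1` if `χ ∘ N` is a nontrivial ideal character (norms positive)

Sketch.  `f = normChar K χ`, `θ = thetaO K χ`, `t = torsionOrder K`, `C₀ = mk0 I₀`, `L_C = partialL K f C`.
`I₀` is prime to `m` (`coprime_of_normChar_ne_zero`).  For every class `C` pick `J = J_C` prime to `m` with `mk0 J = (C * C₀)⁻¹`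
(`exists_mk0_eq_coprime`); then `mk0 (I₀ * J) = C⁻¹`.  `latSumT_eq` twice:
 `latSumT θ J s = t * (lterm f s J * L_{C C₀}(s))`,  `latSumT θ (I₀ J) s = t * (lterm f s I₀ * lterm f s J * L_C(s))`
and `exists_latSumT_compare`:  `‖latSumT θ J s - N(I₀) latSumT θ (I₀ J) s‖ ≤ M_C`.  As `‖lterm f s J‖ = N(J)^{-s} ≥ N(J)^{-2}`
(`norm_normChar_eq_one`) and `t ≥ 1`:   `‖L_{C C₀}(s) - f(I₀) N(I₀)^{1-s} L_C(s)‖ ≤ M_C N(J_C)^2`.
Sum over `C` (`lsum_eq_sum_partialL`, `Equiv.sum_comp (Equiv.mulRight C₀)`):  `‖(1 - f(I₀) N(I₀)^{1-s}) * lsum f ∅ s‖ ≤ ∑_C M_C N(J_C)^2`.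
Finally `1 - f(I₀) N(I₀)^{1-s} → 1 - f(I₀) ≠ 0` as `s → 1` (continuity of `s ↦ N^{1-s}`), so eventually its norm is `≥ ‖1 - f(I₀)‖ / 2`.
-/

set_option autoImplicit false

namespace Fermat.Agent.Cheb

open NumberField IsDedekindDomain Filter Topology
open Fermat.Agent.FD Fermat.Agent.S14

variable (K : Type*) [Field K] [NumberField K]

namespace LBound

theorem one_le_absNorm (J : nonZeroDivisors (Ideal (𝓞 K))) :
    (1 : ℝ) ≤ (Ideal.absNorm (J : Ideal (𝓞 K)) : ℝ) := by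
  have h : Ideal.absNorm (J : Ideal (𝓞 K)) ≠ 0 := by
    rw [Ne, Ideal.absNorm_eq_zero_iff]
    exact nonZeroDivisors.coe_ne_zero J
  exact_mod_cast Nat.one_le_iff_ne_zero.2 h

theorem lterm_mul (f : nonZeroDivisors (Ideal (𝓞 K)) →* ℂ) (s : ℝ)
    (I J : nonZeroDivisors (Ideal (𝓞 K))) :
    lterm K f s (I * J) = lterm K f s I * lterm K f s J := by
  unfold lterm
  rw [map_mul, Submonoid.coe_mul, map_mul, Nat.cast_mul,
    Real.mul_rpow (Nat.cast_nonneg _) (Nat.cast_nonneg _), Complex.ofReal_mul]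
  ring

theorem natCast_mul_lterm (f : nonZeroDivisors (Ideal (𝓞 K)) →* ℂ) (s : ℝ)
    (I : nonZeroDivisors (Ideal (𝓞 K))) :
    (Ideal.absNorm (I : Ideal (𝓞 K)) : ℂ) * lterm K f s I =
      f I * (((Ideal.absNorm (I : Ideal (𝓞 K)) : ℝ) ^ (1 - s) : ℝ) : ℂ) := by
  unfold lterm
  have hpos : (0 : ℝ) < (Ideal.absNorm (I : Ideal (𝓞 K)) : ℝ) := by
    linarith [one_le_absNorm K I]
  have : ((Ideal.absNorm (I : Ideal (𝓞 K)) : ℝ) ^ (1 - s) : ℝ) =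
      (Ideal.absNorm (I : Ideal (𝓞 K)) : ℝ) * (Ideal.absNorm (I : Ideal (𝓞 K)) : ℝ) ^ (-s) := by
    rw [sub_eq_add_neg, Real.rpow_add hpos, Real.rpow_one]
  rw [this]
  push_cast
  ring

end LBound

open LBound in
/-- the step for one class. -/
theorem exists_partialL_shift_bound (hpos : NormPos K) {m : ℕ} [NeZero m]
    (χ : DirichletCharacter ℂ m) (I₀ : nonZeroDivisors (Ideal (𝓞 K)))
    (h0 : normChar K χ I₀ ≠ 0) (C : ClassGroup (𝓞 K)) :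
    ∃ M : ℝ, ∀ s : ℝ, 1 < s → s ≤ 2 →
      ‖partialL K (normChar K χ) (C * ClassGroup.mk0 I₀) s -
        normChar K χ I₀ * (((Ideal.absNorm (I₀ : Ideal (𝓞 K)) : ℝ) ^ (1 - s) : ℝ) : ℂ) *
          partialL K (normChar K χ) C s‖ ≤ M := by
  have hf : ∀ I, ‖normChar K χ I‖ ≤ 1 := norm_normChar_le_one K χ
  have hθ : ∀ (x : 𝓞 K) (hx : x ≠ 0), thetaO K χ x = normChar K χ (spanIdl K x hx) :=
    thetaO_eq_normChar K hpos χ
  have hcop := coprime_of_normChar_ne_zero K χ I₀ h0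
  obtain ⟨J, hJ, hJcop⟩ := exists_mk0_eq_coprime K (C * ClassGroup.mk0 I₀)⁻¹ m (NeZero.ne m)
  obtain ⟨M, hM⟩ := exists_latSumT_compare K (thetaO K χ) (norm_thetaO_le_one K χ) m
    (thetaO_add_mul K χ) J I₀ hcop
  have hJ2 : ClassGroup.mk0 (I₀ * J) = C⁻¹ := by
    rw [map_mul, hJ, mul_inv, mul_comm C⁻¹, mul_inv_cancel_left]
  have hNJ := one_le_absNorm K J
  set NJ : ℝ := (Ideal.absNorm (J : Ideal (𝓞 K)) : ℝ) with hNJdef
  have ht1 : (1 : ℝ) ≤ (NumberField.Units.torsionOrder K : ℝ) := by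
    exact_mod_cast (NumberField.Units.torsionOrder_pos K)
  refine ⟨M * NJ ^ 2, fun s hs hs2 => ?_⟩
  have e1 := latSumT_eq K (normChar K χ) hf (thetaO K χ) hθ J (C * ClassGroup.mk0 I₀) hJ hs
  have e2 := latSumT_eq K (normChar K χ) hf (thetaO K χ) hθ (I₀ * J) C hJ2 hs
  have hb := hM s hs hs2
  rw [e1, e2, lterm_mul] at hb
  set D := partialL K (normChar K χ) (C * ClassGroup.mk0 I₀) s -
        normChar K χ I₀ * (((Ideal.absNorm (I₀ : Ideal (𝓞 K)) : ℝ) ^ (1 - s) : ℝ) : ℂ) *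
          partialL K (normChar K χ) C s with hD
  have e3 : (NumberField.Units.torsionOrder K : ℂ) * (lterm K (normChar K χ) s J *
        partialL K (normChar K χ) (C * ClassGroup.mk0 I₀) s) -
      (Ideal.absNorm (I₀ : Ideal (𝓞 K)) : ℂ) * ((NumberField.Units.torsionOrder K : ℂ) *
        (lterm K (normChar K χ) s I₀ * lterm K (normChar K χ) s J *
          partialL K (normChar K χ) C s)) =
      (NumberField.Units.torsionOrder K : ℂ) * lterm K (normChar K χ) s J * D := by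
    rw [hD]
    linear_combination (-(NumberField.Units.torsionOrder K : ℂ) * lterm K (normChar K χ) s J *
      partialL K (normChar K χ) C s) * natCast_mul_lterm K (normChar K χ) s I₀
  rw [e3, norm_mul, norm_mul] at hb
  have hn1 : ‖(NumberField.Units.torsionOrder K : ℂ)‖ = (NumberField.Units.torsionOrder K : ℝ) := by
    simp
  have hNJpos : 0 < NJ := by linarith
  have hn2 : ‖lterm K (normChar K χ) s J‖ = NJ ^ (-s) := by
    unfold lterm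
    rw [norm_mul, norm_normChar_eq_one K χ J hJcop, one_mul, Complex.norm_real, Real.norm_eq_abs,
      abs_of_nonneg (Real.rpow_nonneg hNJpos.le _)]
  rw [hn1, hn2] at hb
  have hpw : NJ ^ (-(2 : ℝ)) ≤ NJ ^ (-s) :=
    Real.rpow_le_rpow_of_exponent_le hNJ (by linarith)
  have hpw2 : NJ ^ (-(2 : ℝ)) = (NJ ^ 2)⁻¹ := by
    rw [Real.rpow_neg hNJpos.le]
    norm_num
  have hDn : 0 ≤ ‖D‖ := norm_nonneg D
  have h5 : (NJ ^ 2)⁻¹ * ‖D‖ ≤ M := by
    calc (NJ ^ 2)⁻¹ * ‖D‖ ≤ ((NumberField.Units.torsionOrder K : ℝ) * NJ ^ (-s)) * ‖D‖ := by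
          refine mul_le_mul_of_nonneg_right ?_ hDn
          rw [← hpw2]
          calc NJ ^ (-(2 : ℝ)) ≤ NJ ^ (-s) := hpw
            _ = 1 * NJ ^ (-s) := (one_mul _).symm
            _ ≤ _ := mul_le_mul_of_nonneg_right ht1 (Real.rpow_nonneg hNJpos.le _)
      _ ≤ M := hb
  have hsq : 0 < NJ ^ 2 := by positivity
  rw [inv_mul_le_iff₀ hsq] at h5
  linarith

open LBound in
theorem exists_norm_lsum_normChar_le (hpos : NormPos K) {m : ℕ} [NeZero m]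
    (χ : DirichletCharacter ℂ m) (I₀ : nonZeroDivisors (Ideal (𝓞 K)))
    (h0 : normChar K χ I₀ ≠ 0) (h1 : normChar K χ I₀ ≠ 1) :
    ∃ M : ℝ, ∀ᶠ s in 𝓝[>] (1 : ℝ), ‖lsum (normChar K χ) ∅ s‖ ≤ M := by
  have hf : ∀ I, ‖normChar K χ I‖ ≤ 1 := norm_normChar_le_one K χ
  choose M hM using exists_partialL_shift_bound K hpos χ I₀ h0
  set f₀ : ℂ := normChar K χ I₀ with hf₀
  set N₀ : ℝ := (Ideal.absNorm (I₀ : Ideal (𝓞 K)) : ℝ) with hN₀
  have hN₀pos : 0 < N₀ := by linarith [one_le_absNorm K I₀]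
  set d : ℝ := ‖1 - f₀‖ / 2 with hd
  have hd0 : 0 < ‖1 - f₀‖ := norm_pos_iff.2 (sub_ne_zero.2 (Ne.symm h1))
  have hdpos : 0 < d := by positivity
  -- the factor stays away from zero
  have hcont : Continuous fun s : ℝ => ‖1 - f₀ * ((N₀ ^ (1 - s) : ℝ) : ℂ)‖ := by
    have h2 : Continuous fun s : ℝ => N₀ ^ (1 - s) :=
      (Real.continuous_const_rpow hN₀pos.ne').comp (by fun_prop)
    fun_prop
  have htend : Tendsto (fun s : ℝ => ‖1 - f₀ * ((N₀ ^ (1 - s) : ℝ) : ℂ)‖) (𝓝[>] 1) (𝓝 ‖1 - f₀‖) := by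
    have := (hcont.tendsto 1).mono_left (nhdsWithin_le_nhds (s := Set.Ioi 1))
    simpa using this
  have hev : ∀ᶠ s in 𝓝[>] (1 : ℝ), d < ‖1 - f₀ * ((N₀ ^ (1 - s) : ℝ) : ℂ)‖ :=
    htend.eventually_const_lt (by rw [hd]; linarith)
  refine ⟨(∑ C, M C) / d, ?_⟩
  filter_upwards [hev, Ioo_mem_nhdsGT (show (1 : ℝ) < 2 by norm_num)] with s hs1 hs12
  obtain ⟨hs, hs2⟩ := hs12
  have e1 := lsum_eq_sum_partialL K (normChar K χ) hf hs
  have e2 : ∑ C : ClassGroup (𝓞 K), partialL K (normChar K χ) (C * ClassGroup.mk0 I₀) s =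
      ∑ C : ClassGroup (𝓞 K), partialL K (normChar K χ) C s :=
    Equiv.sum_comp (Equiv.mulRight (ClassGroup.mk0 I₀)) fun C => partialL K (normChar K χ) C s
  have e3 : (1 - f₀ * ((N₀ ^ (1 - s) : ℝ) : ℂ)) * lsum (normChar K χ) ∅ s =
      ∑ C : ClassGroup (𝓞 K), (partialL K (normChar K χ) (C * ClassGroup.mk0 I₀) s -
        f₀ * ((N₀ ^ (1 - s) : ℝ) : ℂ) * partialL K (normChar K χ) C s) := by
    rw [Finset.sum_sub_distrib, e2, ← Finset.mul_sum, ← e1]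
    ring
  have e4 : ‖(1 - f₀ * ((N₀ ^ (1 - s) : ℝ) : ℂ)) * lsum (normChar K χ) ∅ s‖ ≤ ∑ C, M C := by
    rw [e3]
    exact (norm_sum_le _ _).trans (Finset.sum_le_sum fun C _ => hM C s hs hs2.le)
  rw [norm_mul] at e4
  rw [le_div_iff₀ hdpos]
  calc ‖lsum (normChar K χ) ∅ s‖ * d ≤ ‖lsum (normChar K χ) ∅ s‖ * ‖1 - f₀ * ((N₀ ^ (1 - s) : ℝ) : ℂ)‖ :=
        mul_le_mul_of_nonneg_left hs1.le (norm_nonneg _)
    _ = ‖1 - f₀ * ((N₀ ^ (1 - s) : ℝ) : ℂ)‖ * ‖lsum (normChar K χ) ∅ s‖ := mul_comm _ _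
    _ ≤ _ := e4

end Fermat.Agent.Cheb
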