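import Fermat.Agent.Cheb.Defs

/-!
# Cheb A1 : `χ(N x)` is periodic modulo `m`, and equals `χ(N (x))` when norms are positive

Sketch.
* `norm_add_mul_cast`: `Algebra.norm ℤ x = det (Algebra.leftMulMatrix b x)` for a `ℤ`-basis `b` of `𝓞 K`
  (`Algebra.norm_eq_matrix_det`, `NumberField.RingOfIntegers.basis` / `Module.Free.chooseBasis ℤ (𝓞 K)`).  Apply the ring hom
  `Int.castRingHom (ZMod m)` (`RingHom.map_det`, `RingHom.mapMatrix_apply`): the matrix of `x + m y` is
  `leftMulMatrix x + m • leftMulMatrix y` (`map_add`, `map_mul`, `map_natCast`), whose image in `ZMod m` is the image of the matrix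
  of `x` (`CharP.cast_eq_zero`).
* `thetaO_eq_normChar`: `Ideal.absNorm_span_singleton : absNorm (span {r}) = (Algebra.norm ℤ r).natAbs`; for positive norm
  `((n.natAbs : ℕ) : ZMod m) = ((n : ℤ) : ZMod m)` (`Int.natAbs_of_nonneg`, `Int.cast_natCast`).
* norms `≤ 1`: `DirichletCharacter.norm_le_one`.
-/

set_option autoImplicit false
set_option linter.unusedSectionVars false

namespace Fermat.Agent.Cheb

open NumberField IsDedekindDomain
open Fermat.Agent.FD Fermat.Agent.S14

variable (K : Type*) [Field K] [NumberField K]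

theorem norm_add_mul_cast (m : ℕ) (x y : 𝓞 K) :
    ((Algebra.norm ℤ (x + (m : 𝓞 K) * y) : ℤ) : ZMod m) = ((Algebra.norm ℤ x : ℤ) : ZMod m) := by
  classical
  set b := Module.Free.chooseBasis ℤ (𝓞 K) with hb
  rw [Algebra.norm_eq_matrix_det b, Algebra.norm_eq_matrix_det b]
  change Int.castRingHom (ZMod m) _ = Int.castRingHom (ZMod m) _
  rw [RingHom.map_det, RingHom.map_det]
  congr 1
  rw [map_add, map_mul, map_natCast, map_add, map_mul, map_natCast]
  have : ((m : ℕ) : Matrix (Module.Free.ChooseBasisIndex ℤ (𝓞 K)) (Module.Free.ChooseBasisIndex ℤ (𝓞 K)) (ZMod m)) = 0 := by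
    ext i j
    rw [← Matrix.diagonal_natCast]  
    by_cases h : i = j
    · subst h; simp
    · simp [h]
  rw [this, zero_mul, add_zero]

theorem thetaO_add_mul {m : ℕ} (χ : DirichletCharacter ℂ m) (x y : 𝓞 K) :
    thetaO K χ (x + (m : 𝓞 K) * y) = thetaO K χ x := by
  unfold thetaO
  rw [norm_add_mul_cast]

theorem thetaO_eq_normChar (hpos : NormPos K) {m : ℕ} (χ : DirichletCharacter ℂ m) (x : 𝓞 K)
    (hx : x ≠ 0) : thetaO K χ x = normChar K χ (spanIdl K x hx) := by
  change χ ((Algebra.norm ℤ x : ℤ) : ZMod m) = χ ((Ideal.absNorm (Ideal.span {x}) : ℕ) : ZMod m)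
  rw [Ideal.absNorm_span_singleton]
  congr 1
  have h := hpos x hx
  conv_lhs => rw [← Int.natAbs_of_nonneg h.le]
  rw [Int.cast_natCast]

theorem norm_thetaO_le_one {m : ℕ} (χ : DirichletCharacter ℂ m) (x : 𝓞 K) : ‖thetaO K χ x‖ ≤ 1 :=
  DirichletCharacter.norm_le_one χ _

theorem norm_normChar_le_one {m : ℕ} (χ : DirichletCharacter ℂ m)
    (I : nonZeroDivisors (Ideal (𝓞 K))) : ‖normChar K χ I‖ ≤ 1 :=
  DirichletCharacter.norm_le_one χ _

end Fermat.Agent.Cheb
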