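import Fermat.Agent.Cheb.EulerRe
import Fermat.Agent.Cheb.LBound

/-!
# Cheb B2 : `reSum K χ δ s ≤ C` near `s = 1` for a nontrivial `χ ∘ N`

Sketch.  `g v = Re χ(N v) N v^{-s}`, `|g v| ≤ N v^{-s}`, summable.  `∑' v, g v = ∑'_{v ∈ goodOne} g v + ∑'_{v ∉ goodOne} g v`
(`Summable.tsum_subtype_add_tsum_subtype_compl`), and `|∑'_{v ∉ goodOne} g v| ≤ primeSum (goodOne K δ)ᶜ s ≤ primeSum {¬ N v prime} s + primeSum {below v ∣ δ} s ≤ C₁ + n`
(`primeSum_not_prime_le`, `finite_below_dvd`, `primeSum_le_ncard_of_finite`, `primeSum_union_le`, `primeSum_mono`), as in `FD.primeSum_goodOne_bounds`.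
`normChar K χ (primeIdl v) = χ (N v)` by `rfl`.
Then `exists_exp_re_le_norm_lsum` + `exists_norm_lsum_normChar_le`: `exp (∑' g - C) ≤ M`, so `∑' g ≤ log M + C` (`Real.exp_le ...`/`Real.le_log_iff_exp_le`,
`M > 0` because `exp > 0`).
-/

set_option autoImplicit false

namespace Fermat.Agent.Cheb

open NumberField IsDedekindDomain Filter Topology
open Fermat.Agent.FD Fermat.Agent.S14

variable (K : Type*) [Field K] [NumberField K]

theorem resum_abs_re_le {m : ℕ} (χ : DirichletCharacter ℂ m) (a : ZMod m) : |(χ a).re| ≤ 1 :=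
  (Complex.abs_re_le_norm _).trans (DirichletCharacter.norm_le_one χ a)

theorem resum_abs_term_le {m : ℕ} (χ : DirichletCharacter ℂ m) (s : ℝ)
    (v : HeightOneSpectrum (𝓞 K)) :
    |(χ ((Ideal.absNorm v.asIdeal : ℕ) : ZMod m)).re * (Ideal.absNorm v.asIdeal : ℝ) ^ (-s)| ≤
      (Ideal.absNorm v.asIdeal : ℝ) ^ (-s) := by
  have h0 : 0 ≤ (Ideal.absNorm v.asIdeal : ℝ) ^ (-s) := Real.rpow_nonneg (Nat.cast_nonneg _) _
  rw [abs_mul, abs_of_nonneg h0]
  exact mul_le_of_le_one_left h0 (resum_abs_re_le χ _)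

theorem summable_reSum_term {m : ℕ} (χ : DirichletCharacter ℂ m) {s : ℝ} (hs : 1 < s) :
    Summable fun v : HeightOneSpectrum (𝓞 K) =>
      (χ ((Ideal.absNorm v.asIdeal : ℕ) : ZMod m)).re * (Ideal.absNorm v.asIdeal : ℝ) ^ (-s) :=
  Summable.of_norm_bounded (summable_primeNorm_rpow K hs) fun v => by
    rw [Real.norm_eq_abs]; exact resum_abs_term_le K χ s v

theorem exists_reSum_le_tsum {m : ℕ} (χ : DirichletCharacter ℂ m) {δ : ℕ} (hδ : δ ≠ 0) :
    ∃ C : ℝ, ∀ s : ℝ, 1 < s →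
      reSum K χ δ s ≤ (∑' v : HeightOneSpectrum (𝓞 K),
        (normChar K χ (primeIdl v)).re * (Ideal.absNorm v.asIdeal : ℝ) ^ (-s)) + C := by
  obtain ⟨C₁, hC₁⟩ := primeSum_not_prime_le K
  set n : ℝ := ({P : HeightOneSpectrum (𝓞 K) | below K P ∣ δ}.ncard : ℝ) with hn
  refine ⟨C₁ + n, fun s hs => ?_⟩
  have hsum := summable_primeNorm_rpow K hs
  have hg := summable_reSum_term K χ hs
  have hsplit := hg.tsum_subtype_add_tsum_subtype_compl (goodOne K δ)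
  have e : (∑' v : HeightOneSpectrum (𝓞 K),
      (normChar K χ (primeIdl v)).re * (Ideal.absNorm v.asIdeal : ℝ) ^ (-s)) =
      ∑' v : HeightOneSpectrum (𝓞 K),
      (χ ((Ideal.absNorm v.asIdeal : ℕ) : ZMod m)).re * (Ideal.absNorm v.asIdeal : ℝ) ^ (-s) := rfl
  rw [e, ← hsplit]
  have h1 : -(∑' x : ((goodOne K δ)ᶜ : Set (HeightOneSpectrum (𝓞 K))),
      (χ ((Ideal.absNorm (x : HeightOneSpectrum (𝓞 K)).asIdeal : ℕ) : ZMod m)).re *
        (Ideal.absNorm (x : HeightOneSpectrum (𝓞 K)).asIdeal : ℝ) ^ (-s)) ≤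
      primeSum (goodOne K δ)ᶜ s := by
    rw [← tsum_neg]
    unfold primeSum
    refine Summable.tsum_le_tsum (fun x => ?_) (hg.subtype _).neg (hsum.subtype _)
    exact (neg_le_abs _).trans (resum_abs_term_le K χ s x)
  have h2 : primeSum (goodOne K δ)ᶜ s ≤ C₁ + n := by
    have hsub : (goodOne K δ)ᶜ ⊆
        {v : HeightOneSpectrum (𝓞 K) | ¬ (Ideal.absNorm v.asIdeal).Prime} ∪
          {P : HeightOneSpectrum (𝓞 K) | below K P ∣ δ} := by
      intro v hv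
      by_cases hp : (Ideal.absNorm v.asIdeal).Prime
      · right
        by_contra hd
        exact hv ⟨hd, hp⟩
      · left; exact hp
    calc primeSum (goodOne K δ)ᶜ s ≤ _ := primeSum_mono hsub hsum
      _ ≤ _ := primeSum_union_le _ _ hsum
      _ ≤ C₁ + n := add_le_add (hC₁ s hs.le)
          (primeSum_le_ncard_of_finite (finite_below_dvd K hδ) (by linarith))
  unfold reSum
  linarith

theorem exists_reSum_le (hpos : NormPos K) {m : ℕ} [NeZero m]
    (χ : DirichletCharacter ℂ m) {δ : ℕ} (hδ : δ ≠ 0) (I₀ : nonZeroDivisors (Ideal (𝓞 K)))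
    (h0 : normChar K χ I₀ ≠ 0) (h1 : normChar K χ I₀ ≠ 1) :
    ∃ C : ℝ, ∀ᶠ s in 𝓝[>] (1 : ℝ), reSum K χ δ s ≤ C := by
  obtain ⟨C₁, hC₁⟩ := exists_reSum_le_tsum K χ hδ
  obtain ⟨C₂, hC₂⟩ := exists_exp_re_le_norm_lsum K
  obtain ⟨M, hM⟩ := exists_norm_lsum_normChar_le K hpos χ I₀ h0 h1
  refine ⟨Real.log M + C₂ + C₁, ?_⟩
  filter_upwards [hM, self_mem_nhdsWithin] with s hMs hs
  have hs' : 1 < s := hs
  have h3 := (hC₂ (normChar K χ) (norm_normChar_le_one K χ) s hs').trans hMs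
  have hMpos : 0 < M := lt_of_lt_of_le (Real.exp_pos _) h3
  have h4 := (Real.le_log_iff_exp_le hMpos).2 h3
  have h5 := hC₁ s hs'
  linarith

end Fermat.Agent.Cheb
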