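import Fermat.Agent.Cheb.Char
import Fermat.Agent.Cheb.ReSum

/-!
# Cheb C2 : `reSum` and residue classes

Sketch.  `s > 1`.  For `w ∈ goodOne K δ` and `m ∣ δ` the norm `N w = below w` is a prime not dividing `m`, so it is a unit `b_w` of `ZMod m`
(`absNorm_eq_below_of_prime`, `ZMod.isUnit_iff_coprime`/`ZMod.unitOfCoprime`, `Nat.Prime.coprime_iff_not_dvd`).
* `sum_reSum_eq`: exchange the finite sum over `χ` with the `tsum` (`Summable.tsum_finsetSum`/`tsum_finsetSum`, `tsum_mul_left`, summability from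
  `summable_reSum_term` restricted to the subtype), apply `sum_re_mul_re a b_w` termwise, and split
  `∑'_{w ∈ goodOne} (1[b_w = a] + 1[b_w = a⁻¹]) N w^{-s} = primeSum (goodRes a) + primeSum (goodRes a⁻¹)`
  (`primeSum_eq_tsum_indicator`, `tsum_subtype`, `Summable.tsum_add`; indicator manipulations as in `FD.tSum_eq_sum_aSum`).
* `reSum_eq_primeSum`: termwise `χ (N w) = 1`.
-/

set_option autoImplicit false

namespace Fermat.Agent.Cheb

open NumberField IsDedekindDomain Filter Topology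
open Fermat.Agent.FD Fermat.Agent.S14

variable (K : Type*) [Field K] [NumberField K] {m : ℕ} [NeZero m]

omit [NeZero m] in
theorem primeSum_goodRes_eq (δ : ℕ) (c : ZMod m) (s : ℝ) :
    primeSum (goodRes K δ m c) s = ∑' w : goodOne K δ,
      (if ((Ideal.absNorm (w : HeightOneSpectrum (𝓞 K)).asIdeal : ℕ) : ZMod m) = c
        then (1 : ℝ) else 0) *
        (Ideal.absNorm (w : HeightOneSpectrum (𝓞 K)).asIdeal : ℝ) ^ (-s) := by
  rw [primeSum_eq_tsum_indicator, tsum_subtype (goodOne K δ) (fun v : HeightOneSpectrum (𝓞 K) =>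
    (if ((Ideal.absNorm v.asIdeal : ℕ) : ZMod m) = c then (1 : ℝ) else 0) *
      (Ideal.absNorm v.asIdeal : ℝ) ^ (-s))]
  refine tsum_congr fun v => ?_
  by_cases hv : v ∈ goodOne K δ
  · rw [Set.indicator_of_mem hv]
    by_cases hc : ((Ideal.absNorm v.asIdeal : ℕ) : ZMod m) = c
    · rw [Set.indicator_of_mem (show v ∈ goodRes K δ m c from ⟨hv, hc⟩), if_pos hc, one_mul]
    · rw [Set.indicator_of_notMem (show v ∉ goodRes K δ m c from fun h => hc h.2), if_neg hc,
        zero_mul]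
  · rw [Set.indicator_of_notMem hv,
      Set.indicator_of_notMem (show v ∉ goodRes K δ m c from fun h => hv h.1)]

omit [NeZero m] in
theorem summable_goodRes_term (δ : ℕ) (c : ZMod m) {s : ℝ} (hs : 1 < s) :
    Summable fun w : goodOne K δ =>
      (if ((Ideal.absNorm (w : HeightOneSpectrum (𝓞 K)).asIdeal : ℕ) : ZMod m) = c
        then (1 : ℝ) else 0) *
        (Ideal.absNorm (w : HeightOneSpectrum (𝓞 K)).asIdeal : ℝ) ^ (-s) := by
  refine Summable.of_nonneg_of_le (fun w => ?_) (fun w => ?_)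
    ((summable_primeNorm_rpow K hs).subtype (goodOne K δ))
  · have h0 : 0 ≤ (Ideal.absNorm (w : HeightOneSpectrum (𝓞 K)).asIdeal : ℝ) ^ (-s) :=
      Real.rpow_nonneg (Nat.cast_nonneg _) _
    split_ifs
    · rw [one_mul]; exact h0
    · rw [zero_mul]
  · have h0 : 0 ≤ (Ideal.absNorm (w : HeightOneSpectrum (𝓞 K)).asIdeal : ℝ) ^ (-s) :=
      Real.rpow_nonneg (Nat.cast_nonneg _) _
    simp only [Function.comp]
    split_ifs
    · rw [one_mul]
    · rw [zero_mul]; exact h0

theorem sum_reSum_eq {δ : ℕ} (hmδ : m ∣ δ) (a : (ZMod m)ˣ) {s : ℝ} (hs : 1 < s) :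
    ∑ χ : DirichletCharacter ℂ m, 2 * (χ (a : ZMod m)).re * reSum K χ δ s =
      (m.totient : ℝ) * (primeSum (goodRes K δ m (a : ZMod m)) s +
        primeSum (goodRes K δ m ((a⁻¹ : (ZMod m)ˣ) : ZMod m)) s) := by
  have hcop : ∀ w : goodOne K δ,
      Nat.Coprime (Ideal.absNorm (w : HeightOneSpectrum (𝓞 K)).asIdeal) m := by
    intro w
    obtain ⟨hd, hp⟩ := w.2
    rw [hp.coprime_iff_not_dvd, absNorm_eq_below_of_prime K _ hp]
    exact fun h => hd (h.trans hmδ)
  let b : goodOne K δ → (ZMod m)ˣ := fun w => ZMod.unitOfCoprime _ (hcop w)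
  have hb : ∀ w : goodOne K δ, ((b w : (ZMod m)ˣ) : ZMod m) =
      ((Ideal.absNorm (w : HeightOneSpectrum (𝓞 K)).asIdeal : ℕ) : ZMod m) :=
    fun w => ZMod.coe_unitOfCoprime _ _
  have step1 : ∀ χ : DirichletCharacter ℂ m, 2 * (χ (a : ZMod m)).re * reSum K χ δ s =
      ∑' w : goodOne K δ, 2 * (χ (a : ZMod m)).re * ((χ ((b w : (ZMod m)ˣ) : ZMod m)).re *
        (Ideal.absNorm (w : HeightOneSpectrum (𝓞 K)).asIdeal : ℝ) ^ (-s)) := by
    intro χ
    unfold reSum
    rw [← tsum_mul_left]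
    refine tsum_congr fun w => ?_
    rw [hb]
  have hsm : ∀ χ : DirichletCharacter ℂ m, Summable fun w : goodOne K δ =>
      2 * (χ (a : ZMod m)).re * ((χ ((b w : (ZMod m)ˣ) : ZMod m)).re *
        (Ideal.absNorm (w : HeightOneSpectrum (𝓞 K)).asIdeal : ℝ) ^ (-s)) := by
    intro χ
    refine Summable.mul_left _ ?_
    have := (summable_reSum_term K χ hs).subtype (goodOne K δ)
    refine this.congr fun w => ?_
    simp only [Function.comp, hb]
  rw [Finset.sum_congr rfl fun χ _ => step1 χ, ← Summable.tsum_finsetSum fun χ _ => hsm χ,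
    primeSum_goodRes_eq, primeSum_goodRes_eq,
    ← (summable_goodRes_term K δ _ hs).tsum_add (summable_goodRes_term K δ _ hs), ← tsum_mul_left]
  refine tsum_congr fun w => ?_
  have e1 : ∑ χ : DirichletCharacter ℂ m, 2 * (χ (a : ZMod m)).re *
      ((χ ((b w : (ZMod m)ˣ) : ZMod m)).re *
        (Ideal.absNorm (w : HeightOneSpectrum (𝓞 K)).asIdeal : ℝ) ^ (-s)) =
      (∑ χ : DirichletCharacter ℂ m, 2 * (χ (a : ZMod m)).re *
        (χ ((b w : (ZMod m)ˣ) : ZMod m)).re) *
        (Ideal.absNorm (w : HeightOneSpectrum (𝓞 K)).asIdeal : ℝ) ^ (-s) := by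
    rw [Finset.sum_mul]
    exact Finset.sum_congr rfl fun χ _ => by ring
  rw [e1, sum_re_mul_re]
  have e2 : ∀ c : (ZMod m)ˣ, (if b w = c then (1 : ℝ) else 0) =
      if ((Ideal.absNorm (w : HeightOneSpectrum (𝓞 K)).asIdeal : ℕ) : ZMod m) = (c : ZMod m)
        then (1 : ℝ) else 0 := by
    intro c
    refine if_congr ?_ rfl rfl
    rw [← hb, Units.ext_iff]
  rw [e2, e2]
  ring

theorem reSum_eq_primeSum (χ : DirichletCharacter ℂ m) (δ : ℕ)
    (h : ∀ w ∈ goodOne K δ, χ ((Ideal.absNorm w.asIdeal : ℕ) : ZMod m) = 1) (s : ℝ) :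
    reSum K χ δ s = primeSum (goodOne K δ) s := by
  unfold reSum primeSum
  refine tsum_congr fun w => ?_
  rw [h w w.2, Complex.one_re, one_mul]

end Fermat.Agent.Cheb
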