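import Fermat.Agent.Cheb.Core

/-!
# Cheb H0 : the type level statement, for an arbitrary `ℚ`-algebra structure

Sketch.  `obtain rfl : a = DivisionRing.toRatAlgebra := Subsingleton.elim _ _` (as in `FD.exists_prime_frob_generates`).  `FD.exists_inertia_eq_bot L (B * m) _` gives `δ ≠ 0`,
`B * m ∣ δ`, `UnramOutside L δ`.  `cheb_sum`, then `pSum_mono`: if `¬ p ∣ δ` then `¬ p ∣ B`; if `IsFrob L P x` and `τ` is another Frobenius then `τ = x` (`isFrob_unique`).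
`pSum_mono`: `Summable.tsum_le_tsum_of_inj`/`tsum_le_tsum_of_inj` or indicators (`tsum_subtype`), summability of `n ↦ n^{-s}` (`Real.summable_nat_rpow`).
-/

set_option autoImplicit false
set_option linter.unusedSectionVars false

namespace Fermat.Agent.Cheb

open NumberField IsDedekindDomain Pointwise Filter Topology
open Fermat.Agent.FD Fermat.Agent.S14

theorem pSum_nonneg (S : Set ℕ) (s : ℝ) : 0 ≤ pSum S s :=
  tsum_nonneg fun _ => Real.rpow_nonneg (Nat.cast_nonneg _) _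

theorem pSum_mono {S T : Set ℕ} (h : S ⊆ T) {s : ℝ} (hs : 1 < s) : pSum S s ≤ pSum T s := by
  have hsum : Summable fun n : ℕ => (n : ℝ) ^ (-s) := Real.summable_nat_rpow.mpr (by linarith)
  unfold pSum
  rw [tsum_subtype S (fun n : ℕ => (n : ℝ) ^ (-s)), tsum_subtype T (fun n : ℕ => (n : ℝ) ^ (-s))]
  exact Summable.tsum_le_tsum
    (fun n => Set.indicator_le_indicator_of_subset h
      (fun _ => Real.rpow_nonneg (Nat.cast_nonneg _) _) n)
    (hsum.indicator S) (hsum.indicator T)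

theorem cheb_type (L : Type*) [Field L] [NumberField L] [a : Algebra ℚ L] [IsGalois ℚ L]
    {m : ℕ} [NeZero m] {ζ : L} (hζ : IsPrimitiveRoot ζ m) (I : L) (hI : I ^ 2 = -1)
    (B : ℕ) (hB : B ≠ 0) (S : Finset (L ≃ₐ[ℚ] L)) (hSinv : ∀ x ∈ S, x⁻¹ ∈ S)
    (hinj : ∀ x ∈ S, ∀ y ∈ Subgroup.zpowers x, hζ.autToPow ℚ y = 1 → y = 1)
    (hreal : ∀ x ∈ S, ∀ c ∈ Subgroup.zpowers x, c * c = 1 → c I = I) :
    ∃ C : ℝ, ∀ᶠ s in 𝓝[>] (1 : ℝ), (S.card : ℝ) * LL s - C ≤ (Nat.card (L ≃ₐ[ℚ] L) : ℝ) *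
      pSum {p : ℕ | ¬ p ∣ B ∧ ∃ P : HeightOneSpectrum (𝓞 L), below L P = p ∧
        ∃ x ∈ S, ∀ τ : L ≃ₐ[ℚ] L, (∀ z : 𝓞 L, τ • z - z ^ below L P ∈ P.asIdeal) → τ = x} s := by
  obtain rfl : a = DivisionRing.toRatAlgebra := Subsingleton.elim _ _
  obtain ⟨δ, hδ0, hBδ, hδ⟩ := exists_inertia_eq_bot L (B * m) (mul_ne_zero hB (NeZero.ne m))
  obtain ⟨C, hC⟩ := cheb_sum L hζ I hI δ hδ0 hδ ((dvd_mul_left m B).trans hBδ) S hSinv hinj hreal
  refine ⟨C, ?_⟩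
  filter_upwards [hC, self_mem_nhdsWithin] with s hs hs1
  refine hs.trans (mul_le_mul_of_nonneg_left (pSum_mono ?_ hs1) (Nat.cast_nonneg _))
  rintro p ⟨hp, P, rfl, x, hx, hfr⟩
  refine ⟨fun h => hp ((h.trans (dvd_mul_right B m)).trans hBδ), P, rfl, x, hx, fun τ hτ => ?_⟩
  exact isFrob_unique L P (hδ P hp) hτ hfr

end Fermat.Agent.Cheb
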