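import Fermat.Agent.Cheb.Defs
import Fermat.Agent.S14.Density.Unfold

/-!
# Cheb A2 : twisted unfolding

`∑_{x ∈ J} θ(x) ρ(x) |N x|^{-s} = t * ∑_{(x) ⊆ J} f((x)) N(x)^{-s}`, `t = torsionOrder K`, if `θ(x) = f((x))` for `x ≠ 0`.

Sketch.  COPY the proof of `Fermat.Agent.S14.hasSum_wtO_ideal` (`S14/Density/Unfold.lean`, 100 lines) with the extra factor:
restrict to `x ≠ 0` (`wtO_zero`), map `π : x ↦ (x)`, the fibre over `I = (x₀)` is `{u x₀}`, on it `θ = f I` is constant, so the fibre sum is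
`f I * (t * N I^{-s})` (`hasSum_wtO_unit_mul`, `HasSum.mul_left`, `Complex.hasSum_ofReal` / `HasSum.ofReal`...), glue with
`HasSum.sigma_of_hasSum`.  Summability of the total family: `Summable.of_norm_bounded` by `wtO` (`(hasSum_wtO_ideal K J hs).summable`,
restricted / transported along the same equivalences), since `‖θ x‖ = ‖f _‖ ≤ 1`.
-/

set_option autoImplicit false

namespace Fermat.Agent.Cheb

open NumberField IsDedekindDomain NumberField.Units
open Fermat.Agent.FD Fermat.Agent.S14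

variable (K : Type*) [Field K] [NumberField K]

theorem hasSum_latSumT (f : nonZeroDivisors (Ideal (𝓞 K)) →* ℂ) (hf : ∀ I, ‖f I‖ ≤ 1)
    (θ : 𝓞 K → ℂ) (hθ : ∀ (x : 𝓞 K) (hx : x ≠ 0), θ x = f (spanIdl K x hx))
    (J : nonZeroDivisors (Ideal (𝓞 K))) {s : ℝ} (hs : 1 < s) :
    HasSum (fun x : (J : Ideal (𝓞 K)) => θ (x : 𝓞 K) * ((wtO K s (x : 𝓞 K) : ℝ) : ℂ))
      ((torsionOrder K : ℂ) *
        ∑' I : {I : nonZeroDivisors (Ideal (𝓞 K)) //
            (J : Ideal (𝓞 K)) ∣ (I : Ideal (𝓞 K)) ∧ (I : Ideal (𝓞 K)).IsPrincipal},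
          lterm K f s I) := by
  classical
  have hs0 : 0 < s := by linarith
  have hsumJ : Summable (fun x : (J : Ideal (𝓞 K)) =>
      θ (x : 𝓞 K) * ((wtO K s (x : 𝓞 K) : ℝ) : ℂ)) := by
    refine Summable.of_norm_bounded (hasSum_wtO_ideal K J hs).summable ?_
    intro x
    rw [norm_mul, Complex.norm_real, Real.norm_of_nonneg (wtO_nonneg K s _)]
    rcases eq_or_ne (x : 𝓞 K) 0 with h0 | h0
    · rw [h0, wtO_zero K hs0]; simp
    · rw [hθ _ h0]
      exact mul_le_of_le_one_left (wtO_nonneg K s _) (hf _)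
  -- restrict to the nonzero elements
  set S : Set (J : Ideal (𝓞 K)) := {x | (x : 𝓞 K) ≠ 0} with hS
  refine (hasSum_subtype_iff_of_support_subset (s := S) ?_).mp ?_
  · intro x hx
    rw [Function.mem_support] at hx
    intro h0
    apply hx
    rw [h0, wtO_zero K hs0]
    simp
  -- the map to principal ideals
  let P := {I : nonZeroDivisors (Ideal (𝓞 K)) //
            (J : Ideal (𝓞 K)) ∣ (I : Ideal (𝓞 K)) ∧ (I : Ideal (𝓞 K)).IsPrincipal}
  let π : S → P := fun x => ⟨spanIdl K ((x : (J : Ideal (𝓞 K))) : 𝓞 K) x.2,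
      Ideal.dvd_span_singleton.mpr x.1.2, ⟨⟨_, rfl⟩⟩⟩
  let g : P → ℂ := fun I => (torsionOrder K : ℂ) * lterm K f s I
  have hltsum : Summable (fun I : P => lterm K f s I) := by
    refine Summable.of_norm_bounded ((summable_idealNorm_rpow K hs).subtype _) ?_
    intro I
    rw [lterm, norm_mul, Complex.norm_real,
      Real.norm_of_nonneg (Real.rpow_nonneg (Nat.cast_nonneg _) _)]
    exact mul_le_of_le_one_left (Real.rpow_nonneg (Nat.cast_nonneg _) _) (hf _)
  have hg : HasSum g ((torsionOrder K : ℂ) * ∑' I : P, lterm K f s I) := by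
    apply HasSum.mul_left
    exact hltsum.hasSum
  -- the fibres
  have hfib : ∀ I : P, HasSum (fun x : {x : S // π x = I} =>
      θ (((x : S) : (J : Ideal (𝓞 K))) : 𝓞 K) *
        ((wtO K s (((x : S) : (J : Ideal (𝓞 K))) : 𝓞 K) : ℝ) : ℂ)) (g I) := by
    intro I
    obtain ⟨⟨x₀, hx₀⟩⟩ := I.2.2
    have hx₀' : ((I : nonZeroDivisors (Ideal (𝓞 K))) : Ideal (𝓞 K)) = Ideal.span {x₀} := hx₀
    have hx₀ne : x₀ ≠ 0 := by
      intro h0
      have h1 := nonZeroDivisors.ne_zero I.1.2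
      apply h1
      rw [hx₀', h0]
      simp
    have hx₀J : x₀ ∈ (J : Ideal (𝓞 K)) := by
      rw [← Ideal.dvd_span_singleton, ← hx₀']
      exact I.2.1
    let e : (𝓞 K)ˣ → {x : S // π x = I} := fun u =>
      ⟨⟨⟨(u : 𝓞 K) * x₀, Ideal.mul_mem_left _ _ hx₀J⟩, mul_ne_zero u.ne_zero hx₀ne⟩, by
        apply Subtype.ext
        apply Subtype.ext
        show Ideal.span {(u : 𝓞 K) * x₀} = _
        rw [hx₀', Ideal.span_singleton_mul_left_unit u.isUnit]⟩
    have he : Function.Bijective e := by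
      constructor
      · intro u u' h
        have h1 : (u : 𝓞 K) * x₀ = (u' : 𝓞 K) * x₀ :=
          congrArg (fun x : {x : S // π x = I} => (((x : S) : (J : Ideal (𝓞 K))) : 𝓞 K)) h
        exact Units.ext (mul_right_cancel₀ hx₀ne h1)
      · intro x
        have h1 : Ideal.span {(((x : S) : (J : Ideal (𝓞 K))) : 𝓞 K)} = Ideal.span {x₀} := by
          rw [← hx₀']
          exact congrArg (fun I : P => ((I : nonZeroDivisors (Ideal (𝓞 K))) : Ideal (𝓞 K))) x.2
        obtain ⟨u, hu⟩ := (Ideal.span_singleton_eq_span_singleton.mp h1).symm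
        refine ⟨u, ?_⟩
        apply Subtype.ext
        apply Subtype.ext
        apply Subtype.ext
        show (u : 𝓞 K) * x₀ = _
        rw [← hu, mul_comm]
    have hconst : ∀ x : {x : S // π x = I},
        θ (((x : S) : (J : Ideal (𝓞 K))) : 𝓞 K) = f (I : nonZeroDivisors (Ideal (𝓞 K))) := by
      intro x
      rw [hθ _ x.1.2]
      exact congrArg (fun I : P => f (I : nonZeroDivisors (Ideal (𝓞 K)))) x.2
    have hfun : (fun x : {x : S // π x = I} =>
        θ (((x : S) : (J : Ideal (𝓞 K))) : 𝓞 K) *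
          ((wtO K s (((x : S) : (J : Ideal (𝓞 K))) : 𝓞 K) : ℝ) : ℂ)) =
        fun x : {x : S // π x = I} => f (I : nonZeroDivisors (Ideal (𝓞 K))) *
          ((wtO K s (((x : S) : (J : Ideal (𝓞 K))) : 𝓞 K) : ℝ) : ℂ) := by
      funext x
      rw [hconst x]
    rw [hfun]
    have hgI : g I = f (I : nonZeroDivisors (Ideal (𝓞 K))) *
        (((torsionOrder K : ℝ) *
          (Ideal.absNorm ((I : nonZeroDivisors (Ideal (𝓞 K))) : Ideal (𝓞 K)) : ℝ) ^ (-s) : ℝ) : ℂ) := by
      show (torsionOrder K : ℂ) * lterm K f s I = _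
      rw [lterm]
      push_cast
      ring
    rw [hgI]
    apply HasSum.mul_left
    refine ((Equiv.ofBijective e he).hasSum_iff).mp ?_
    have h2 := hasSum_wtO_unit_mul K s hx₀ne
    rw [← hx₀'] at h2
    exact (Complex.hasSum_ofReal.mpr h2)
  -- glue
  refine ((Equiv.sigmaFiberEquiv π).hasSum_iff).mp ?_
  refine HasSum.sigma_of_hasSum hg hfib ?_
  exact ((Equiv.sigmaFiberEquiv π).summable_iff).mpr (hsumJ.subtype S)

end Fermat.Agent.Cheb
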